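/-
GATE-Q (S52), node Q2 (SYMMETRY), file 1: definitions.
Klein's icosahedral forms in `U = u^5`, `V = v^5`, the cone curve `y^2 = x^3 + A x + B`
(`A = -27 c4`, `B = 54 T`, i.e. `c6 = -T`), the RATIONAL 5-torsion section `Q0 = (xQ, yQ)`
(polynomials in `u, v` with integer coefficients) and the `ζ`-section `P0 = (x0, y0)`
(coefficients in `ℚ(ζ)`, `ζ` a root of the 5th cyclotomic polynomial), with `Q0 = P0 ∘ S`.
Mathlib only.
-/
import Mathlib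

set_option autoImplicit false

namespace Fermat.Agent.G35.Sym

variable {K : Type*}

section CommRing
variable [CommRing K]

/-- Klein's form `-H` in `U = u^5, V = v^5` (degree 4). -/
def c4UV (U V : K) : K := U ^ 4 + V ^ 4 - 228 * (U ^ 3 * V - U * V ^ 3) + 494 * U ^ 2 * V ^ 2

/-- Klein's form `T` in `U = u^5, V = v^5` (degree 6). -/
def tUV (U V : K) : K :=
  U ^ 6 + V ^ 6 + 522 * (U ^ 5 * V - U * V ^ 5) - 10005 * (U ^ 4 * V ^ 2 + U ^ 2 * V ^ 4)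

/-- The quadratic factor `U^2 + 11UV - V^2`. -/
def qUV (U V : K) : K := U ^ 2 + 11 * U * V - V ^ 2

/-- `f^5` in `U, V`. -/
def f5UV (U V : K) : K := U * V * qUV U V ^ 5

/-- Klein's icosahedral form `f` (degree 12 in `u, v`). -/
def fuv (u v : K) : K := u * v * (u ^ 10 + 11 * u ^ 5 * v ^ 5 - v ^ 10)

theorem c4UV_cube_sub_tUV_sq (U V : K) :
    c4UV U V ^ 3 - tUV U V ^ 2 = -1728 * f5UV U V := by
  unfold c4UV tUV f5UV qUV; ring

theorem fuv_pow_five (u v : K) : fuv u v ^ 5 = f5UV (u ^ 5) (v ^ 5) := by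
  unfold fuv f5UV qUV; ring

/-- `a₄` of the cone curve at `(u, v)`. -/
def coneA (u v : K) : K := -27 * c4UV (u ^ 5) (v ^ 5)

/-- `a₆` of the cone curve at `(u, v)`. -/
def coneB (u v : K) : K := 54 * tUV (u ^ 5) (v ^ 5)

/-- `x`-coordinate of the rational 5-torsion section `Q0`. -/
def xQ (u v : K) : K :=
  3 * u ^ 10 - 36 * u ^ 9 * v + 72 * u ^ 8 * v ^ 2 - 108 * u ^ 7 * v ^ 3 + 180 * u ^ 6 * v ^ 4
    - 90 * u ^ 5 * v ^ 5 + 72 * u ^ 4 * v ^ 6 + 36 * u ^ 3 * v ^ 7 + 36 * u ^ 2 * v ^ 8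
    + 3 * v ^ 10

/-- `y`-coordinate of the rational 5-torsion section `Q0`. -/
def yQ (u v : K) : K :=
  108 * u ^ 14 * v - 432 * u ^ 13 * v ^ 2 + 972 * u ^ 12 * v ^ 3 - 1620 * u ^ 11 * v ^ 4
    + 2700 * u ^ 10 * v ^ 5 - 3132 * u ^ 9 * v ^ 6 + 2268 * u ^ 8 * v ^ 7 - 648 * u ^ 7 * v ^ 8
    + 540 * u ^ 6 * v ^ 9 + 432 * u ^ 4 * v ^ 11 - 108 * u ^ 3 * v ^ 12 + 108 * u ^ 2 * v ^ 13

/-- `Q0` lies on the cone curve (pure integer identity, no `ζ`). -/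
theorem yQ_sq (u v : K) :
    yQ u v ^ 2 = xQ u v ^ 3 + coneA u v * xQ u v + coneB u v := by
  unfold yQ xQ coneA coneB c4UV tUV; ring

end CommRing

end Fermat.Agent.G35.Sym
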