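/-
GATE-Q (S52), node Q2 (SYMMETRY), file 2: the `ζ`-section `P0 = (x0, y0)` of the cone curve.
`z` is any root of the 5th cyclotomic polynomial in a field of characteristic zero.
Mathlib only.
-/
import Fermat.Agent.G35.Sym.Defs

set_option autoImplicit false

namespace Fermat.Agent.G35.Sym

variable {K : Type*} [Field K] [CharZero K]

/-- `√5 = 1 + 2 (ζ + ζ⁴)`. -/
def sqrt5 (z : K) : K := 1 + 2 * (z + z ^ 4)

theorem sqrt5_sq {z : K} (hz : z ^ 4 + z ^ 3 + z ^ 2 + z + 1 = 0) : sqrt5 z ^ 2 = 5 := by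
  unfold sqrt5
  linear_combination (4 * z ^ 4 - 4 * z ^ 3 + 8 * z - 4) * hz

/-- `x`-coordinate of `P0` in `U = u^5`, `V = v^5`. -/
def x0UV (z U V : K) : K :=
  -((15 + 18 / 5 * sqrt5 z) * U ^ 2 + 198 / 5 * sqrt5 z * U * V + (15 - 18 / 5 * sqrt5 z) * V ^ 2)

/-- `y`-coordinate of `P0` in `U = u^5`, `V = v^5`. -/
def y0UV (z U V : K) : K :=
  108 / 5 * ((2 + 4 * z + 3 * z ^ 2 + z ^ 3) * U ^ 3
    + (23 + 46 * z + 32 * z ^ 2 + 14 * z ^ 3) * U ^ 2 * V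
    + (9 + 18 * z - 14 * z ^ 2 + 32 * z ^ 3) * U * V ^ 2
    + (-1 - 2 * z + z ^ 2 - 3 * z ^ 3) * V ^ 3)

/-- `P0` lies on the cone curve (in `U, V`). -/
theorem y0UV_sq {z : K} (hz : z ^ 4 + z ^ 3 + z ^ 2 + z + 1 = 0) (U V : K) :
    y0UV z U V ^ 2 = x0UV z U V ^ 3 + (-27 * c4UV U V) * x0UV z U V + 54 * tUV U V := by
  unfold y0UV x0UV sqrt5 c4UV tUV
  linear_combination
    ((46656 / 125) * z ^ 8 * U ^ 6 - (46656 / 125) * z ^ 7 * U ^ 6 + (139968 / 125) * z ^ 5 *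
      U ^ 6 + (221616 / 125) * z ^ 4 * U ^ 6 - (314928 / 125) * z ^ 3 * U ^ 6 + (151632 / 125)
      * z ^ 2 * U ^ 6 + (34992 / 5) * z * U ^ 6 + (968112 / 125) * U ^ 6 + (1539648 / 125) * z
      ^ 8 * U ^ 5 * V - (1539648 / 125) * z ^ 7 * U ^ 5 * V + (4618944 / 125) * z ^ 5 * U ^ 5 *
      V + (4105728 / 125) * z ^ 4 * U ^ 5 * V - (7185024 / 125) * z ^ 3 * U ^ 5 * V + (4712256
      / 125) * z ^ 2 * U ^ 5 * V + (793152 / 5) * z * U ^ 5 * V + (21158496 / 125) * U ^ 5 * V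
      + (3359232 / 25) * z ^ 8 * U ^ 4 * V ^ 2 - (3359232 / 25) * z ^ 7 * U ^ 4 * V ^ 2 +
      (10077696 / 25) * z ^ 5 * U ^ 4 * V ^ 2 + (1959552 / 25) * z ^ 4 * U ^ 4 * V ^ 2 -
      (8678016 / 25) * z ^ 3 * U ^ 4 * V ^ 2 + (9751104 / 25) * z ^ 2 * U ^ 4 * V ^ 2 + 933120
      * z * U ^ 4 * V ^ 2 + (22464864 / 25) * U ^ 4 * V ^ 2 + (11803968 / 25) * z ^ 8 * U ^ 3 *
      V ^ 3 - (11803968 / 25) * z ^ 7 * U ^ 3 * V ^ 3 + (35411904 / 25) * z ^ 5 * U ^ 3 * V ^ 3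
      - (17705952 / 25) * z ^ 4 * U ^ 3 * V ^ 3 - (5901984 / 25) * z ^ 3 * U ^ 3 * V ^ 3 +
      (33988896 / 25) * z ^ 2 * U ^ 3 * V ^ 3 + 349920 * z * U ^ 3 * V ^ 3 - (6718464 / 25) * U
      ^ 3 * V ^ 3 - (3359232 / 25) * z ^ 8 * U ^ 2 * V ^ 4 + (3359232 / 25) * z ^ 7 * U ^ 2 * V
      ^ 4 - (10077696 / 25) * z ^ 5 * U ^ 2 * V ^ 4 + (12037248 / 25) * z ^ 4 * U ^ 2 * V ^ 4 -
      (5318784 / 25) * z ^ 3 * U ^ 2 * V ^ 4 + (4245696 / 25) * z ^ 2 * U ^ 2 * V ^ 4 - 373248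
      * z * U ^ 2 * V ^ 4 + (5528736 / 25) * U ^ 2 * V ^ 4 + (1539648 / 125) * z ^ 8 * U * V ^
      5 - (1539648 / 125) * z ^ 7 * U * V ^ 5 + (4618944 / 125) * z ^ 5 * U * V ^ 5 - (8724672
      / 125) * z ^ 4 * U * V ^ 5 + (5645376 / 125) * z ^ 3 * U * V ^ 5 - (8118144 / 125) * z ^
      2 * U * V ^ 5 + (279936 / 5) * z * U * V ^ 5 - (4502304 / 125) * U * V ^ 5 - (46656 /
      125) * z ^ 8 * V ^ 6 + (46656 / 125) * z ^ 7 * V ^ 6 - (139968 / 125) * z ^ 5 * V ^ 6 +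
      (361584 / 125) * z ^ 4 * V ^ 6 - (268272 / 125) * z ^ 3 * V ^ 6 + (431568 / 125) * z ^ 2
      * V ^ 6 - (11664 / 5) * z * V ^ 6 + (198288 / 125) * V ^ 6) * hz

/-- `x`-coordinate of `P0`. -/
def x0 (z u v : K) : K := x0UV z (u ^ 5) (v ^ 5)

/-- `y`-coordinate of `P0`. -/
def y0 (z u v : K) : K := y0UV z (u ^ 5) (v ^ 5)

theorem y0_sq {z : K} (hz : z ^ 4 + z ^ 3 + z ^ 2 + z + 1 = 0) (u v : K) :
    y0 z u v ^ 2 = x0 z u v ^ 3 + coneA u v * x0 z u v + coneB u v :=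
  y0UV_sq hz _ _

end Fermat.Agent.G35.Sym
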