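/-
GATE-Q (S52), node Q2 (SYMMETRY), file 4: the diagonal generator `T̃ = diag(ζ³, ζ²)` acting on the
cone: `(u, v) ↦ (ζ³ u, ζ² v)`.  It fixes `U = u⁵`, `V = v⁵`, hence `c4, T, P0`; the section `Q0`
moves to `(XQT, YQT)`.  Mathlib only.
-/
import Fermat.Agent.G35.Sym.P0

set_option autoImplicit false
set_option maxHeartbeats 800000

namespace Fermat.Agent.G35.Sym

variable {K : Type*} [Field K] [CharZero K]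

omit [CharZero K] in
theorem z_pow_five {z : K} (hz : z ^ 4 + z ^ 3 + z ^ 2 + z + 1 = 0) : z ^ 5 = 1 := by
  linear_combination (z - 1) * hz

omit [CharZero K] in
theorem T_u_pow_five {z : K} (hz : z ^ 4 + z ^ 3 + z ^ 2 + z + 1 = 0) (u : K) : (z ^ 3 * u) ^ 5 = u ^ 5 := by
  have h := z_pow_five hz
  calc (z ^ 3 * u) ^ 5 = (z ^ 5) ^ 3 * u ^ 5 := by ring
    _ = u ^ 5 := by rw [h]; ring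

omit [CharZero K] in
theorem T_v_pow_five {z : K} (hz : z ^ 4 + z ^ 3 + z ^ 2 + z + 1 = 0) (v : K) : (z ^ 2 * v) ^ 5 = v ^ 5 := by
  have h := z_pow_five hz
  calc (z ^ 2 * v) ^ 5 = (z ^ 5) ^ 2 * v ^ 5 := by ring
    _ = v ^ 5 := by rw [h]; ring

omit [CharZero K] in
theorem coneA_T {z : K} (hz : z ^ 4 + z ^ 3 + z ^ 2 + z + 1 = 0) (u v : K) : coneA (z ^ 3 * u) (z ^ 2 * v) = coneA u v := by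
  unfold coneA; rw [T_u_pow_five hz, T_v_pow_five hz]

omit [CharZero K] in
theorem coneB_T {z : K} (hz : z ^ 4 + z ^ 3 + z ^ 2 + z + 1 = 0) (u v : K) : coneB (z ^ 3 * u) (z ^ 2 * v) = coneB u v := by
  unfold coneB; rw [T_u_pow_five hz, T_v_pow_five hz]

omit [CharZero K] in
theorem fuv_T {z : K} (hz : z ^ 4 + z ^ 3 + z ^ 2 + z + 1 = 0) (u v : K) : fuv (z ^ 3 * u) (z ^ 2 * v) = fuv u v := by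
  have h := z_pow_five hz
  have e : fuv (z ^ 3 * u) (z ^ 2 * v)
      = z ^ 5 * (u * v * ((z ^ 5) ^ 6 * u ^ 10 + 11 * (z ^ 5) ^ 5 * u ^ 5 * v ^ 5
          - (z ^ 5) ^ 4 * v ^ 10)) := by
    unfold fuv; ring
  rw [e, h]; unfold fuv; ring

theorem x0_T {z : K} (hz : z ^ 4 + z ^ 3 + z ^ 2 + z + 1 = 0) (u v : K) : x0 z (z ^ 3 * u) (z ^ 2 * v) = x0 z u v := by
  unfold x0; rw [T_u_pow_five hz, T_v_pow_five hz]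

theorem y0_T {z : K} (hz : z ^ 4 + z ^ 3 + z ^ 2 + z + 1 = 0) (u v : K) : y0 z (z ^ 3 * u) (z ^ 2 * v) = y0 z u v := by
  unfold y0; rw [T_u_pow_five hz, T_v_pow_five hz]

/-- `x(Q0 ∘ T̃)`, coefficients reduced modulo the cyclotomic relation. -/
def XQT (z u v : K) : K :=
  3 * u ^ 10 + 36 * z ^ 3 * u ^ 9 * v + 36 * z ^ 2 * u ^ 9 * v + 36 * z * u ^ 9 * v + 36 * u ^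
  9 * v + 72 * z ^ 3 * u ^ 8 * v ^ 2 - 108 * z ^ 2 * u ^ 7 * v ^ 3 + 180 * z * u ^ 6 * v ^ 4 -
  90 * u ^ 5 * v ^ 5 - 72 * z ^ 3 * u ^ 4 * v ^ 6 - 72 * z ^ 2 * u ^ 4 * v ^ 6 - 72 * z * u ^ 4
  * v ^ 6 - 72 * u ^ 4 * v ^ 6 + 36 * z ^ 3 * u ^ 3 * v ^ 7 + 36 * z ^ 2 * u ^ 2 * v ^ 8 + 3 *
  v ^ 10

/-- `y(Q0 ∘ T̃)`, coefficients reduced modulo the cyclotomic relation. -/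
def YQT (z u v : K) : K :=
  -108 * z ^ 3 * u ^ 14 * v - 108 * z ^ 2 * u ^ 14 * v - 108 * z * u ^ 14 * v - 108 * u ^ 14 *
  v - 432 * z ^ 3 * u ^ 13 * v ^ 2 + 972 * z ^ 2 * u ^ 12 * v ^ 3 - 1620 * z * u ^ 11 * v ^ 4 +
  2700 * u ^ 10 * v ^ 5 + 3132 * z ^ 3 * u ^ 9 * v ^ 6 + 3132 * z ^ 2 * u ^ 9 * v ^ 6 + 3132 *
  z * u ^ 9 * v ^ 6 + 3132 * u ^ 9 * v ^ 6 + 2268 * z ^ 3 * u ^ 8 * v ^ 7 - 648 * z ^ 2 * u ^ 7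
  * v ^ 8 + 540 * z * u ^ 6 * v ^ 9 - 432 * z ^ 3 * u ^ 4 * v ^ 11 - 432 * z ^ 2 * u ^ 4 * v ^
  11 - 432 * z * u ^ 4 * v ^ 11 - 432 * u ^ 4 * v ^ 11 - 108 * z ^ 3 * u ^ 3 * v ^ 12 + 108 * z
  ^ 2 * u ^ 2 * v ^ 13

omit [CharZero K] in
theorem xQ_T {z : K} (hz : z ^ 4 + z ^ 3 + z ^ 2 + z + 1 = 0) (u v : K) : xQ (z ^ 3 * u) (z ^ 2 * v) = XQT z u v := by
  unfold xQ XQT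
  linear_combination
    (3 * z ^ 26 * u ^ 10 - 3 * z ^ 25 * u ^ 10 + 3 * z ^ 21 * u ^ 10 - 3 * z ^ 20 * u ^ 10 + 3
      * z ^ 16 * u ^ 10 - 3 * z ^ 15 * u ^ 10 + 3 * z ^ 11 * u ^ 10 - 3 * z ^ 10 * u ^ 10 + 3 *
      z ^ 6 * u ^ 10 - 3 * z ^ 5 * u ^ 10 + 3 * z * u ^ 10 - 3 * u ^ 10 - 36 * z ^ 25 * u ^ 9 *
      v + 36 * z ^ 24 * u ^ 9 * v - 36 * z ^ 20 * u ^ 9 * v + 36 * z ^ 19 * u ^ 9 * v - 36 * z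
      ^ 15 * u ^ 9 * v + 36 * z ^ 14 * u ^ 9 * v - 36 * z ^ 10 * u ^ 9 * v + 36 * z ^ 9 * u ^ 9
      * v - 36 * z ^ 5 * u ^ 9 * v + 36 * z ^ 4 * u ^ 9 * v - 36 * u ^ 9 * v + 72 * z ^ 24 * u
      ^ 8 * v ^ 2 - 72 * z ^ 23 * u ^ 8 * v ^ 2 + 72 * z ^ 19 * u ^ 8 * v ^ 2 - 72 * z ^ 18 * u
      ^ 8 * v ^ 2 + 72 * z ^ 14 * u ^ 8 * v ^ 2 - 72 * z ^ 13 * u ^ 8 * v ^ 2 + 72 * z ^ 9 * u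
      ^ 8 * v ^ 2 - 72 * z ^ 8 * u ^ 8 * v ^ 2 + 72 * z ^ 4 * u ^ 8 * v ^ 2 - 72 * z ^ 3 * u ^
      8 * v ^ 2 - 108 * z ^ 23 * u ^ 7 * v ^ 3 + 108 * z ^ 22 * u ^ 7 * v ^ 3 - 108 * z ^ 18 *
      u ^ 7 * v ^ 3 + 108 * z ^ 17 * u ^ 7 * v ^ 3 - 108 * z ^ 13 * u ^ 7 * v ^ 3 + 108 * z ^
      12 * u ^ 7 * v ^ 3 - 108 * z ^ 8 * u ^ 7 * v ^ 3 + 108 * z ^ 7 * u ^ 7 * v ^ 3 - 108 * z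
      ^ 3 * u ^ 7 * v ^ 3 + 108 * z ^ 2 * u ^ 7 * v ^ 3 + 180 * z ^ 22 * u ^ 6 * v ^ 4 - 180 *
      z ^ 21 * u ^ 6 * v ^ 4 + 180 * z ^ 17 * u ^ 6 * v ^ 4 - 180 * z ^ 16 * u ^ 6 * v ^ 4 +
      180 * z ^ 12 * u ^ 6 * v ^ 4 - 180 * z ^ 11 * u ^ 6 * v ^ 4 + 180 * z ^ 7 * u ^ 6 * v ^ 4
      - 180 * z ^ 6 * u ^ 6 * v ^ 4 + 180 * z ^ 2 * u ^ 6 * v ^ 4 - 180 * z * u ^ 6 * v ^ 4 -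
      90 * z ^ 21 * u ^ 5 * v ^ 5 + 90 * z ^ 20 * u ^ 5 * v ^ 5 - 90 * z ^ 16 * u ^ 5 * v ^ 5 +
      90 * z ^ 15 * u ^ 5 * v ^ 5 - 90 * z ^ 11 * u ^ 5 * v ^ 5 + 90 * z ^ 10 * u ^ 5 * v ^ 5 -
      90 * z ^ 6 * u ^ 5 * v ^ 5 + 90 * z ^ 5 * u ^ 5 * v ^ 5 - 90 * z * u ^ 5 * v ^ 5 + 90 * u
      ^ 5 * v ^ 5 + 72 * z ^ 20 * u ^ 4 * v ^ 6 - 72 * z ^ 19 * u ^ 4 * v ^ 6 + 72 * z ^ 15 * u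
      ^ 4 * v ^ 6 - 72 * z ^ 14 * u ^ 4 * v ^ 6 + 72 * z ^ 10 * u ^ 4 * v ^ 6 - 72 * z ^ 9 * u
      ^ 4 * v ^ 6 + 72 * z ^ 5 * u ^ 4 * v ^ 6 - 72 * z ^ 4 * u ^ 4 * v ^ 6 + 72 * u ^ 4 * v ^
      6 + 36 * z ^ 19 * u ^ 3 * v ^ 7 - 36 * z ^ 18 * u ^ 3 * v ^ 7 + 36 * z ^ 14 * u ^ 3 * v ^
      7 - 36 * z ^ 13 * u ^ 3 * v ^ 7 + 36 * z ^ 9 * u ^ 3 * v ^ 7 - 36 * z ^ 8 * u ^ 3 * v ^ 7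
      + 36 * z ^ 4 * u ^ 3 * v ^ 7 - 36 * z ^ 3 * u ^ 3 * v ^ 7 + 36 * z ^ 18 * u ^ 2 * v ^ 8 -
      36 * z ^ 17 * u ^ 2 * v ^ 8 + 36 * z ^ 13 * u ^ 2 * v ^ 8 - 36 * z ^ 12 * u ^ 2 * v ^ 8 +
      36 * z ^ 8 * u ^ 2 * v ^ 8 - 36 * z ^ 7 * u ^ 2 * v ^ 8 + 36 * z ^ 3 * u ^ 2 * v ^ 8 - 36
      * z ^ 2 * u ^ 2 * v ^ 8 + 3 * z ^ 16 * v ^ 10 - 3 * z ^ 15 * v ^ 10 + 3 * z ^ 11 * v ^ 10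
      - 3 * z ^ 10 * v ^ 10 + 3 * z ^ 6 * v ^ 10 - 3 * z ^ 5 * v ^ 10 + 3 * z * v ^ 10 - 3 * v
      ^ 10) * hz

omit [CharZero K] in
theorem yQ_T {z : K} (hz : z ^ 4 + z ^ 3 + z ^ 2 + z + 1 = 0) (u v : K) : yQ (z ^ 3 * u) (z ^ 2 * v) = YQT z u v := by
  unfold yQ YQT
  linear_combination
    (108 * z ^ 40 * u ^ 14 * v - 108 * z ^ 39 * u ^ 14 * v + 108 * z ^ 35 * u ^ 14 * v - 108 *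
      z ^ 34 * u ^ 14 * v + 108 * z ^ 30 * u ^ 14 * v - 108 * z ^ 29 * u ^ 14 * v + 108 * z ^
      25 * u ^ 14 * v - 108 * z ^ 24 * u ^ 14 * v + 108 * z ^ 20 * u ^ 14 * v - 108 * z ^ 19 *
      u ^ 14 * v + 108 * z ^ 15 * u ^ 14 * v - 108 * z ^ 14 * u ^ 14 * v + 108 * z ^ 10 * u ^
      14 * v - 108 * z ^ 9 * u ^ 14 * v + 108 * z ^ 5 * u ^ 14 * v - 108 * z ^ 4 * u ^ 14 * v +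
      108 * u ^ 14 * v - 432 * z ^ 39 * u ^ 13 * v ^ 2 + 432 * z ^ 38 * u ^ 13 * v ^ 2 - 432 *
      z ^ 34 * u ^ 13 * v ^ 2 + 432 * z ^ 33 * u ^ 13 * v ^ 2 - 432 * z ^ 29 * u ^ 13 * v ^ 2 +
      432 * z ^ 28 * u ^ 13 * v ^ 2 - 432 * z ^ 24 * u ^ 13 * v ^ 2 + 432 * z ^ 23 * u ^ 13 * v
      ^ 2 - 432 * z ^ 19 * u ^ 13 * v ^ 2 + 432 * z ^ 18 * u ^ 13 * v ^ 2 - 432 * z ^ 14 * u ^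
      13 * v ^ 2 + 432 * z ^ 13 * u ^ 13 * v ^ 2 - 432 * z ^ 9 * u ^ 13 * v ^ 2 + 432 * z ^ 8 *
      u ^ 13 * v ^ 2 - 432 * z ^ 4 * u ^ 13 * v ^ 2 + 432 * z ^ 3 * u ^ 13 * v ^ 2 + 972 * z ^
      38 * u ^ 12 * v ^ 3 - 972 * z ^ 37 * u ^ 12 * v ^ 3 + 972 * z ^ 33 * u ^ 12 * v ^ 3 - 972
      * z ^ 32 * u ^ 12 * v ^ 3 + 972 * z ^ 28 * u ^ 12 * v ^ 3 - 972 * z ^ 27 * u ^ 12 * v ^ 3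
      + 972 * z ^ 23 * u ^ 12 * v ^ 3 - 972 * z ^ 22 * u ^ 12 * v ^ 3 + 972 * z ^ 18 * u ^ 12 *
      v ^ 3 - 972 * z ^ 17 * u ^ 12 * v ^ 3 + 972 * z ^ 13 * u ^ 12 * v ^ 3 - 972 * z ^ 12 * u
      ^ 12 * v ^ 3 + 972 * z ^ 8 * u ^ 12 * v ^ 3 - 972 * z ^ 7 * u ^ 12 * v ^ 3 + 972 * z ^ 3
      * u ^ 12 * v ^ 3 - 972 * z ^ 2 * u ^ 12 * v ^ 3 - 1620 * z ^ 37 * u ^ 11 * v ^ 4 + 1620 *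
      z ^ 36 * u ^ 11 * v ^ 4 - 1620 * z ^ 32 * u ^ 11 * v ^ 4 + 1620 * z ^ 31 * u ^ 11 * v ^ 4
      - 1620 * z ^ 27 * u ^ 11 * v ^ 4 + 1620 * z ^ 26 * u ^ 11 * v ^ 4 - 1620 * z ^ 22 * u ^
      11 * v ^ 4 + 1620 * z ^ 21 * u ^ 11 * v ^ 4 - 1620 * z ^ 17 * u ^ 11 * v ^ 4 + 1620 * z ^
      16 * u ^ 11 * v ^ 4 - 1620 * z ^ 12 * u ^ 11 * v ^ 4 + 1620 * z ^ 11 * u ^ 11 * v ^ 4 -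
      1620 * z ^ 7 * u ^ 11 * v ^ 4 + 1620 * z ^ 6 * u ^ 11 * v ^ 4 - 1620 * z ^ 2 * u ^ 11 * v
      ^ 4 + 1620 * z * u ^ 11 * v ^ 4 + 2700 * z ^ 36 * u ^ 10 * v ^ 5 - 2700 * z ^ 35 * u ^ 10
      * v ^ 5 + 2700 * z ^ 31 * u ^ 10 * v ^ 5 - 2700 * z ^ 30 * u ^ 10 * v ^ 5 + 2700 * z ^ 26
      * u ^ 10 * v ^ 5 - 2700 * z ^ 25 * u ^ 10 * v ^ 5 + 2700 * z ^ 21 * u ^ 10 * v ^ 5 - 2700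
      * z ^ 20 * u ^ 10 * v ^ 5 + 2700 * z ^ 16 * u ^ 10 * v ^ 5 - 2700 * z ^ 15 * u ^ 10 * v ^
      5 + 2700 * z ^ 11 * u ^ 10 * v ^ 5 - 2700 * z ^ 10 * u ^ 10 * v ^ 5 + 2700 * z ^ 6 * u ^
      10 * v ^ 5 - 2700 * z ^ 5 * u ^ 10 * v ^ 5 + 2700 * z * u ^ 10 * v ^ 5 - 2700 * u ^ 10 *
      v ^ 5 - 3132 * z ^ 35 * u ^ 9 * v ^ 6 + 3132 * z ^ 34 * u ^ 9 * v ^ 6 - 3132 * z ^ 30 * u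
      ^ 9 * v ^ 6 + 3132 * z ^ 29 * u ^ 9 * v ^ 6 - 3132 * z ^ 25 * u ^ 9 * v ^ 6 + 3132 * z ^
      24 * u ^ 9 * v ^ 6 - 3132 * z ^ 20 * u ^ 9 * v ^ 6 + 3132 * z ^ 19 * u ^ 9 * v ^ 6 - 3132
      * z ^ 15 * u ^ 9 * v ^ 6 + 3132 * z ^ 14 * u ^ 9 * v ^ 6 - 3132 * z ^ 10 * u ^ 9 * v ^ 6
      + 3132 * z ^ 9 * u ^ 9 * v ^ 6 - 3132 * z ^ 5 * u ^ 9 * v ^ 6 + 3132 * z ^ 4 * u ^ 9 * v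
      ^ 6 - 3132 * u ^ 9 * v ^ 6 + 2268 * z ^ 34 * u ^ 8 * v ^ 7 - 2268 * z ^ 33 * u ^ 8 * v ^
      7 + 2268 * z ^ 29 * u ^ 8 * v ^ 7 - 2268 * z ^ 28 * u ^ 8 * v ^ 7 + 2268 * z ^ 24 * u ^ 8
      * v ^ 7 - 2268 * z ^ 23 * u ^ 8 * v ^ 7 + 2268 * z ^ 19 * u ^ 8 * v ^ 7 - 2268 * z ^ 18 *
      u ^ 8 * v ^ 7 + 2268 * z ^ 14 * u ^ 8 * v ^ 7 - 2268 * z ^ 13 * u ^ 8 * v ^ 7 + 2268 * z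
      ^ 9 * u ^ 8 * v ^ 7 - 2268 * z ^ 8 * u ^ 8 * v ^ 7 + 2268 * z ^ 4 * u ^ 8 * v ^ 7 - 2268
      * z ^ 3 * u ^ 8 * v ^ 7 - 648 * z ^ 33 * u ^ 7 * v ^ 8 + 648 * z ^ 32 * u ^ 7 * v ^ 8 -
      648 * z ^ 28 * u ^ 7 * v ^ 8 + 648 * z ^ 27 * u ^ 7 * v ^ 8 - 648 * z ^ 23 * u ^ 7 * v ^
      8 + 648 * z ^ 22 * u ^ 7 * v ^ 8 - 648 * z ^ 18 * u ^ 7 * v ^ 8 + 648 * z ^ 17 * u ^ 7 *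
      v ^ 8 - 648 * z ^ 13 * u ^ 7 * v ^ 8 + 648 * z ^ 12 * u ^ 7 * v ^ 8 - 648 * z ^ 8 * u ^ 7
      * v ^ 8 + 648 * z ^ 7 * u ^ 7 * v ^ 8 - 648 * z ^ 3 * u ^ 7 * v ^ 8 + 648 * z ^ 2 * u ^ 7
      * v ^ 8 + 540 * z ^ 32 * u ^ 6 * v ^ 9 - 540 * z ^ 31 * u ^ 6 * v ^ 9 + 540 * z ^ 27 * u
      ^ 6 * v ^ 9 - 540 * z ^ 26 * u ^ 6 * v ^ 9 + 540 * z ^ 22 * u ^ 6 * v ^ 9 - 540 * z ^ 21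
      * u ^ 6 * v ^ 9 + 540 * z ^ 17 * u ^ 6 * v ^ 9 - 540 * z ^ 16 * u ^ 6 * v ^ 9 + 540 * z ^
      12 * u ^ 6 * v ^ 9 - 540 * z ^ 11 * u ^ 6 * v ^ 9 + 540 * z ^ 7 * u ^ 6 * v ^ 9 - 540 * z
      ^ 6 * u ^ 6 * v ^ 9 + 540 * z ^ 2 * u ^ 6 * v ^ 9 - 540 * z * u ^ 6 * v ^ 9 + 432 * z ^
      30 * u ^ 4 * v ^ 11 - 432 * z ^ 29 * u ^ 4 * v ^ 11 + 432 * z ^ 25 * u ^ 4 * v ^ 11 - 432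
      * z ^ 24 * u ^ 4 * v ^ 11 + 432 * z ^ 20 * u ^ 4 * v ^ 11 - 432 * z ^ 19 * u ^ 4 * v ^ 11
      + 432 * z ^ 15 * u ^ 4 * v ^ 11 - 432 * z ^ 14 * u ^ 4 * v ^ 11 + 432 * z ^ 10 * u ^ 4 *
      v ^ 11 - 432 * z ^ 9 * u ^ 4 * v ^ 11 + 432 * z ^ 5 * u ^ 4 * v ^ 11 - 432 * z ^ 4 * u ^
      4 * v ^ 11 + 432 * u ^ 4 * v ^ 11 - 108 * z ^ 29 * u ^ 3 * v ^ 12 + 108 * z ^ 28 * u ^ 3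
      * v ^ 12 - 108 * z ^ 24 * u ^ 3 * v ^ 12 + 108 * z ^ 23 * u ^ 3 * v ^ 12 - 108 * z ^ 19 *
      u ^ 3 * v ^ 12 + 108 * z ^ 18 * u ^ 3 * v ^ 12 - 108 * z ^ 14 * u ^ 3 * v ^ 12 + 108 * z
      ^ 13 * u ^ 3 * v ^ 12 - 108 * z ^ 9 * u ^ 3 * v ^ 12 + 108 * z ^ 8 * u ^ 3 * v ^ 12 - 108
      * z ^ 4 * u ^ 3 * v ^ 12 + 108 * z ^ 3 * u ^ 3 * v ^ 12 + 108 * z ^ 28 * u ^ 2 * v ^ 13 -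
      108 * z ^ 27 * u ^ 2 * v ^ 13 + 108 * z ^ 23 * u ^ 2 * v ^ 13 - 108 * z ^ 22 * u ^ 2 * v
      ^ 13 + 108 * z ^ 18 * u ^ 2 * v ^ 13 - 108 * z ^ 17 * u ^ 2 * v ^ 13 + 108 * z ^ 13 * u ^
      2 * v ^ 13 - 108 * z ^ 12 * u ^ 2 * v ^ 13 + 108 * z ^ 8 * u ^ 2 * v ^ 13 - 108 * z ^ 7 *
      u ^ 2 * v ^ 13 + 108 * z ^ 3 * u ^ 2 * v ^ 13 - 108 * z ^ 2 * u ^ 2 * v ^ 13) * hz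

end Fermat.Agent.G35.Sym
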