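/-
GATE-Q (S52), node Q2 (SYMMETRY), file 5: the ADDITION identity `Q0 ∘ T̃ + P0 = Q0` in cleared
slope form, and the non-vanishing certificates `(x-difference) * G = f²`.  Mathlib only.
-/
import Fermat.Agent.G35.Sym.TMat

set_option autoImplicit false
set_option maxHeartbeats 1600000

namespace Fermat.Agent.G35.Sym

variable {K : Type*} [Field K] [CharZero K]

/-- Chord through `Q0 ∘ T̃ = (XQT, YQT)` and `P0 = (x0, y0)` meets the curve again in `-Q0`: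
`x`-coordinate, denominators cleared. -/
theorem add_x {z : K} (hz : z ^ 4 + z ^ 3 + z ^ 2 + z + 1 = 0) (u v : K) :
    (xQ u v + XQT z u v + x0 z u v) * (XQT z u v - x0 z u v) ^ 2
      = (YQT z u v - y0 z u v) ^ 2 := by
  unfold xQ XQT x0 x0UV sqrt5 YQT y0 y0UV
  linear_combination
    (-(46656 / 125) * z ^ 8 * u ^ 30 + (46656 / 125) * z ^ 7 * u ^ 30 - (139968 / 125) * z ^ 5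
      * u ^ 30 - (221616 / 125) * z ^ 4 * u ^ 30 + (314928 / 125) * z ^ 3 * u ^ 30 - (151632 /
      125) * z ^ 2 * u ^ 30 - (34992 / 5) * z * u ^ 30 - (968112 / 125) * u ^ 30 - (46656 / 25)
      * z ^ 7 * u ^ 29 * v - (139968 / 25) * z ^ 4 * u ^ 29 * v - (69984 / 25) * z ^ 3 * u ^ 29
      * v - (163296 / 25) * z ^ 2 * u ^ 29 * v - (489888 / 25) * z * u ^ 29 * v - (723168 / 25)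
      * u ^ 29 * v - (93312 / 25) * z ^ 7 * u ^ 28 * v ^ 2 + (326592 / 25) * z ^ 6 * u ^ 28 * v
      ^ 2 + (46656 / 5) * z ^ 5 * u ^ 28 * v ^ 2 + (139968 / 25) * z ^ 4 * u ^ 28 * v ^ 2 -
      (46656 / 5) * z ^ 3 * u ^ 28 * v ^ 2 + (93312 / 5) * z ^ 2 * u ^ 28 * v ^ 2 + (186624 /
      25) * z * u ^ 28 * v ^ 2 + (139968 / 25) * u ^ 28 * v ^ 2 + (1073088 / 25) * z ^ 6 * u ^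
      27 * v ^ 3 + (1026432 / 25) * z ^ 5 * u ^ 27 * v ^ 3 + (2192832 / 25) * z ^ 4 * u ^ 27 *
      v ^ 3 + (4852224 / 25) * z ^ 3 * u ^ 27 * v ^ 3 + (5342112 / 25) * z ^ 2 * u ^ 27 * v ^ 3
      + (2519424 / 25) * z * u ^ 27 * v ^ 3 + (1539648 / 25) * u ^ 27 * v ^ 3 + (186624 / 5) *
      z ^ 6 * u ^ 26 * v ^ 4 + (886464 / 5) * z ^ 5 * u ^ 26 * v ^ 4 + (1492992 / 5) * z ^ 4 *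
      u ^ 26 * v ^ 4 + 326592 * z ^ 3 * u ^ 26 * v ^ 4 + (139968 / 5) * z ^ 2 * u ^ 26 * v ^ 4
      - (723168 / 5) * z * u ^ 26 * v ^ 4 + (46656 / 5) * u ^ 26 * v ^ 4 - (1539648 / 125) * z
      ^ 8 * u ^ 25 * v ^ 5 + (1539648 / 125) * z ^ 7 * u ^ 25 * v ^ 5 + (51368256 / 125) * z ^
      5 * u ^ 25 * v ^ 5 - (30932928 / 125) * z ^ 4 * u ^ 25 * v ^ 5 - (47635776 / 125) * z ^ 3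
      * u ^ 25 * v ^ 5 - (65365056 / 125) * z ^ 2 * u ^ 25 * v ^ 5 - (1119744 / 5) * z * u ^ 25
      * v ^ 5 + (31912704 / 125) * u ^ 25 * v ^ 5 - (186624 / 5) * z ^ 7 * u ^ 24 * v ^ 6 +
      373248 * z ^ 5 * u ^ 24 * v ^ 6 - (9471168 / 5) * z ^ 4 * u ^ 24 * v ^ 6 + (2589408 / 5)
      * z ^ 3 * u ^ 24 * v ^ 6 + (3802464 / 5) * z ^ 2 * u ^ 24 * v ^ 6 + (4968864 / 5) * z * u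
      ^ 24 * v ^ 6 + 723168 * u ^ 24 * v ^ 6 - (419904 / 5) * z ^ 7 * u ^ 23 * v ^ 7 + (746496
      / 5) * z ^ 6 * u ^ 23 * v ^ 7 + (326592 / 5) * z ^ 5 * u ^ 23 * v ^ 7 - (8491392 / 5) * z
      ^ 4 * u ^ 23 * v ^ 7 + (25824096 / 5) * z ^ 3 * u ^ 23 * v ^ 7 + 606528 * z ^ 2 * u ^ 23
      * v ^ 7 + (2379456 / 5) * z * u ^ 23 * v ^ 7 + (1586304 / 5) * u ^ 23 * v ^ 7 + (2379456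
      / 5) * z ^ 6 * u ^ 22 * v ^ 8 - (2006208 / 5) * z ^ 5 * u ^ 22 * v ^ 8 - (3405888 / 5) *
      z ^ 4 * u ^ 22 * v ^ 8 + (25987392 / 5) * z ^ 3 * u ^ 22 * v ^ 8 - (37931328 / 5) * z ^ 2
      * u ^ 22 * v ^ 8 - (2286144 / 5) * z * u ^ 22 * v ^ 8 - (886464 / 5) * u ^ 22 * v ^ 8 +
      (2239488 / 5) * z ^ 6 * u ^ 21 * v ^ 9 - (10590912 / 5) * z ^ 5 * u ^ 21 * v ^ 9 -
      (2846016 / 5) * z ^ 4 * u ^ 21 * v ^ 9 - 326592 * z ^ 3 * u ^ 21 * v ^ 9 - (58040064 / 5)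
      * z ^ 2 * u ^ 21 * v ^ 9 + (38561184 / 5) * z * u ^ 21 * v ^ 9 + (326592 / 5) * u ^ 21 *
      v ^ 9 - (3359232 / 25) * z ^ 8 * u ^ 20 * v ^ 10 + (3359232 / 25) * z ^ 7 * u ^ 20 * v ^
      10 - (55334016 / 25) * z ^ 5 * u ^ 20 * v ^ 10 + (95784768 / 25) * z ^ 4 * u ^ 20 * v ^
      10 + (43903296 / 25) * z ^ 3 * u ^ 20 * v ^ 10 + (14976576 / 25) * z ^ 2 * u ^ 20 * v ^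
      10 + (81927936 / 5) * z * u ^ 20 * v ^ 10 - (126041184 / 25) * u ^ 20 * v ^ 10 - 139968 *
      z ^ 7 * u ^ 19 * v ^ 11 + 559872 * z ^ 5 * u ^ 19 * v ^ 11 + (25567488 / 5) * z ^ 4 * u ^
      19 * v ^ 11 - (21321792 / 5) * z ^ 3 * u ^ 19 * v ^ 11 - (4852224 / 5) * z ^ 2 * u ^ 19 *
      v ^ 11 + (15256512 / 5) * z * u ^ 19 * v ^ 11 - (67231296 / 5) * u ^ 19 * v ^ 11 -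
      (2426112 / 5) * z ^ 7 * u ^ 18 * v ^ 12 + (513216 / 5) * z ^ 6 * u ^ 18 * v ^ 12 -
      (1912896 / 5) * z ^ 5 * u ^ 18 * v ^ 12 - (9937728 / 5) * z ^ 4 * u ^ 18 * v ^ 12 -
      (58110048 / 5) * z ^ 3 * u ^ 18 * v ^ 12 - 6858432 * z ^ 2 * u ^ 18 * v ^ 12 - 7464960 *
      z * u ^ 18 * v ^ 12 - (43436736 / 5) * u ^ 18 * v ^ 12 - (326592 / 5) * z ^ 6 * u ^ 17 *
      v ^ 13 - (326592 / 5) * z ^ 5 * u ^ 17 * v ^ 13 + (2472768 / 5) * z ^ 4 * u ^ 17 * v ^ 13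
      + (26220672 / 5) * z ^ 3 * u ^ 17 * v ^ 13 + (13786848 / 5) * z ^ 2 * u ^ 17 * v ^ 13 +
      1259712 * z * u ^ 17 * v ^ 13 - (326592 / 5) * u ^ 17 * v ^ 13 + (1912896 / 5) * z ^ 6 *
      u ^ 16 * v ^ 14 + (2612736 / 5) * z ^ 5 * u ^ 16 * v ^ 14 + (13903488 / 5) * z ^ 4 * u ^
      16 * v ^ 14 + 2052864 * z ^ 3 * u ^ 16 * v ^ 14 - (49362048 / 5) * z ^ 2 * u ^ 16 * v ^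
      14 - (18055872 / 5) * z * u ^ 16 * v ^ 14 - (1912896 / 5) * u ^ 16 * v ^ 14 - (11803968 /
      25) * z ^ 8 * u ^ 15 * v ^ 15 + (11803968 / 25) * z ^ 7 * u ^ 15 * v ^ 15 - (61772544 /
      25) * z ^ 5 * u ^ 15 * v ^ 15 - (90069408 / 25) * z ^ 4 * u ^ 15 * v ^ 15 - (105605856 /
      25) * z ^ 3 * u ^ 15 * v ^ 15 - (118669536 / 25) * z ^ 2 * u ^ 15 * v ^ 15 + (10240992 /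
      5) * z * u ^ 15 * v ^ 15 + (23514624 / 25) * u ^ 15 * v ^ 15 + (2426112 / 5) * z ^ 7 * u
      ^ 14 * v ^ 16 + 279936 * z ^ 5 * u ^ 14 * v ^ 16 + (10824192 / 5) * z ^ 4 * u ^ 14 * v ^
      16 + (25497504 / 5) * z ^ 3 * u ^ 14 * v ^ 16 + (33195744 / 5) * z ^ 2 * u ^ 14 * v ^ 16
      + 4782240 * z * u ^ 14 * v ^ 16 + (11500704 / 5) * u ^ 14 * v ^ 16 - 139968 * z ^ 7 * u ^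
      13 * v ^ 17 + (2939328 / 5) * z ^ 6 * u ^ 13 * v ^ 17 + (2239488 / 5) * z ^ 5 * u ^ 13 *
      v ^ 17 + (2239488 / 5) * z ^ 4 * u ^ 13 * v ^ 17 - (3779136 / 5) * z ^ 3 * u ^ 13 * v ^
      17 + 4105728 * z ^ 2 * u ^ 13 * v ^ 17 - (8771328 / 5) * z * u ^ 13 * v ^ 17 + (8024832 /
      5) * u ^ 13 * v ^ 17 - 699840 * z ^ 6 * u ^ 12 * v ^ 18 - (139968 / 5) * z ^ 5 * u ^ 12 *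
      v ^ 18 - (2006208 / 5) * z ^ 4 * u ^ 12 * v ^ 18 - (11850624 / 5) * z ^ 3 * u ^ 12 * v ^
      18 - (3755808 / 5) * z ^ 2 * u ^ 12 * v ^ 18 - (8071488 / 5) * z * u ^ 12 * v ^ 18 +
      419904 * u ^ 12 * v ^ 18 + (326592 / 5) * z ^ 6 * u ^ 11 * v ^ 19 + (793152 / 5) * z ^ 5
      * u ^ 11 * v ^ 19 + (746496 / 5) * z ^ 4 * u ^ 11 * v ^ 19 + 419904 * z ^ 3 * u ^ 11 * v
      ^ 19 + (8817984 / 5) * z ^ 2 * u ^ 11 * v ^ 19 - (2869344 / 5) * z * u ^ 11 * v ^ 19 +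
      (2239488 / 5) * u ^ 11 * v ^ 19 + (3359232 / 25) * z ^ 8 * u ^ 10 * v ^ 20 - (3359232 /
      25) * z ^ 7 * u ^ 10 * v ^ 20 + (8678016 / 25) * z ^ 5 * u ^ 10 * v ^ 20 + (1026432 / 25)
      * z ^ 4 * u ^ 10 * v ^ 20 + (29579904 / 25) * z ^ 3 * u ^ 10 * v ^ 20 + (17682624 / 25) *
      z ^ 2 * u ^ 10 * v ^ 20 - (1679616 / 5) * z * u ^ 10 * v ^ 20 - (513216 / 25) * u ^ 10 *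
      v ^ 20 - (419904 / 5) * z ^ 7 * u ^ 9 * v ^ 21 + 46656 * z ^ 5 * u ^ 9 * v ^ 21 - 793152
      * z ^ 4 * u ^ 9 * v ^ 21 - (769824 / 5) * z ^ 3 * u ^ 9 * v ^ 21 - 816480 * z ^ 2 * u ^ 9
      * v ^ 21 - (1236384 / 5) * z * u ^ 9 * v ^ 21 + (536544 / 5) * u ^ 9 * v ^ 21 + (186624 /
      5) * z ^ 7 * u ^ 8 * v ^ 22 - (373248 / 5) * z ^ 6 * u ^ 8 * v ^ 22 - (186624 / 5) * z ^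
      5 * u ^ 8 * v ^ 22 + 139968 * z ^ 4 * u ^ 8 * v ^ 22 - (2309472 / 5) * z ^ 3 * u ^ 8 * v
      ^ 22 - 513216 * z ^ 2 * u ^ 8 * v ^ 22 + (1446336 / 5) * z * u ^ 8 * v ^ 22 - (1259712 /
      5) * u ^ 8 * v ^ 22 + (419904 / 5) * z ^ 6 * u ^ 7 * v ^ 23 - 46656 * z ^ 5 * u ^ 7 * v ^
      23 - 46656 * z ^ 4 * u ^ 7 * v ^ 23 + (1586304 / 5) * z ^ 3 * u ^ 7 * v ^ 23 - 373248 * z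
      ^ 2 * u ^ 7 * v ^ 23 + (1213056 / 5) * z * u ^ 7 * v ^ 23 - (746496 / 5) * u ^ 7 * v ^ 23
      - (46656 / 5) * z ^ 6 * u ^ 6 * v ^ 24 + (186624 / 5) * z ^ 5 * u ^ 6 * v ^ 24 + (93312 /
      5) * z ^ 4 * u ^ 6 * v ^ 24 + (373248 / 5) * z ^ 2 * u ^ 6 * v ^ 24 - (256608 / 5) * z *
      u ^ 6 * v ^ 24 - (186624 / 5) * u ^ 6 * v ^ 24 - (1539648 / 125) * z ^ 8 * u ^ 5 * v ^ 25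
      + (1539648 / 125) * z ^ 7 * u ^ 5 * v ^ 25 - (6951744 / 125) * z ^ 5 * u ^ 5 * v ^ 25 +
      (11057472 / 125) * z ^ 4 * u ^ 5 * v ^ 25 - (7978176 / 125) * z ^ 3 * u ^ 5 * v ^ 25 +
      (5785344 / 125) * z ^ 2 * u ^ 5 * v ^ 25 + (326592 / 5) * z * u ^ 5 * v ^ 25 - (3662496 /
      125) * u ^ 5 * v ^ 25 + (93312 / 25) * z ^ 7 * u ^ 4 * v ^ 26 + (46656 / 25) * z ^ 4 * u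
      ^ 4 * v ^ 26 - (93312 / 25) * z ^ 3 * u ^ 4 * v ^ 26 + (1026432 / 25) * z ^ 2 * u ^ 4 * v
      ^ 26 + (46656 / 25) * z * u ^ 4 * v ^ 26 + (746496 / 25) * u ^ 4 * v ^ 26 - (46656 / 25)
      * z ^ 7 * u ^ 3 * v ^ 27 + (46656 / 25) * z ^ 6 * u ^ 3 * v ^ 27 - (46656 / 25) * z ^ 4 *
      u ^ 3 * v ^ 27 + (23328 / 5) * z ^ 3 * u ^ 3 * v ^ 27 + (46656 / 5) * z ^ 2 * u ^ 3 * v ^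
      27 - (373248 / 25) * z * u ^ 3 * v ^ 27 + (186624 / 25) * u ^ 3 * v ^ 27 - (46656 / 25) *
      z ^ 6 * u ^ 2 * v ^ 28 + (46656 / 25) * z ^ 5 * u ^ 2 * v ^ 28 + (46656 / 25) * z ^ 4 * u
      ^ 2 * v ^ 28 - (139968 / 25) * z ^ 3 * u ^ 2 * v ^ 28 + (163296 / 25) * z ^ 2 * u ^ 2 * v
      ^ 28 - (373248 / 25) * z * u ^ 2 * v ^ 28 + (186624 / 25) * u ^ 2 * v ^ 28 + (46656 /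
      125) * z ^ 8 * v ^ 30 - (46656 / 125) * z ^ 7 * v ^ 30 + (139968 / 125) * z ^ 5 * v ^ 30
      - (361584 / 125) * z ^ 4 * v ^ 30 + (268272 / 125) * z ^ 3 * v ^ 30 - (431568 / 125) * z
      ^ 2 * v ^ 30 + (11664 / 5) * z * v ^ 30 - (198288 / 125) * v ^ 30) * hz

/-- Chord through `Q0 ∘ T̃` and `P0`: `y`-coordinate, denominators cleared. -/
theorem add_y {z : K} (hz : z ^ 4 + z ^ 3 + z ^ 2 + z + 1 = 0) (u v : K) :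
    (yQ u v + YQT z u v) * (XQT z u v - x0 z u v)
      = -(YQT z u v - y0 z u v) * (xQ u v - XQT z u v) := by
  unfold yQ xQ XQT x0 x0UV sqrt5 YQT y0 y0UV
  linear_combination
    (-(3888 / 5) * z ^ 3 * u ^ 24 * v + (3888 / 5) * z ^ 2 * u ^ 24 * v + (11664 / 5) * z * u
      ^ 24 * v + (15552 / 5) * u ^ 24 * v - (15552 / 5) * z ^ 3 * u ^ 23 * v ^ 2 + (23328 / 5)
      * z ^ 2 * u ^ 23 * v ^ 2 + (15552 / 5) * z * u ^ 23 * v ^ 2 - (23328 / 5) * u ^ 23 * v ^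
      2 + (34992 / 5) * z ^ 2 * u ^ 22 * v ^ 3 - (46656 / 5) * z * u ^ 22 * v ^ 3 + (11664 / 5)
      * u ^ 22 * v ^ 3 - 11664 * z * u ^ 21 * v ^ 4 + 3888 * u ^ 21 * v ^ 4 + 38880 * u ^ 20 *
      v ^ 5 + (69984 / 5) * z ^ 3 * u ^ 19 * v ^ 6 + (46656 / 5) * z ^ 2 * u ^ 19 * v ^ 6 +
      (101088 / 5) * z * u ^ 19 * v ^ 6 + (147744 / 5) * u ^ 19 * v ^ 6 - (89424 / 5) * z ^ 3 *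
      u ^ 18 * v ^ 7 + (202176 / 5) * z ^ 2 * u ^ 18 * v ^ 7 + (147744 / 5) * z * u ^ 18 * v ^
      7 - (66096 / 5) * u ^ 18 * v ^ 7 + (361584 / 5) * z ^ 2 * u ^ 17 * v ^ 8 - (520992 / 5) *
      z * u ^ 17 * v ^ 8 + (159408 / 5) * u ^ 17 * v ^ 8 - 124416 * z * u ^ 16 * v ^ 9 + 54432
      * u ^ 16 * v ^ 9 + 427680 * u ^ 15 * v ^ 10 + (1228608 / 5) * z ^ 3 * u ^ 14 * v ^ 11 +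
      (15552 / 5) * z ^ 2 * u ^ 14 * v ^ 11 - (303264 / 5) * z * u ^ 14 * v ^ 11 - (287712 / 5)
      * u ^ 14 * v ^ 11 + (909792 / 5) * z ^ 3 * u ^ 13 * v ^ 12 - (606528 / 5) * z ^ 2 * u ^
      13 * v ^ 12 - (287712 / 5) * z * u ^ 13 * v ^ 12 + (2122848 / 5) * u ^ 13 * v ^ 12 -
      (287712 / 5) * z ^ 2 * u ^ 12 * v ^ 13 - (31104 / 5) * z * u ^ 12 * v ^ 13 + (318816 / 5)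
      * u ^ 12 * v ^ 13 + 54432 * z * u ^ 11 * v ^ 14 + 124416 * u ^ 11 * v ^ 14 - 38880 * u ^
      10 * v ^ 15 - (283824 / 5) * z ^ 3 * u ^ 9 * v ^ 16 - (260496 / 5) * z ^ 2 * u ^ 9 * v ^
      16 + (112752 / 5) * z * u ^ 9 * v ^ 16 - (147744 / 5) * u ^ 9 * v ^ 16 - (124416 / 5) * z
      ^ 3 * u ^ 8 * v ^ 17 + (225504 / 5) * z ^ 2 * u ^ 8 * v ^ 17 - (147744 / 5) * z * u ^ 8 *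
      v ^ 17 - (147744 / 5) * u ^ 8 * v ^ 17 + (66096 / 5) * z ^ 2 * u ^ 7 * v ^ 18 + (93312 /
      5) * z * u ^ 7 * v ^ 18 - (159408 / 5) * u ^ 7 * v ^ 18 - 3888 * z * u ^ 6 * v ^ 19 -
      11664 * u ^ 6 * v ^ 19 + (15552 / 5) * z ^ 3 * u ^ 4 * v ^ 21 + (23328 / 5) * z ^ 2 * u ^
      4 * v ^ 21 - (7776 / 5) * z * u ^ 4 * v ^ 21 + (15552 / 5) * u ^ 4 * v ^ 21 + (3888 / 5)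
      * z ^ 3 * u ^ 3 * v ^ 22 - (15552 / 5) * z ^ 2 * u ^ 3 * v ^ 22 + (15552 / 5) * z * u ^ 3
      * v ^ 22 - (3888 / 5) * u ^ 3 * v ^ 22 - (3888 / 5) * z ^ 2 * u ^ 2 * v ^ 23 - (7776 / 5)
      * z * u ^ 2 * v ^ 23 + (11664 / 5) * u ^ 2 * v ^ 23) * hz

/-- Cofactor: `(XQT - x0) * G_XT_x0 = f²`. -/
def G_XT_x0 (z u v : K) : K :=
  (1 / 36) * z ^ 3 * u ^ 12 * v ^ 2 + (1 / 36) * z ^ 2 * u ^ 12 * v ^ 2 + (1 / 12) * u ^ 12 * v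
  ^ 2 - (5 / 18) * z ^ 3 * u ^ 11 * v ^ 3 - (5 / 36) * z ^ 2 * u ^ 11 * v ^ 3 - (5 / 36) * z *
  u ^ 11 * v ^ 3 - (5 / 18) * u ^ 11 * v ^ 3 + (5 / 12) * z ^ 3 * u ^ 10 * v ^ 4 + (5 / 18) * z
  * u ^ 10 * v ^ 4 + (5 / 18) * u ^ 10 * v ^ 4 - (5 / 18) * z ^ 3 * u ^ 9 * v ^ 5 + (5 / 36) *
  z ^ 2 * u ^ 9 * v ^ 5 - (5 / 18) * z * u ^ 9 * v ^ 5 - (7 / 18) * z ^ 3 * u ^ 7 * v ^ 7 - (7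
  / 18) * z ^ 2 * u ^ 7 * v ^ 7 - (7 / 36) * u ^ 7 * v ^ 7 - (5 / 36) * z ^ 3 * u ^ 6 * v ^ 8 -
  (5 / 12) * z ^ 2 * u ^ 6 * v ^ 8 - (5 / 12) * z * u ^ 6 * v ^ 8 - (5 / 36) * u ^ 6 * v ^ 8 -
  (5 / 36) * z ^ 3 * u ^ 5 * v ^ 9 + (5 / 36) * z * u ^ 5 * v ^ 9 + (5 / 36) * u ^ 5 * v ^ 9 -
  (5 / 36) * z ^ 3 * u ^ 4 * v ^ 10 - (5 / 18) * z ^ 2 * u ^ 4 * v ^ 10 - (5 / 36) * z * u ^ 4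
  * v ^ 10 - (1 / 36) * z ^ 3 * u ^ 2 * v ^ 12 - (1 / 36) * z ^ 2 * u ^ 2 * v ^ 12 + (1 / 18) *
  u ^ 2 * v ^ 12

theorem XQT_sub_x0_mul {z : K} (hz : z ^ 4 + z ^ 3 + z ^ 2 + z + 1 = 0) (u v : K) :
    (XQT z u v - x0 z u v) * G_XT_x0 z u v = fuv u v ^ 2 := by
  unfold XQT x0 x0UV sqrt5 G_XT_x0 fuv
  linear_combination
    ((1 / 5) * z ^ 3 * u ^ 22 * v ^ 2 - (1 / 5) * z * u ^ 22 * v ^ 2 + (4 / 5) * u ^ 22 * v ^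
      2 - 2 * z ^ 3 * u ^ 21 * v ^ 3 + 2 * z ^ 2 * u ^ 21 * v ^ 3 + z * u ^ 21 * v ^ 3 - 3 * u
      ^ 21 * v ^ 3 + 3 * z ^ 3 * u ^ 20 * v ^ 4 - 11 * z ^ 2 * u ^ 20 * v ^ 4 - 3 * z * u ^ 20
      * v ^ 4 - 4 * u ^ 20 * v ^ 4 - 2 * z ^ 3 * u ^ 19 * v ^ 5 - 2 * z ^ 2 * u ^ 19 * v ^ 5 +
      4 * z * u ^ 19 * v ^ 5 + 10 * u ^ 19 * v ^ 5 + 20 * z ^ 2 * u ^ 18 * v ^ 6 + 5 * z * u ^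
      18 * v ^ 6 - (3 / 5) * z ^ 3 * u ^ 17 * v ^ 7 - 20 * z ^ 2 * u ^ 17 * v ^ 7 - (72 / 5) *
      z * u ^ 17 * v ^ 7 - (152 / 5) * u ^ 17 * v ^ 7 - 23 * z ^ 3 * u ^ 16 * v ^ 8 - 7 * z ^ 2
      * u ^ 16 * v ^ 8 + 14 * z * u ^ 16 * v ^ 8 - 2 * u ^ 16 * v ^ 8 + 32 * z ^ 3 * u ^ 15 * v
      ^ 9 - 44 * z ^ 2 * u ^ 15 * v ^ 9 + 18 * z * u ^ 15 * v ^ 9 + 4 * u ^ 15 * v ^ 9 - 23 * z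
      ^ 3 * u ^ 14 * v ^ 10 - 23 * z ^ 2 * u ^ 14 * v ^ 10 - 4 * z * u ^ 14 * v ^ 10 - 15 * u ^
      14 * v ^ 10 + 20 * z ^ 2 * u ^ 13 * v ^ 11 - 20 * z * u ^ 13 * v ^ 11 - (156 / 5) * z ^ 3
      * u ^ 12 * v ^ 12 - 20 * z ^ 2 * u ^ 12 * v ^ 12 + (331 / 5) * z * u ^ 12 * v ^ 12 - (534
      / 5) * u ^ 12 * v ^ 12 - 9 * z ^ 3 * u ^ 11 * v ^ 13 + 4 * z ^ 2 * u ^ 11 * v ^ 13 + 32 *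
      z * u ^ 11 * v ^ 13 + 19 * u ^ 11 * v ^ 13 - 14 * z ^ 3 * u ^ 10 * v ^ 14 + 8 * z ^ 2 * u
      ^ 10 * v ^ 14 + 39 * z * u ^ 10 * v ^ 14 + 7 * u ^ 10 * v ^ 14 - 9 * z ^ 3 * u ^ 9 * v ^
      15 - 9 * z ^ 2 * u ^ 9 * v ^ 15 - 7 * z * u ^ 9 * v ^ 15 - 10 * u ^ 9 * v ^ 15 + 5 * z ^
      2 * u ^ 8 * v ^ 16 + 20 * z * u ^ 8 * v ^ 16 + (3 / 5) * z ^ 3 * u ^ 7 * v ^ 17 - 5 * z ^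
      2 * u ^ 7 * v ^ 17 - (53 / 5) * z * u ^ 7 * v ^ 17 + (82 / 5) * u ^ 7 * v ^ 17 + z ^ 3 *
      u ^ 6 * v ^ 18 + 4 * z ^ 2 * u ^ 6 * v ^ 18 - 3 * z * u ^ 6 * v ^ 18 - 6 * u ^ 6 * v ^ 18
      + z ^ 3 * u ^ 5 * v ^ 19 - 2 * z ^ 2 * u ^ 5 * v ^ 19 - z * u ^ 5 * v ^ 19 + 2 * u ^ 5 *
      v ^ 19 + z ^ 3 * u ^ 4 * v ^ 20 + z ^ 2 * u ^ 4 * v ^ 20 - 2 * z * u ^ 4 * v ^ 20 + (1 /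
      5) * z ^ 3 * u ^ 2 * v ^ 22 - (1 / 5) * z * u ^ 2 * v ^ 22 - (1 / 5) * u ^ 2 * v ^ 22) * hz

/-- Cofactor: `(xQ - x0) * G_xQ_x0 = f²`. -/
def G_xQ_x0 (z u v : K) : K :=
  (1 / 36) * z ^ 3 * u ^ 12 * v ^ 2 + (1 / 36) * z ^ 2 * u ^ 12 * v ^ 2 + (1 / 12) * u ^ 12 * v
  ^ 2 + (5 / 36) * z ^ 3 * u ^ 11 * v ^ 3 + (5 / 36) * z ^ 2 * u ^ 11 * v ^ 3 + (5 / 18) * u ^
  11 * v ^ 3 + (5 / 18) * z ^ 3 * u ^ 10 * v ^ 4 + (5 / 18) * z ^ 2 * u ^ 10 * v ^ 4 + (5 / 12)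
  * u ^ 10 * v ^ 4 + (5 / 18) * z ^ 3 * u ^ 9 * v ^ 5 + (5 / 18) * z ^ 2 * u ^ 9 * v ^ 5 + (5 /
  12) * u ^ 9 * v ^ 5 - (7 / 18) * z ^ 3 * u ^ 7 * v ^ 7 - (7 / 18) * z ^ 2 * u ^ 7 * v ^ 7 -
  (7 / 36) * u ^ 7 * v ^ 7 - (5 / 18) * z ^ 3 * u ^ 6 * v ^ 8 - (5 / 18) * z ^ 2 * u ^ 6 * v ^
  8 + (5 / 36) * u ^ 6 * v ^ 8 + (5 / 36) * z ^ 3 * u ^ 5 * v ^ 9 + (5 / 36) * z ^ 2 * u ^ 5 *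
  v ^ 9 - (5 / 36) * u ^ 5 * v ^ 9 + (5 / 36) * z ^ 3 * u ^ 4 * v ^ 10 + (5 / 36) * z ^ 2 * u ^
  4 * v ^ 10 - (5 / 36) * u ^ 4 * v ^ 10 - (1 / 36) * z ^ 3 * u ^ 2 * v ^ 12 - (1 / 36) * z ^ 2
  * u ^ 2 * v ^ 12 + (1 / 18) * u ^ 2 * v ^ 12

theorem xQ_sub_x0_mul {z : K} (hz : z ^ 4 + z ^ 3 + z ^ 2 + z + 1 = 0) (u v : K) :
    (xQ u v - x0 z u v) * G_xQ_x0 z u v = fuv u v ^ 2 := by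
  unfold xQ x0 x0UV sqrt5 G_xQ_x0 fuv
  linear_combination
    ((1 / 5) * z ^ 3 * u ^ 22 * v ^ 2 - (1 / 5) * z * u ^ 22 * v ^ 2 + (4 / 5) * u ^ 22 * v ^
      2 + z ^ 3 * u ^ 21 * v ^ 3 - z * u ^ 21 * v ^ 3 + 3 * u ^ 21 * v ^ 3 + 2 * z ^ 3 * u ^ 20
      * v ^ 4 - 2 * z * u ^ 20 * v ^ 4 + 5 * u ^ 20 * v ^ 4 + 2 * z ^ 3 * u ^ 19 * v ^ 5 - 2 *
      z * u ^ 19 * v ^ 5 + 5 * u ^ 19 * v ^ 5 - (3 / 5) * z ^ 3 * u ^ 17 * v ^ 7 + (3 / 5) * z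
      * u ^ 17 * v ^ 7 + (23 / 5) * u ^ 17 * v ^ 7 + 9 * z ^ 3 * u ^ 16 * v ^ 8 - 9 * z * u ^
      16 * v ^ 8 + 32 * u ^ 16 * v ^ 8 + 23 * z ^ 3 * u ^ 15 * v ^ 9 - 23 * z * u ^ 15 * v ^ 9
      + 55 * u ^ 15 * v ^ 9 + 23 * z ^ 3 * u ^ 14 * v ^ 10 - 23 * z * u ^ 14 * v ^ 10 + 55 * u
      ^ 14 * v ^ 10 - (156 / 5) * z ^ 3 * u ^ 12 * v ^ 12 + (156 / 5) * z * u ^ 12 * v ^ 12 -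
      (234 / 5) * u ^ 12 * v ^ 12 - 23 * z ^ 3 * u ^ 11 * v ^ 13 + 23 * z * u ^ 11 * v ^ 13 -
      14 * u ^ 11 * v ^ 13 + 9 * z ^ 3 * u ^ 10 * v ^ 14 - 9 * z * u ^ 10 * v ^ 14 - 5 * u ^ 10
      * v ^ 14 + 9 * z ^ 3 * u ^ 9 * v ^ 15 - 9 * z * u ^ 9 * v ^ 15 - 5 * u ^ 9 * v ^ 15 + (3
      / 5) * z ^ 3 * u ^ 7 * v ^ 17 - (3 / 5) * z * u ^ 7 * v ^ 17 + (32 / 5) * u ^ 7 * v ^ 17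
      + 2 * z ^ 3 * u ^ 6 * v ^ 18 - 2 * z * u ^ 6 * v ^ 18 + u ^ 6 * v ^ 18 - z ^ 3 * u ^ 5 *
      v ^ 19 + z * u ^ 5 * v ^ 19 - z ^ 3 * u ^ 4 * v ^ 20 + z * u ^ 4 * v ^ 20 + (1 / 5) * z ^
      3 * u ^ 2 * v ^ 22 - (1 / 5) * z * u ^ 2 * v ^ 22 - (1 / 5) * u ^ 2 * v ^ 22) * hz

/-- Cofactor: `(xQ - x0[ζ²]) * G_xQ_x2 = f²`. -/
def G_xQ_x2 (z u v : K) : K :=
  -(1 / 36) * z ^ 3 * u ^ 12 * v ^ 2 - (1 / 36) * z ^ 2 * u ^ 12 * v ^ 2 + (1 / 18) * u ^ 12 *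
  v ^ 2 - (5 / 36) * z ^ 3 * u ^ 11 * v ^ 3 - (5 / 36) * z ^ 2 * u ^ 11 * v ^ 3 + (5 / 36) * u
  ^ 11 * v ^ 3 - (5 / 18) * z ^ 3 * u ^ 10 * v ^ 4 - (5 / 18) * z ^ 2 * u ^ 10 * v ^ 4 + (5 /
  36) * u ^ 10 * v ^ 4 - (5 / 18) * z ^ 3 * u ^ 9 * v ^ 5 - (5 / 18) * z ^ 2 * u ^ 9 * v ^ 5 +
  (5 / 36) * u ^ 9 * v ^ 5 + (7 / 18) * z ^ 3 * u ^ 7 * v ^ 7 + (7 / 18) * z ^ 2 * u ^ 7 * v ^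
  7 + (7 / 36) * u ^ 7 * v ^ 7 + (5 / 18) * z ^ 3 * u ^ 6 * v ^ 8 + (5 / 18) * z ^ 2 * u ^ 6 *
  v ^ 8 + (5 / 12) * u ^ 6 * v ^ 8 - (5 / 36) * z ^ 3 * u ^ 5 * v ^ 9 - (5 / 36) * z ^ 2 * u ^
  5 * v ^ 9 - (5 / 18) * u ^ 5 * v ^ 9 - (5 / 36) * z ^ 3 * u ^ 4 * v ^ 10 - (5 / 36) * z ^ 2 *
  u ^ 4 * v ^ 10 - (5 / 18) * u ^ 4 * v ^ 10 + (1 / 36) * z ^ 3 * u ^ 2 * v ^ 12 + (1 / 36) * z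
  ^ 2 * u ^ 2 * v ^ 12 + (1 / 12) * u ^ 2 * v ^ 12

theorem xQ_sub_x0_sq_mul {z : K} (hz : z ^ 4 + z ^ 3 + z ^ 2 + z + 1 = 0) (u v : K) :
    (xQ u v - x0 (z ^ 2) u v) * G_xQ_x2 z u v = fuv u v ^ 2 := by
  unfold xQ x0 x0UV sqrt5 G_xQ_x2 fuv
  linear_combination
    (-(1 / 5) * z ^ 7 * u ^ 22 * v ^ 2 + (1 / 5) * z ^ 5 * u ^ 22 * v ^ 2 + (2 / 5) * z ^ 4 *
      u ^ 22 * v ^ 2 - (2 / 5) * z ^ 3 * u ^ 22 * v ^ 2 - (1 / 5) * z ^ 2 * u ^ 22 * v ^ 2 - (1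
      / 5) * z * u ^ 22 * v ^ 2 + (1 / 5) * u ^ 22 * v ^ 2 - z ^ 7 * u ^ 21 * v ^ 3 + z ^ 5 * u
      ^ 21 * v ^ 3 + z ^ 4 * u ^ 21 * v ^ 3 - z ^ 3 * u ^ 21 * v ^ 3 - z ^ 2 * u ^ 21 * v ^ 3 -
      z * u ^ 21 * v ^ 3 + u ^ 21 * v ^ 3 - 2 * z ^ 7 * u ^ 20 * v ^ 4 + 2 * z ^ 5 * u ^ 20 * v
      ^ 4 + z ^ 4 * u ^ 20 * v ^ 4 - z ^ 3 * u ^ 20 * v ^ 4 - 2 * z ^ 2 * u ^ 20 * v ^ 4 - 2 *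
      z * u ^ 20 * v ^ 4 + 2 * u ^ 20 * v ^ 4 - 2 * z ^ 7 * u ^ 19 * v ^ 5 + 2 * z ^ 5 * u ^ 19
      * v ^ 5 + z ^ 4 * u ^ 19 * v ^ 5 - z ^ 3 * u ^ 19 * v ^ 5 - 2 * z ^ 2 * u ^ 19 * v ^ 5 -
      2 * z * u ^ 19 * v ^ 5 + 2 * u ^ 19 * v ^ 5 + (3 / 5) * z ^ 7 * u ^ 17 * v ^ 7 - (3 / 5)
      * z ^ 5 * u ^ 17 * v ^ 7 + (29 / 5) * z ^ 4 * u ^ 17 * v ^ 7 - (29 / 5) * z ^ 3 * u ^ 17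
      * v ^ 7 + (3 / 5) * z ^ 2 * u ^ 17 * v ^ 7 + (3 / 5) * z * u ^ 17 * v ^ 7 - (3 / 5) * u ^
      17 * v ^ 7 - 9 * z ^ 7 * u ^ 16 * v ^ 8 + 9 * z ^ 5 * u ^ 16 * v ^ 8 + 14 * z ^ 4 * u ^
      16 * v ^ 8 - 14 * z ^ 3 * u ^ 16 * v ^ 8 - 9 * z ^ 2 * u ^ 16 * v ^ 8 - 9 * z * u ^ 16 *
      v ^ 8 + 9 * u ^ 16 * v ^ 8 - 23 * z ^ 7 * u ^ 15 * v ^ 9 + 23 * z ^ 5 * u ^ 15 * v ^ 9 +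
      9 * z ^ 4 * u ^ 15 * v ^ 9 - 9 * z ^ 3 * u ^ 15 * v ^ 9 - 23 * z ^ 2 * u ^ 15 * v ^ 9 -
      23 * z * u ^ 15 * v ^ 9 + 23 * u ^ 15 * v ^ 9 - 23 * z ^ 7 * u ^ 14 * v ^ 10 + 23 * z ^ 5
      * u ^ 14 * v ^ 10 + 9 * z ^ 4 * u ^ 14 * v ^ 10 - 9 * z ^ 3 * u ^ 14 * v ^ 10 - 23 * z ^
      2 * u ^ 14 * v ^ 10 - 23 * z * u ^ 14 * v ^ 10 + 23 * u ^ 14 * v ^ 10 + (156 / 5) * z ^ 7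
      * u ^ 12 * v ^ 12 - (156 / 5) * z ^ 5 * u ^ 12 * v ^ 12 + (78 / 5) * z ^ 4 * u ^ 12 * v ^
      12 - (78 / 5) * z ^ 3 * u ^ 12 * v ^ 12 + (156 / 5) * z ^ 2 * u ^ 12 * v ^ 12 + (156 / 5)
      * z * u ^ 12 * v ^ 12 - (156 / 5) * u ^ 12 * v ^ 12 + 23 * z ^ 7 * u ^ 11 * v ^ 13 - 23 *
      z ^ 5 * u ^ 11 * v ^ 13 + 32 * z ^ 4 * u ^ 11 * v ^ 13 - 32 * z ^ 3 * u ^ 11 * v ^ 13 +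
      23 * z ^ 2 * u ^ 11 * v ^ 13 + 23 * z * u ^ 11 * v ^ 13 - 23 * u ^ 11 * v ^ 13 - 9 * z ^
      7 * u ^ 10 * v ^ 14 + 9 * z ^ 5 * u ^ 10 * v ^ 14 - 23 * z ^ 4 * u ^ 10 * v ^ 14 + 23 * z
      ^ 3 * u ^ 10 * v ^ 14 - 9 * z ^ 2 * u ^ 10 * v ^ 14 - 9 * z * u ^ 10 * v ^ 14 + 9 * u ^
      10 * v ^ 14 - 9 * z ^ 7 * u ^ 9 * v ^ 15 + 9 * z ^ 5 * u ^ 9 * v ^ 15 - 23 * z ^ 4 * u ^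
      9 * v ^ 15 + 23 * z ^ 3 * u ^ 9 * v ^ 15 - 9 * z ^ 2 * u ^ 9 * v ^ 15 - 9 * z * u ^ 9 * v
      ^ 15 + 9 * u ^ 9 * v ^ 15 - (3 / 5) * z ^ 7 * u ^ 7 * v ^ 17 + (3 / 5) * z ^ 5 * u ^ 7 *
      v ^ 17 + (26 / 5) * z ^ 4 * u ^ 7 * v ^ 17 - (26 / 5) * z ^ 3 * u ^ 7 * v ^ 17 - (3 / 5)
      * z ^ 2 * u ^ 7 * v ^ 17 - (3 / 5) * z * u ^ 7 * v ^ 17 + (3 / 5) * u ^ 7 * v ^ 17 - 2 *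
      z ^ 7 * u ^ 6 * v ^ 18 + 2 * z ^ 5 * u ^ 6 * v ^ 18 - 3 * z ^ 4 * u ^ 6 * v ^ 18 + 3 * z
      ^ 3 * u ^ 6 * v ^ 18 - 2 * z ^ 2 * u ^ 6 * v ^ 18 - 2 * z * u ^ 6 * v ^ 18 + 2 * u ^ 6 *
      v ^ 18 + z ^ 7 * u ^ 5 * v ^ 19 - z ^ 5 * u ^ 5 * v ^ 19 + 2 * z ^ 4 * u ^ 5 * v ^ 19 - 2
      * z ^ 3 * u ^ 5 * v ^ 19 + z ^ 2 * u ^ 5 * v ^ 19 + z * u ^ 5 * v ^ 19 - u ^ 5 * v ^ 19 +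
      z ^ 7 * u ^ 4 * v ^ 20 - z ^ 5 * u ^ 4 * v ^ 20 + 2 * z ^ 4 * u ^ 4 * v ^ 20 - 2 * z ^ 3
      * u ^ 4 * v ^ 20 + z ^ 2 * u ^ 4 * v ^ 20 + z * u ^ 4 * v ^ 20 - u ^ 4 * v ^ 20 - (1 / 5)
      * z ^ 7 * u ^ 2 * v ^ 22 + (1 / 5) * z ^ 5 * u ^ 2 * v ^ 22 - (3 / 5) * z ^ 4 * u ^ 2 * v
      ^ 22 + (3 / 5) * z ^ 3 * u ^ 2 * v ^ 22 - (1 / 5) * z ^ 2 * u ^ 2 * v ^ 22 - (1 / 5) * z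
      * u ^ 2 * v ^ 22 + (1 / 5) * u ^ 2 * v ^ 22) * hz

/-- Cofactor: `y0 * G_y0 = f²`. -/
def G_y0 (z u v : K) : K :=
  -(7 / 108) * z ^ 3 * u ^ 7 * v ^ 2 + (1 / 108) * z ^ 2 * u ^ 7 * v ^ 2 - (1 / 18) * z * u ^ 7
  * v ^ 2 - (1 / 36) * u ^ 7 * v ^ 2 - (1 / 108) * z ^ 3 * u ^ 2 * v ^ 7 - (7 / 108) * z ^ 2 *
  u ^ 2 * v ^ 7 - (2 / 27) * z * u ^ 2 * v ^ 7 - (1 / 27) * u ^ 2 * v ^ 7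

theorem y0_mul {z : K} (hz : z ^ 4 + z ^ 3 + z ^ 2 + z + 1 = 0) (u v : K) :
    y0 z u v * G_y0 z u v = fuv u v ^ 2 := by
  unfold y0 y0UV G_y0 fuv
  linear_combination
    (-(7 / 5) * z ^ 2 * u ^ 22 * v ^ 2 - (13 / 5) * z * u ^ 22 * v ^ 2 - (11 / 5) * u ^ 22 * v
      ^ 2 - (99 / 5) * z ^ 2 * u ^ 17 * v ^ 7 - (121 / 5) * z * u ^ 17 * v ^ 7 - (187 / 5) * u
      ^ 17 * v ^ 7 - (238 / 5) * z ^ 2 * u ^ 12 * v ^ 12 + (238 / 5) * z * u ^ 12 * v ^ 12 -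
      (714 / 5) * u ^ 12 * v ^ 12 - (11 / 5) * z ^ 2 * u ^ 7 * v ^ 17 - (209 / 5) * z * u ^ 7 *
      v ^ 17 + (77 / 5) * u ^ 7 * v ^ 17 + (3 / 5) * z ^ 2 * u ^ 2 * v ^ 22 + (17 / 5) * z * u
      ^ 2 * v ^ 22 - (1 / 5) * u ^ 2 * v ^ 22) * hz

/-- Cofactor: `(XQT - xQ) * G_XT_xQ = f²`. -/
def G_XT_xQ (z u v : K) : K :=
  -(1 / 180) * z ^ 3 * u ^ 13 * v - (1 / 90) * z ^ 2 * u ^ 13 * v - (1 / 60) * z * u ^ 13 * v +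
  (1 / 180) * u ^ 13 * v - (1 / 45) * z ^ 3 * u ^ 12 * v ^ 2 - (2 / 45) * z ^ 2 * u ^ 12 * v ^
  2 - (1 / 15) * z * u ^ 12 * v ^ 2 - (1 / 30) * u ^ 12 * v ^ 2 - (1 / 90) * z ^ 3 * u ^ 11 * v
  ^ 3 - (1 / 20) * z ^ 2 * u ^ 11 * v ^ 3 - (4 / 45) * z * u ^ 11 * v ^ 3 - (1 / 10) * u ^ 11 *
  v ^ 3 + (13 / 180) * z ^ 3 * u ^ 10 * v ^ 4 + (1 / 30) * z ^ 2 * u ^ 10 * v ^ 4 - (1 / 30) *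
  z * u ^ 10 * v ^ 4 - (13 / 180) * u ^ 10 * v ^ 4 + (1 / 6) * z ^ 3 * u ^ 9 * v ^ 5 + (7 / 36)
  * z ^ 2 * u ^ 9 * v ^ 5 + (1 / 12) * z * u ^ 9 * v ^ 5 - (1 / 36) * u ^ 9 * v ^ 5 + (2 / 15)
  * z ^ 3 * u ^ 8 * v ^ 6 + (4 / 15) * z ^ 2 * u ^ 8 * v ^ 6 + (11 / 90) * z * u ^ 8 * v ^ 6 +
  (13 / 90) * u ^ 8 * v ^ 6 - (2 / 15) * z ^ 3 * u ^ 7 * v ^ 7 + (1 / 90) * z ^ 2 * u ^ 7 * v ^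
  7 - (11 / 90) * z * u ^ 7 * v ^ 7 - (11 / 180) * u ^ 7 * v ^ 7 - (19 / 60) * z ^ 3 * u ^ 6 *
  v ^ 8 - (11 / 45) * z ^ 2 * u ^ 6 * v ^ 8 - (31 / 180) * z * u ^ 6 * v ^ 8 - (22 / 45) * u ^
  6 * v ^ 8 - (1 / 90) * z ^ 3 * u ^ 5 * v ^ 9 - (2 / 15) * z ^ 2 * u ^ 5 * v ^ 9 + (2 / 15) *
  z * u ^ 5 * v ^ 9 + (1 / 90) * u ^ 5 * v ^ 9 + (2 / 9) * z ^ 3 * u ^ 4 * v ^ 10 + (1 / 36) *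
  z ^ 2 * u ^ 4 * v ^ 10 + (1 / 9) * z * u ^ 4 * v ^ 10 + (7 / 36) * u ^ 4 * v ^ 10 + (1 / 30)
  * z ^ 3 * u ^ 3 * v ^ 11 + (1 / 15) * z ^ 2 * u ^ 3 * v ^ 11 - (7 / 180) * z * u ^ 3 * v ^ 11
  + (19 / 180) * u ^ 3 * v ^ 11 - (11 / 180) * z ^ 3 * u ^ 2 * v ^ 12 + (1 / 60) * z ^ 2 * u ^
  2 * v ^ 12 - (2 / 45) * z * u ^ 2 * v ^ 12 - (1 / 45) * u ^ 2 * v ^ 12 - (1 / 60) * z ^ 3 * u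
  * v ^ 13 - (1 / 180) * z ^ 2 * u * v ^ 13 + (1 / 180) * z * u * v ^ 13 - (1 / 90) * u * v ^
  13 + (1 / 90) * z ^ 3 * v ^ 14 - (1 / 180) * z ^ 2 * v ^ 14 + (1 / 180) * z * v ^ 14 - (1 /
  90) * v ^ 14

theorem XQT_sub_xQ_mul {z : K} (hz : z ^ 4 + z ^ 3 + z ^ 2 + z + 1 = 0) (u v : K) :
    (XQT z u v - xQ u v) * G_XT_xQ z u v = fuv u v ^ 2 := by
  unfold XQT xQ G_XT_xQ fuv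
  linear_combination
    (-(1 / 5) * z ^ 2 * u ^ 22 * v ^ 2 - (2 / 5) * z * u ^ 22 * v ^ 2 - (3 / 5) * u ^ 22 * v ^
      2 - (6 / 5) * z ^ 2 * u ^ 21 * v ^ 3 - 2 * z * u ^ 21 * v ^ 3 - (14 / 5) * u ^ 21 * v ^ 3
      - 2 * z ^ 2 * u ^ 20 * v ^ 4 - (14 / 5) * z * u ^ 20 * v ^ 4 - (21 / 5) * u ^ 20 * v ^ 4
      + (9 / 5) * z ^ 2 * u ^ 19 * v ^ 5 + (4 / 5) * z * u ^ 19 * v ^ 5 - (13 / 5) * u ^ 19 * v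
      ^ 5 + (56 / 5) * z ^ 2 * u ^ 18 * v ^ 6 + (27 / 5) * z * u ^ 18 * v ^ 6 - (8 / 5) * u ^
      18 * v ^ 6 + (86 / 5) * z ^ 2 * u ^ 17 * v ^ 7 + (23 / 5) * z * u ^ 17 * v ^ 7 - (1 / 5)
      * u ^ 17 * v ^ 7 + (31 / 5) * z ^ 2 * u ^ 16 * v ^ 8 - 5 * z * u ^ 16 * v ^ 8 - (1 / 5) *
      u ^ 16 * v ^ 8 - 21 * z ^ 2 * u ^ 15 * v ^ 9 - (51 / 5) * z * u ^ 15 * v ^ 9 + (26 / 5) *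
      u ^ 15 * v ^ 9 - (144 / 5) * z ^ 2 * u ^ 14 * v ^ 10 + (51 / 5) * z * u ^ 14 * v ^ 10 +
      (93 / 5) * u ^ 14 * v ^ 10 - (11 / 5) * z ^ 2 * u ^ 13 * v ^ 11 + (53 / 5) * z * u ^ 13 *
      v ^ 11 - (92 / 5) * u ^ 13 * v ^ 11 + (68 / 5) * z ^ 2 * u ^ 12 * v ^ 12 - 26 * z * u ^
      12 * v ^ 12 - (267 / 5) * u ^ 12 * v ^ 12 + (73 / 5) * z ^ 2 * u ^ 11 * v ^ 13 - 11 * z *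
      u ^ 11 * v ^ 13 + (72 / 5) * u ^ 11 * v ^ 13 + 13 * z ^ 2 * u ^ 10 * v ^ 14 + (147 / 5) *
      z * u ^ 10 * v ^ 14 + (223 / 5) * u ^ 10 * v ^ 14 - (57 / 5) * z ^ 2 * u ^ 9 * v ^ 15 +
      (73 / 5) * z * u ^ 9 * v ^ 15 - (16 / 5) * u ^ 9 * v ^ 15 - (78 / 5) * z ^ 2 * u ^ 8 * v
      ^ 16 - (86 / 5) * z * u ^ 8 * v ^ 16 - (36 / 5) * u ^ 8 * v ^ 16 + (28 / 5) * z ^ 2 * u ^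
      7 * v ^ 17 - (67 / 5) * z * u ^ 7 * v ^ 17 + (1 / 5) * u ^ 7 * v ^ 17 + (28 / 5) * z ^ 2
      * u ^ 6 * v ^ 18 + 8 * z * u ^ 6 * v ^ 18 - (28 / 5) * u ^ 6 * v ^ 18 - z ^ 2 * u ^ 5 * v
      ^ 19 + (22 / 5) * z * u ^ 5 * v ^ 19 - (7 / 5) * u ^ 5 * v ^ 19 - (7 / 5) * z ^ 2 * u ^ 4
      * v ^ 20 - (7 / 5) * z * u ^ 4 * v ^ 20 + (14 / 5) * u ^ 4 * v ^ 20 + (2 / 5) * z ^ 2 * u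
      ^ 3 * v ^ 21 - (6 / 5) * z * u ^ 3 * v ^ 21 + (4 / 5) * u ^ 3 * v ^ 21 + (2 / 5) * z * u
      ^ 2 * v ^ 22 - (3 / 5) * u ^ 2 * v ^ 22) * hz

theorem XQT_ne_x0 {z : K} (hz : z ^ 4 + z ^ 3 + z ^ 2 + z + 1 = 0) {u v : K} (hf : fuv u v ≠ 0) : XQT z u v ≠ x0 z u v := by
  intro h
  have := XQT_sub_x0_mul hz u v
  rw [h, sub_self, zero_mul] at this
  exact hf ((pow_eq_zero_iff two_ne_zero).mp this.symm)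

theorem xQ_ne_x0 {z : K} (hz : z ^ 4 + z ^ 3 + z ^ 2 + z + 1 = 0) {u v : K} (hf : fuv u v ≠ 0) : xQ u v ≠ x0 z u v := by
  intro h
  have := xQ_sub_x0_mul hz u v
  rw [h, sub_self, zero_mul] at this
  exact hf ((pow_eq_zero_iff two_ne_zero).mp this.symm)

theorem xQ_ne_x0_sq {z : K} (hz : z ^ 4 + z ^ 3 + z ^ 2 + z + 1 = 0) {u v : K} (hf : fuv u v ≠ 0) : xQ u v ≠ x0 (z ^ 2) u v := by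
  intro h
  have := xQ_sub_x0_sq_mul hz u v
  rw [h, sub_self, zero_mul] at this
  exact hf ((pow_eq_zero_iff two_ne_zero).mp this.symm)

theorem y0_ne_zero {z : K} (hz : z ^ 4 + z ^ 3 + z ^ 2 + z + 1 = 0) {u v : K} (hf : fuv u v ≠ 0) : y0 z u v ≠ 0 := by
  intro h
  have := y0_mul hz u v
  rw [h, zero_mul] at this
  exact hf ((pow_eq_zero_iff two_ne_zero).mp this.symm)

theorem XQT_ne_xQ {z : K} (hz : z ^ 4 + z ^ 3 + z ^ 2 + z + 1 = 0) {u v : K} (hf : fuv u v ≠ 0) : XQT z u v ≠ xQ u v := by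
  intro h
  have := XQT_sub_xQ_mul hz u v
  rw [h, sub_self, zero_mul] at this
  exact hf ((pow_eq_zero_iff two_ne_zero).mp this.symm)

end Fermat.Agent.G35.Sym
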