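/-
GATE-Q (S52), node Q2 (SYMMETRY), file 6: Galois conjugates of the section `P0`.
Replacing the root `ζ` by `ζ⁴` negates `P0`; replacing it by `ζ²` doubles it (cleared tangent
form).  Mathlib only.
-/
import Fermat.Agent.G35.Sym.P0

set_option autoImplicit false
set_option maxHeartbeats 800000

namespace Fermat.Agent.G35.Sym

variable {K : Type*} [Field K] [CharZero K]

omit [CharZero K] in
theorem cyclo_sq {z : K} (hz : z ^ 4 + z ^ 3 + z ^ 2 + z + 1 = 0) :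
    (z ^ 2) ^ 4 + (z ^ 2) ^ 3 + (z ^ 2) ^ 2 + z ^ 2 + 1 = 0 := by
  linear_combination (z ^ 4 - z ^ 3 + z ^ 2 - z + 1) * hz

omit [CharZero K] in
theorem cyclo_cube {z : K} (hz : z ^ 4 + z ^ 3 + z ^ 2 + z + 1 = 0) :
    (z ^ 3) ^ 4 + (z ^ 3) ^ 3 + (z ^ 3) ^ 2 + z ^ 3 + 1 = 0 := by
  linear_combination (z ^ 8 - z ^ 7 + z ^ 5 - z ^ 4 + z ^ 3 - z + 1) * hz

omit [CharZero K] in
theorem cyclo_fourth {z : K} (hz : z ^ 4 + z ^ 3 + z ^ 2 + z + 1 = 0) :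
    (z ^ 4) ^ 4 + (z ^ 4) ^ 3 + (z ^ 4) ^ 2 + z ^ 4 + 1 = 0 := by
  linear_combination (z ^ 12 - z ^ 11 + z ^ 8 - z ^ 6 + z ^ 4 - z + 1) * hz

/-- Complex conjugation `ζ ↦ ζ⁴` fixes `x(P0)`. -/
theorem x0UV_conj_four {z : K} (hz : z ^ 4 + z ^ 3 + z ^ 2 + z + 1 = 0) (U V : K) : x0UV (z ^ 4) U V = x0UV z U V := by
  unfold x0UV sqrt5
  linear_combination
    (-(36 / 5) * z ^ 12 * U ^ 2 + (36 / 5) * z ^ 11 * U ^ 2 - (36 / 5) * z ^ 7 * U ^ 2 + (36 /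
      5) * z ^ 6 * U ^ 2 - (36 / 5) * z ^ 2 * U ^ 2 + (36 / 5) * z * U ^ 2 - (396 / 5) * z ^ 12
      * U * V + (396 / 5) * z ^ 11 * U * V - (396 / 5) * z ^ 7 * U * V + (396 / 5) * z ^ 6 * U
      * V - (396 / 5) * z ^ 2 * U * V + (396 / 5) * z * U * V + (36 / 5) * z ^ 12 * V ^ 2 - (36
      / 5) * z ^ 11 * V ^ 2 + (36 / 5) * z ^ 7 * V ^ 2 - (36 / 5) * z ^ 6 * V ^ 2 + (36 / 5) *
      z ^ 2 * V ^ 2 - (36 / 5) * z * V ^ 2) * hz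

/-- Complex conjugation `ζ ↦ ζ⁴` negates `y(P0)`. -/
theorem y0UV_conj_four {z : K} (hz : z ^ 4 + z ^ 3 + z ^ 2 + z + 1 = 0) (U V : K) : y0UV (z ^ 4) U V = -y0UV z U V := by
  unfold y0UV
  linear_combination
    ((108 / 5) * z ^ 8 * U ^ 3 - (108 / 5) * z ^ 7 * U ^ 3 + (324 / 5) * z ^ 4 * U ^ 3 - (216
      / 5) * z ^ 3 * U ^ 3 - (108 / 5) * z ^ 2 * U ^ 3 + (432 / 5) * U ^ 3 + (1512 / 5) * z ^ 8
      * U ^ 2 * V - (1512 / 5) * z ^ 7 * U ^ 2 * V + (3456 / 5) * z ^ 4 * U ^ 2 * V - (1944 /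
      5) * z ^ 3 * U ^ 2 * V - (1512 / 5) * z ^ 2 * U ^ 2 * V + (4968 / 5) * U ^ 2 * V + (3456
      / 5) * z ^ 8 * U * V ^ 2 - (3456 / 5) * z ^ 7 * U * V ^ 2 - (1512 / 5) * z ^ 4 * U * V ^
      2 + (4968 / 5) * z ^ 3 * U * V ^ 2 - (3456 / 5) * z ^ 2 * U * V ^ 2 + (1944 / 5) * U * V
      ^ 2 - (324 / 5) * z ^ 8 * V ^ 3 + (324 / 5) * z ^ 7 * V ^ 3 + (108 / 5) * z ^ 4 * V ^ 3 -
      (432 / 5) * z ^ 3 * V ^ 3 + (324 / 5) * z ^ 2 * V ^ 3 - (216 / 5) * V ^ 3) * hz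

theorem x0_conj_four {z : K} (hz : z ^ 4 + z ^ 3 + z ^ 2 + z + 1 = 0) (u v : K) : x0 (z ^ 4) u v = x0 z u v :=
  x0UV_conj_four hz _ _

theorem y0_conj_four {z : K} (hz : z ^ 4 + z ^ 3 + z ^ 2 + z + 1 = 0) (u v : K) : y0 (z ^ 4) u v = -y0 z u v :=
  y0UV_conj_four hz _ _

/-- `P0[ζ²] = 2 • P0[ζ]`: tangent form, `x`-coordinate, denominators cleared. -/
theorem dbl_xUV {z : K} (hz : z ^ 4 + z ^ 3 + z ^ 2 + z + 1 = 0) (U V : K) :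
    (x0UV (z ^ 2) U V + 2 * x0UV z U V) * (2 * y0UV z U V) ^ 2
      = (3 * x0UV z U V ^ 2 + -27 * c4UV U V) ^ 2 := by
  unfold x0UV y0UV sqrt5 c4UV
  linear_combination
    (-(15116544 / 625) * z ^ 12 * U ^ 8 + (15116544 / 625) * z ^ 11 * U ^ 8 - (1679616 / 125)
      * z ^ 10 * U ^ 8 - (102456576 / 625) * z ^ 9 * U ^ 8 - (188116992 / 625) * z ^ 8 * U ^ 8
      + (48708864 / 625) * z ^ 7 * U ^ 8 - (18475776 / 125) * z ^ 6 * U ^ 8 - (73903104 / 125)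
      * z ^ 5 * U ^ 8 - (326265408 / 625) * z ^ 4 * U ^ 8 + (141507648 / 625) * z ^ 3 * U ^ 8 -
      (600882624 / 625) * z ^ 2 * U ^ 8 - (1224859968 / 625) * z * U ^ 8 - (899014464 / 625) *
      U ^ 8 - (665127936 / 625) * z ^ 12 * U ^ 7 * V + (665127936 / 625) * z ^ 11 * U ^ 7 * V -
      (65505024 / 125) * z ^ 10 * U ^ 7 * V - (4130175744 / 625) * z ^ 9 * U ^ 7 * V -
      (5925685248 / 625) * z ^ 8 * U ^ 7 * V + (1807266816 / 625) * z ^ 7 * U ^ 7 * V -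
      (796137984 / 125) * z ^ 6 * U ^ 7 * V - (2479113216 / 125) * z ^ 5 * U ^ 7 * V -
      (7742189952 / 625) * z ^ 4 * U ^ 7 * V + (1376445312 / 625) * z ^ 3 * U ^ 7 * V -
      (19993309056 / 625) * z ^ 2 * U ^ 7 * V - (32499729792 / 625) * z * U ^ 7 * V -
      (19905129216 / 625) * U ^ 7 * V - (10914144768 / 625) * z ^ 12 * U ^ 6 * V ^ 2 +
      (10914144768 / 625) * z ^ 11 * U ^ 6 * V ^ 2 - (952342272 / 125) * z ^ 10 * U ^ 6 * V ^ 2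
      - (61418518272 / 625) * z ^ 9 * U ^ 6 * V ^ 2 - (58726093824 / 625) * z ^ 8 * U ^ 6 * V ^
      2 + (24334276608 / 625) * z ^ 7 * U ^ 6 * V ^ 2 - (12818829312 / 125) * z ^ 6 * U ^ 6 * V
      ^ 2 - (27979043328 / 125) * z ^ 5 * U ^ 6 * V ^ 2 - (50123520576 / 625) * z ^ 4 * U ^ 6 *
      V ^ 2 - (25240849344 / 625) * z ^ 3 * U ^ 6 * V ^ 2 - (225365416128 / 625) * z ^ 2 * U ^
      6 * V ^ 2 - (270312780096 / 625) * z * U ^ 6 * V ^ 2 - (110278127808 / 625) * U ^ 6 * V ^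
      2 - (78485096448 / 625) * z ^ 12 * U ^ 5 * V ^ 3 + (78485096448 / 625) * z ^ 11 * U ^ 5 *
      V ^ 3 - (6251530752 / 125) * z ^ 10 * U ^ 5 * V ^ 3 - (393134280192 / 625) * z ^ 9 * U ^
      5 * V ^ 3 - (146805156864 / 625) * z ^ 8 * U ^ 5 * V ^ 3 + (140278169088 / 625) * z ^ 7 *
      U ^ 5 * V ^ 3 - (90988157952 / 125) * z ^ 6 * U ^ 5 * V ^ 3 - (109440419328 / 125) * z ^
      5 * U ^ 5 * V ^ 3 - (34824318336 / 625) * z ^ 4 * U ^ 5 * V ^ 3 - (295085856384 / 625) *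
      z ^ 3 * U ^ 5 * V ^ 3 - (900946862208 / 625) * z ^ 2 * U ^ 5 * V ^ 3 - (686129014656 /
      625) * z * U ^ 5 * V ^ 3 - (6979644288 / 625) * U ^ 5 * V ^ 3 - (39892559616 / 125) * z ^
      12 * U ^ 4 * V ^ 4 + (39892559616 / 125) * z ^ 11 * U ^ 4 * V ^ 4 - (3517115904 / 25) * z
      ^ 10 * U ^ 4 * V ^ 4 - (168724145664 / 125) * z ^ 9 * U ^ 4 * V ^ 4 + (62199539712 / 125)
      * z ^ 8 * U ^ 4 * V ^ 4 + (61693975296 / 125) * z ^ 7 * U ^ 4 * V ^ 4 - (46926791424 /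
      25) * z ^ 6 * U ^ 4 * V ^ 4 - (8021846016 / 25) * z ^ 5 * U ^ 4 * V ^ 4 + (31439052288 /
      125) * z ^ 4 * U ^ 4 * V ^ 4 - (84918025728 / 125) * z ^ 3 * U ^ 4 * V ^ 4 - (92960027136
      / 125) * z ^ 2 * U ^ 4 * V ^ 4 - (31193828352 / 125) * z * U ^ 4 * V ^ 4 - (14076861696 /
      125) * U ^ 4 * V ^ 4 + (78485096448 / 625) * z ^ 12 * U ^ 3 * V ^ 5 - (78485096448 / 625)
      * z ^ 11 * U ^ 3 * V ^ 5 - (15549884928 / 125) * z ^ 10 * U ^ 3 * V ^ 5 + (502141358592 /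
      625) * z ^ 9 * U ^ 3 * V ^ 5 - (507237313536 / 625) * z ^ 8 * U ^ 3 * V ^ 5 +
      (186743066112 / 625) * z ^ 7 * U ^ 3 * V ^ 5 + (47385326592 / 125) * z ^ 6 * U ^ 3 * V ^
      5 - (43169490432 / 125) * z ^ 5 * U ^ 3 * V ^ 5 + (34824318336 / 625) * z ^ 4 * U ^ 3 * V
      ^ 5 + (77071699584 / 625) * z ^ 3 * U ^ 3 * V ^ 5 - (110433912192 / 625) * z ^ 2 * U ^ 3
      * V ^ 5 + (92720681856 / 625) * z * U ^ 3 * V ^ 5 - (56551830912 / 625) * U ^ 3 * V ^ 5 -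
      (10914144768 / 625) * z ^ 12 * U ^ 2 * V ^ 6 + (10914144768 / 625) * z ^ 11 * U ^ 2 * V ^
      6 + (5111071488 / 125) * z ^ 10 * U ^ 2 * V ^ 6 - (91735587072 / 625) * z ^ 9 * U ^ 2 * V
      ^ 6 + (123176318976 / 625) * z ^ 8 * U ^ 2 * V ^ 6 - (66616929792 / 625) * z ^ 7 * U ^ 2
      * V ^ 6 - (692001792 / 125) * z ^ 6 * U ^ 2 * V ^ 6 + (14464852992 / 125) * z ^ 5 * U ^ 2
      * V ^ 6 - (50123520576 / 625) * z ^ 4 * U ^ 2 * V ^ 6 + (35393288256 / 625) * z ^ 3 * U ^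
      2 * V ^ 6 - (3782075328 / 625) * z ^ 2 * U ^ 2 * V ^ 6 + (14130189504 / 625) * z * U ^ 2
      * V ^ 6 - (3055641408 / 625) * U ^ 2 * V ^ 6 + (665127936 / 625) * z ^ 12 * U * V ^ 7 -
      (665127936 / 625) * z ^ 11 * U * V ^ 7 - (488768256 / 125) * z ^ 10 * U * V ^ 7 +
      (6901542144 / 625) * z ^ 9 * U * V ^ 7 - (10702513152 / 625) * z ^ 8 * U * V ^ 7 +
      (6506832384 / 625) * z ^ 7 * U * V ^ 7 - (312408576 / 125) * z ^ 6 * U * V ^ 7 -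
      (1400799744 / 125) * z ^ 5 * U * V ^ 7 + (7742189952 / 625) * z ^ 4 * U * V ^ 7 -
      (6919178112 / 625) * z ^ 3 * U * V ^ 7 + (5044726656 / 625) * z ^ 2 * U * V ^ 7 -
      (4115899008 / 625) * z * U * V ^ 7 + (2143190016 / 625) * U * V ^ 7 - (15116544 / 625) *
      z ^ 12 * V ^ 8 + (15116544 / 625) * z ^ 11 * V ^ 8 + (15116544 / 125) * z ^ 10 * V ^ 8 -
      (186437376 / 625) * z ^ 9 * V ^ 8 + (315767808 / 625) * z ^ 8 * V ^ 8 - (203233536 / 625)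
      * z ^ 7 * V ^ 8 + (15116544 / 125) * z ^ 6 * V ^ 8 + (43670016 / 125) * z ^ 5 * V ^ 8 -
      (326265408 / 625) * z ^ 4 * V ^ 8 + (309469248 / 625) * z ^ 3 * V ^ 8 - (306949824 / 625)
      * z ^ 2 * V ^ 8 + (202813632 / 625) * z * V ^ 8 - (122192064 / 625) * V ^ 8) * hz

/-- `P0[ζ²] = 2 • P0[ζ]`: tangent form, `y`-coordinate, denominators cleared. -/
theorem dbl_yUV {z : K} (hz : z ^ 4 + z ^ 3 + z ^ 2 + z + 1 = 0) (U V : K) :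
    (y0UV (z ^ 2) U V + y0UV z U V) * (2 * y0UV z U V)
      = -(3 * x0UV z U V ^ 2 + -27 * c4UV U V) * (x0UV (z ^ 2) U V - x0UV z U V) := by
  unfold x0UV y0UV sqrt5 c4UV
  linear_combination
    (-(139968 / 125) * z ^ 12 * U ^ 6 + (139968 / 125) * z ^ 11 * U ^ 6 - (279936 / 125) * z ^
      9 * U ^ 6 - (303264 / 125) * z ^ 8 * U ^ 6 + (443232 / 125) * z ^ 7 * U ^ 6 - (139968 /
      125) * z ^ 6 * U ^ 6 + (93312 / 125) * z ^ 5 * U ^ 6 + (69984 / 125) * z ^ 4 * U ^ 6 +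
      (69984 / 125) * z ^ 3 * U ^ 6 + (1003104 / 125) * z ^ 2 * U ^ 6 + (2776032 / 125) * z * U
      ^ 6 + (186624 / 25) * U ^ 6 - (4618944 / 125) * z ^ 12 * U ^ 5 * V + (4618944 / 125) * z
      ^ 11 * U ^ 5 * V - (9237888 / 125) * z ^ 9 * U ^ 5 * V - (3592512 / 125) * z ^ 8 * U ^ 5
      * V + (8211456 / 125) * z ^ 7 * U ^ 5 * V - (4618944 / 125) * z ^ 6 * U ^ 5 * V +
      (8911296 / 125) * z ^ 5 * U ^ 5 * V - (2356128 / 125) * z ^ 4 * U ^ 5 * V + (1143072 /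
      125) * z ^ 3 * U ^ 5 * V + (24937632 / 125) * z ^ 2 * U ^ 5 * V + (62449056 / 125) * z *
      U ^ 5 * V + (4292352 / 25) * U ^ 5 * V - (10077696 / 25) * z ^ 12 * U ^ 4 * V ^ 2 +
      (10077696 / 25) * z ^ 11 * U ^ 4 * V ^ 2 - (20155392 / 25) * z ^ 9 * U ^ 4 * V ^ 2 +
      (6158592 / 25) * z ^ 8 * U ^ 4 * V ^ 2 + (3919104 / 25) * z ^ 7 * U ^ 4 * V ^ 2 -
      (10077696 / 25) * z ^ 6 * U ^ 4 * V ^ 2 + (32379264 / 25) * z ^ 5 * U ^ 4 * V ^ 2 -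
      (15373152 / 25) * z ^ 4 * U ^ 4 * V ^ 2 - (209952 / 25) * z ^ 3 * U ^ 4 * V ^ 2 +
      (36648288 / 25) * z ^ 2 * U ^ 4 * V ^ 2 + (72153504 / 25) * z * U ^ 4 * V ^ 2 + (5272128
      / 5) * U ^ 4 * V ^ 2 - (35411904 / 25) * z ^ 12 * U ^ 3 * V ^ 3 + (35411904 / 25) * z ^
      11 * U ^ 3 * V ^ 3 - (70823808 / 25) * z ^ 9 * U ^ 3 * V ^ 3 + (70823808 / 25) * z ^ 8 *
      U ^ 3 * V ^ 3 - (35411904 / 25) * z ^ 7 * U ^ 3 * V ^ 3 - (35411904 / 25) * z ^ 6 * U ^ 3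
      * V ^ 3 + (162409536 / 25) * z ^ 5 * U ^ 3 * V ^ 3 - (90769248 / 25) * z ^ 4 * U ^ 3 * V
      ^ 3 - (12620448 / 25) * z ^ 3 * U ^ 3 * V ^ 3 + (67161312 / 25) * z ^ 2 * U ^ 3 * V ^ 3 +
      (21158496 / 25) * z * U ^ 3 * V ^ 3 + (3825792 / 5) * U ^ 3 * V ^ 3 + (10077696 / 25) * z
      ^ 12 * U ^ 2 * V ^ 4 - (10077696 / 25) * z ^ 11 * U ^ 2 * V ^ 4 + (20155392 / 25) * z ^ 9
      * U ^ 2 * V ^ 4 - (34152192 / 25) * z ^ 8 * U ^ 2 * V ^ 4 + (24074496 / 25) * z ^ 7 * U ^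
      2 * V ^ 4 + (10077696 / 25) * z ^ 6 * U ^ 2 * V ^ 4 - (32379264 / 25) * z ^ 5 * U ^ 2 * V
      ^ 4 + (29369952 / 25) * z ^ 4 * U ^ 2 * V ^ 4 - (13786848 / 25) * z ^ 3 * U ^ 2 * V ^ 4 +
      (5342112 / 25) * z ^ 2 * U ^ 2 * V ^ 4 - (2169504 / 25) * z * U ^ 2 * V ^ 4 + (326592 /
      5) * U ^ 2 * V ^ 4 - (4618944 / 125) * z ^ 12 * U * V ^ 5 + (4618944 / 125) * z ^ 11 * U
      * V ^ 5 - (9237888 / 125) * z ^ 9 * U * V ^ 5 + (22068288 / 125) * z ^ 8 * U * V ^ 5 -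
      (17449344 / 125) * z ^ 7 * U * V ^ 5 - (4618944 / 125) * z ^ 6 * U * V ^ 5 + (8911296 /
      125) * z ^ 5 * U * V ^ 5 - (15186528 / 125) * z ^ 4 * U * V ^ 5 + (13973472 / 125) * z ^
      3 * U * V ^ 5 - (13553568 / 125) * z ^ 2 * U * V ^ 5 - (1702944 / 125) * z * U * V ^ 5 -
      (839808 / 25) * U * V ^ 5 + (139968 / 125) * z ^ 12 * V ^ 6 - (139968 / 125) * z ^ 11 * V
      ^ 6 + (279936 / 125) * z ^ 9 * V ^ 6 - (863136 / 125) * z ^ 8 * V ^ 6 + (723168 / 125) *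
      z ^ 7 * V ^ 6 + (139968 / 125) * z ^ 6 * V ^ 6 - (93312 / 125) * z ^ 5 * V ^ 6 + (513216
      / 125) * z ^ 4 * V ^ 6 - (653184 / 125) * z ^ 3 * V ^ 6 + (746496 / 125) * z ^ 2 * V ^ 6
      + (139968 / 125) * z * V ^ 6 + (46656 / 25) * V ^ 6) * hz

theorem dbl_x {z : K} (hz : z ^ 4 + z ^ 3 + z ^ 2 + z + 1 = 0) (u v : K) :
    (x0 (z ^ 2) u v + 2 * x0 z u v) * (2 * y0 z u v) ^ 2
      = (3 * x0 z u v ^ 2 + coneA u v) ^ 2 :=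
  dbl_xUV hz _ _

theorem dbl_y {z : K} (hz : z ^ 4 + z ^ 3 + z ^ 2 + z + 1 = 0) (u v : K) :
    (y0 (z ^ 2) u v + y0 z u v) * (2 * y0 z u v)
      = -(3 * x0 z u v ^ 2 + coneA u v) * (x0 (z ^ 2) u v - x0 z u v) :=
  dbl_yUV hz _ _

end Fermat.Agent.G35.Sym
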