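/-
GATE-Q (S52), node Q2 (SYMMETRY), file 3b: invariance of the Klein forms `c4, T` under Klein's
matrix `S`, and `Q0 = P0 ∘ S`.  Staged certificates (quintic forms, then their pairwise products,
all reduced modulo the 5th cyclotomic polynomial).  `T`-invariance is DEDUCED from `c4`-invariance
and the two on-curve identities (no degree-30 computation).  Mathlib only.
-/
import Fermat.Agent.G35.Sym.SMat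

set_option autoImplicit false
set_option maxHeartbeats 1600000

namespace Fermat.Agent.G35.Sym

variable {K : Type*} [Field K] [CharZero K]

/-- `SU5²` reduced. -/
def SUU (z u v : K) : K :=
  (11 / 125) * z ^ 3 * u ^ 10 + (11 / 125) * z ^ 2 * u ^ 10 - (7 / 125) * u ^ 10 - (14 / 25) *
  z ^ 3 * u ^ 9 * v - (14 / 25) * z ^ 2 * u ^ 9 * v + (8 / 25) * u ^ 9 * v + (36 / 25) * z ^ 3
  * u ^ 8 * v ^ 2 + (36 / 25) * z ^ 2 * u ^ 8 * v ^ 2 - (27 / 25) * u ^ 8 * v ^ 2 - (72 / 25) *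
  z ^ 3 * u ^ 7 * v ^ 3 - (72 / 25) * z ^ 2 * u ^ 7 * v ^ 3 + (24 / 25) * u ^ 7 * v ^ 3 + (42 /
  25) * z ^ 3 * u ^ 6 * v ^ 4 + (42 / 25) * z ^ 2 * u ^ 6 * v ^ 4 - (84 / 25) * u ^ 6 * v ^ 4 -
  (504 / 125) * z ^ 3 * u ^ 5 * v ^ 5 - (504 / 125) * z ^ 2 * u ^ 5 * v ^ 5 - (252 / 125) * u ^
  5 * v ^ 5 - (42 / 25) * z ^ 3 * u ^ 4 * v ^ 6 - (42 / 25) * z ^ 2 * u ^ 4 * v ^ 6 - (126 /
  25) * u ^ 4 * v ^ 6 - (72 / 25) * z ^ 3 * u ^ 3 * v ^ 7 - (72 / 25) * z ^ 2 * u ^ 3 * v ^ 7 -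
  (96 / 25) * u ^ 3 * v ^ 7 - (36 / 25) * z ^ 3 * u ^ 2 * v ^ 8 - (36 / 25) * z ^ 2 * u ^ 2 * v
  ^ 8 - (63 / 25) * u ^ 2 * v ^ 8 - (14 / 25) * z ^ 3 * u * v ^ 9 - (14 / 25) * z ^ 2 * u * v ^
  9 - (22 / 25) * u * v ^ 9 - (11 / 125) * z ^ 3 * v ^ 10 - (11 / 125) * z ^ 2 * v ^ 10 - (18 /
  125) * v ^ 10

/-- `SU5 * SV5` reduced. -/
def SUV (z u v : K) : K :=
  -(2 / 125) * z ^ 3 * u ^ 10 - (2 / 125) * z ^ 2 * u ^ 10 - (1 / 125) * u ^ 10 - (2 / 25) * z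
  ^ 3 * u ^ 9 * v - (2 / 25) * z ^ 2 * u ^ 9 * v - (1 / 25) * u ^ 9 * v - (2 / 25) * z ^ 3 * u
  ^ 8 * v ^ 2 - (2 / 25) * z ^ 2 * u ^ 8 * v ^ 2 - (1 / 25) * u ^ 8 * v ^ 2 + (4 / 25) * z ^ 3
  * u ^ 7 * v ^ 3 + (4 / 25) * z ^ 2 * u ^ 7 * v ^ 3 + (2 / 25) * u ^ 7 * v ^ 3 + (6 / 25) * z
  ^ 3 * u ^ 6 * v ^ 4 + (6 / 25) * z ^ 2 * u ^ 6 * v ^ 4 + (3 / 25) * u ^ 6 * v ^ 4 - (22 /
  125) * z ^ 3 * u ^ 5 * v ^ 5 - (22 / 125) * z ^ 2 * u ^ 5 * v ^ 5 - (11 / 125) * u ^ 5 * v ^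
  5 - (6 / 25) * z ^ 3 * u ^ 4 * v ^ 6 - (6 / 25) * z ^ 2 * u ^ 4 * v ^ 6 - (3 / 25) * u ^ 4 *
  v ^ 6 + (4 / 25) * z ^ 3 * u ^ 3 * v ^ 7 + (4 / 25) * z ^ 2 * u ^ 3 * v ^ 7 + (2 / 25) * u ^
  3 * v ^ 7 + (2 / 25) * z ^ 3 * u ^ 2 * v ^ 8 + (2 / 25) * z ^ 2 * u ^ 2 * v ^ 8 + (1 / 25) *
  u ^ 2 * v ^ 8 - (2 / 25) * z ^ 3 * u * v ^ 9 - (2 / 25) * z ^ 2 * u * v ^ 9 - (1 / 25) * u *
  v ^ 9 + (2 / 125) * z ^ 3 * v ^ 10 + (2 / 125) * z ^ 2 * v ^ 10 + (1 / 125) * v ^ 10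

/-- `SV5²` reduced. -/
def SVV (z u v : K) : K :=
  -(11 / 125) * z ^ 3 * u ^ 10 - (11 / 125) * z ^ 2 * u ^ 10 - (18 / 125) * u ^ 10 + (14 / 25)
  * z ^ 3 * u ^ 9 * v + (14 / 25) * z ^ 2 * u ^ 9 * v + (22 / 25) * u ^ 9 * v - (36 / 25) * z ^
  3 * u ^ 8 * v ^ 2 - (36 / 25) * z ^ 2 * u ^ 8 * v ^ 2 - (63 / 25) * u ^ 8 * v ^ 2 + (72 / 25)
  * z ^ 3 * u ^ 7 * v ^ 3 + (72 / 25) * z ^ 2 * u ^ 7 * v ^ 3 + (96 / 25) * u ^ 7 * v ^ 3 - (42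
  / 25) * z ^ 3 * u ^ 6 * v ^ 4 - (42 / 25) * z ^ 2 * u ^ 6 * v ^ 4 - (126 / 25) * u ^ 6 * v ^
  4 + (504 / 125) * z ^ 3 * u ^ 5 * v ^ 5 + (504 / 125) * z ^ 2 * u ^ 5 * v ^ 5 + (252 / 125) *
  u ^ 5 * v ^ 5 + (42 / 25) * z ^ 3 * u ^ 4 * v ^ 6 + (42 / 25) * z ^ 2 * u ^ 4 * v ^ 6 - (84 /
  25) * u ^ 4 * v ^ 6 + (72 / 25) * z ^ 3 * u ^ 3 * v ^ 7 + (72 / 25) * z ^ 2 * u ^ 3 * v ^ 7 -
  (24 / 25) * u ^ 3 * v ^ 7 + (36 / 25) * z ^ 3 * u ^ 2 * v ^ 8 + (36 / 25) * z ^ 2 * u ^ 2 * v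
  ^ 8 - (27 / 25) * u ^ 2 * v ^ 8 + (14 / 25) * z ^ 3 * u * v ^ 9 + (14 / 25) * z ^ 2 * u * v ^
  9 - (8 / 25) * u * v ^ 9 + (11 / 125) * z ^ 3 * v ^ 10 + (11 / 125) * z ^ 2 * v ^ 10 - (7 /
  125) * v ^ 10

theorem SU5_sq {z : K} (hz : z ^ 4 + z ^ 3 + z ^ 2 + z + 1 = 0) (u v : K) : SU5 z u v ^ 2 = SUU z u v := by
  unfold SU5 SUU
  linear_combination
    ((1 / 625) * z ^ 2 * u ^ 10 + (13 / 625) * z * u ^ 10 + (51 / 625) * u ^ 10 - (4 / 125) *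
      z ^ 2 * u ^ 9 * v - (32 / 125) * z * u ^ 9 * v - (64 / 125) * u ^ 9 * v + (16 / 125) * z
      ^ 2 * u ^ 8 * v ^ 2 + (48 / 125) * z * u ^ 8 * v ^ 2 + (196 / 125) * u ^ 8 * v ^ 2 + (28
      / 125) * z ^ 2 * u ^ 7 * v ^ 3 - (156 / 125) * z * u ^ 7 * v ^ 3 - (212 / 125) * u ^ 7 *
      v ^ 3 + (132 / 125) * z ^ 2 * u ^ 6 * v ^ 4 - (24 / 125) * z * u ^ 6 * v ^ 4 + (552 /
      125) * u ^ 6 * v ^ 4 + (986 / 625) * z ^ 2 * u ^ 5 * v ^ 5 - (2082 / 625) * z * u ^ 5 * v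
      ^ 5 + (986 / 625) * u ^ 5 * v ^ 5 + (288 / 125) * z ^ 2 * u ^ 4 * v ^ 6 - (396 / 125) * z
      * u ^ 4 * v ^ 6 + (708 / 125) * u ^ 4 * v ^ 6 + (268 / 125) * z ^ 2 * u ^ 3 * v ^ 7 -
      (396 / 125) * z * u ^ 3 * v ^ 7 + (508 / 125) * u ^ 3 * v ^ 7 + (164 / 125) * z ^ 2 * u ^
      2 * v ^ 8 - (228 / 125) * z * u ^ 2 * v ^ 8 + (344 / 125) * u ^ 2 * v ^ 8 + (56 / 125) *
      z ^ 2 * u * v ^ 9 - (92 / 125) * z * u * v ^ 9 + (116 / 125) * u * v ^ 9 + (49 / 625) * z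
      ^ 2 * v ^ 10 - (63 / 625) * z * v ^ 10 + (99 / 625) * v ^ 10) * hz

theorem SU5_mul_SV5 {z : K} (hz : z ^ 4 + z ^ 3 + z ^ 2 + z + 1 = 0) (u v : K) : SU5 z u v * SV5 z u v = SUV z u v := by
  unfold SU5 SV5 SUV
  linear_combination
    (-(7 / 625) * z ^ 2 * u ^ 10 - (41 / 625) * z * u ^ 10 - (7 / 625) * u ^ 10 + (18 / 125) *
      z ^ 2 * u ^ 9 * v + (34 / 125) * z * u ^ 9 * v + (18 / 125) * u ^ 9 * v - (32 / 125) * z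
      ^ 2 * u ^ 8 * v ^ 2 - (116 / 125) * z * u ^ 8 * v ^ 2 - (32 / 125) * u ^ 8 * v ^ 2 + (64
      / 125) * z ^ 2 * u ^ 7 * v ^ 3 + (232 / 125) * z * u ^ 7 * v ^ 3 + (64 / 125) * u ^ 7 * v
      ^ 3 - (54 / 125) * z ^ 2 * u ^ 6 * v ^ 4 - (102 / 125) * z * u ^ 6 * v ^ 4 - (54 / 125) *
      u ^ 6 * v ^ 4 + (548 / 625) * z ^ 2 * u ^ 5 * v ^ 5 + (1424 / 625) * z * u ^ 5 * v ^ 5 +
      (548 / 625) * u ^ 5 * v ^ 5 + (54 / 125) * z ^ 2 * u ^ 4 * v ^ 6 + (102 / 125) * z * u ^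
      4 * v ^ 6 + (54 / 125) * u ^ 4 * v ^ 6 + (64 / 125) * z ^ 2 * u ^ 3 * v ^ 7 + (232 / 125)
      * z * u ^ 3 * v ^ 7 + (64 / 125) * u ^ 3 * v ^ 7 + (32 / 125) * z ^ 2 * u ^ 2 * v ^ 8 +
      (116 / 125) * z * u ^ 2 * v ^ 8 + (32 / 125) * u ^ 2 * v ^ 8 + (18 / 125) * z ^ 2 * u * v
      ^ 9 + (34 / 125) * z * u * v ^ 9 + (18 / 125) * u * v ^ 9 + (7 / 625) * z ^ 2 * v ^ 10 +
      (41 / 625) * z * v ^ 10 + (7 / 625) * v ^ 10) * hz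

theorem SV5_sq {z : K} (hz : z ^ 4 + z ^ 3 + z ^ 2 + z + 1 = 0) (u v : K) : SV5 z u v ^ 2 = SVV z u v := by
  unfold SV5 SVV
  linear_combination
    ((49 / 625) * z ^ 2 * u ^ 10 - (63 / 625) * z * u ^ 10 + (99 / 625) * u ^ 10 - (56 / 125)
      * z ^ 2 * u ^ 9 * v + (92 / 125) * z * u ^ 9 * v - (116 / 125) * u ^ 9 * v + (164 / 125)
      * z ^ 2 * u ^ 8 * v ^ 2 - (228 / 125) * z * u ^ 8 * v ^ 2 + (344 / 125) * u ^ 8 * v ^ 2 -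
      (268 / 125) * z ^ 2 * u ^ 7 * v ^ 3 + (396 / 125) * z * u ^ 7 * v ^ 3 - (508 / 125) * u ^
      7 * v ^ 3 + (288 / 125) * z ^ 2 * u ^ 6 * v ^ 4 - (396 / 125) * z * u ^ 6 * v ^ 4 + (708
      / 125) * u ^ 6 * v ^ 4 - (986 / 625) * z ^ 2 * u ^ 5 * v ^ 5 + (2082 / 625) * z * u ^ 5 *
      v ^ 5 - (986 / 625) * u ^ 5 * v ^ 5 + (132 / 125) * z ^ 2 * u ^ 4 * v ^ 6 - (24 / 125) *
      z * u ^ 4 * v ^ 6 + (552 / 125) * u ^ 4 * v ^ 6 - (28 / 125) * z ^ 2 * u ^ 3 * v ^ 7 +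
      (156 / 125) * z * u ^ 3 * v ^ 7 + (212 / 125) * u ^ 3 * v ^ 7 + (16 / 125) * z ^ 2 * u ^
      2 * v ^ 8 + (48 / 125) * z * u ^ 2 * v ^ 8 + (196 / 125) * u ^ 2 * v ^ 8 + (4 / 125) * z
      ^ 2 * u * v ^ 9 + (32 / 125) * z * u * v ^ 9 + (64 / 125) * u * v ^ 9 + (1 / 625) * z ^ 2
      * v ^ 10 + (13 / 625) * z * v ^ 10 + (51 / 625) * v ^ 10) * hz

/-- `c4` is `S`-invariant. -/
theorem c4UV_S {z : K} (hz : z ^ 4 + z ^ 3 + z ^ 2 + z + 1 = 0) (u v : K) :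
    c4UV (Su z u v ^ 5) (Sv z u v ^ 5) = c4UV (u ^ 5) (v ^ 5) := by
  rw [Su_pow_five hz, Sv_pow_five hz]
  have e : ∀ a b : K, c4UV a b
      = (a ^ 2) ^ 2 + (b ^ 2) ^ 2 - 228 * (a ^ 2 * (a * b) - a * b * b ^ 2) + 494 * (a * b) ^ 2 := by
    intro a b; unfold c4UV; ring
  rw [e (SU5 z u v) (SV5 z u v), SU5_sq hz, SU5_mul_SV5 hz, SV5_sq hz]
  unfold SUU SUV SVV c4UV
  linear_combination
    ((98 / 125) * z ^ 2 * u ^ 20 + (98 / 125) * z * u ^ 20 - (98 / 125) * u ^ 20 + (24 / 125)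
      * z ^ 2 * u ^ 19 * v + (24 / 125) * z * u ^ 19 * v - (24 / 125) * u ^ 19 * v - (144 /
      125) * z ^ 2 * u ^ 18 * v ^ 2 - (144 / 125) * z * u ^ 18 * v ^ 2 + (144 / 125) * u ^ 18 *
      v ^ 2 + (528 / 125) * z ^ 2 * u ^ 17 * v ^ 3 + (528 / 125) * z * u ^ 17 * v ^ 3 - (528 /
      125) * u ^ 17 * v ^ 3 - (1392 / 125) * z ^ 2 * u ^ 16 * v ^ 4 - (1392 / 125) * z * u ^ 16
      * v ^ 4 + (1392 / 125) * u ^ 16 * v ^ 4 - (20064 / 125) * z ^ 2 * u ^ 15 * v ^ 5 - (20064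
      / 125) * z * u ^ 15 * v ^ 5 + (20064 / 125) * u ^ 15 * v ^ 5 - (4344 / 125) * z ^ 2 * u ^
      14 * v ^ 6 - (4344 / 125) * z * u ^ 14 * v ^ 6 + (4344 / 125) * u ^ 14 * v ^ 6 + (4944 /
      125) * z ^ 2 * u ^ 13 * v ^ 7 + (4944 / 125) * z * u ^ 13 * v ^ 7 - (4944 / 125) * u ^ 13
      * v ^ 7 - (6048 / 125) * z ^ 2 * u ^ 12 * v ^ 8 - (6048 / 125) * z * u ^ 12 * v ^ 8 +
      (6048 / 125) * u ^ 12 * v ^ 8 + (2712 / 125) * z ^ 2 * u ^ 11 * v ^ 9 + (2712 / 125) * z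
      * u ^ 11 * v ^ 9 - (2712 / 125) * u ^ 11 * v ^ 9 + (43492 / 125) * z ^ 2 * u ^ 10 * v ^
      10 + (43492 / 125) * z * u ^ 10 * v ^ 10 - (43492 / 125) * u ^ 10 * v ^ 10 - (2712 / 125)
      * z ^ 2 * u ^ 9 * v ^ 11 - (2712 / 125) * z * u ^ 9 * v ^ 11 + (2712 / 125) * u ^ 9 * v ^
      11 - (6048 / 125) * z ^ 2 * u ^ 8 * v ^ 12 - (6048 / 125) * z * u ^ 8 * v ^ 12 + (6048 /
      125) * u ^ 8 * v ^ 12 - (4944 / 125) * z ^ 2 * u ^ 7 * v ^ 13 - (4944 / 125) * z * u ^ 7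
      * v ^ 13 + (4944 / 125) * u ^ 7 * v ^ 13 - (4344 / 125) * z ^ 2 * u ^ 6 * v ^ 14 - (4344
      / 125) * z * u ^ 6 * v ^ 14 + (4344 / 125) * u ^ 6 * v ^ 14 + (20064 / 125) * z ^ 2 * u ^
      5 * v ^ 15 + (20064 / 125) * z * u ^ 5 * v ^ 15 - (20064 / 125) * u ^ 5 * v ^ 15 - (1392
      / 125) * z ^ 2 * u ^ 4 * v ^ 16 - (1392 / 125) * z * u ^ 4 * v ^ 16 + (1392 / 125) * u ^
      4 * v ^ 16 - (528 / 125) * z ^ 2 * u ^ 3 * v ^ 17 - (528 / 125) * z * u ^ 3 * v ^ 17 +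
      (528 / 125) * u ^ 3 * v ^ 17 - (144 / 125) * z ^ 2 * u ^ 2 * v ^ 18 - (144 / 125) * z * u
      ^ 2 * v ^ 18 + (144 / 125) * u ^ 2 * v ^ 18 - (24 / 125) * z ^ 2 * u * v ^ 19 - (24 /
      125) * z * u * v ^ 19 + (24 / 125) * u * v ^ 19 + (98 / 125) * z ^ 2 * v ^ 20 + (98 /
      125) * z * v ^ 20 - (98 / 125) * v ^ 20) * hz

theorem coneA_S {z : K} (hz : z ^ 4 + z ^ 3 + z ^ 2 + z + 1 = 0) (u v : K) : coneA (Su z u v) (Sv z u v) = coneA u v := by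
  unfold coneA; rw [c4UV_S hz]

/-- `Q0 = P0 ∘ S`, `x`-coordinate. -/
theorem x0_S {z : K} (hz : z ^ 4 + z ^ 3 + z ^ 2 + z + 1 = 0) (u v : K) : x0 z (Su z u v) (Sv z u v) = xQ u v := by
  unfold x0
  rw [Su_pow_five hz, Sv_pow_five hz]
  have e : ∀ a b : K, x0UV z a b
      = -((15 + 18 / 5 * sqrt5 z) * a ^ 2 + 198 / 5 * sqrt5 z * (a * b)
          + (15 - 18 / 5 * sqrt5 z) * b ^ 2) := by
    intro a b; unfold x0UV; ring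
  rw [e (SU5 z u v) (SV5 z u v), SU5_sq hz, SU5_mul_SV5 hz, SV5_sq hz]
  unfold SUU SUV SVV sqrt5 xQ
  linear_combination
    ((72 / 5) * z ^ 3 * u ^ 9 * v - (72 / 5) * z * u ^ 9 * v + (108 / 5) * u ^ 9 * v - (72 /
      5) * z ^ 3 * u ^ 8 * v ^ 2 + (72 / 5) * z * u ^ 8 * v ^ 2 - (108 / 5) * u ^ 8 * v ^ 2 +
      (144 / 5) * z ^ 3 * u ^ 7 * v ^ 3 - (144 / 5) * z * u ^ 7 * v ^ 3 + (216 / 5) * u ^ 7 * v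
      ^ 3 - (216 / 5) * z ^ 3 * u ^ 6 * v ^ 4 + (216 / 5) * z * u ^ 6 * v ^ 4 - (324 / 5) * u ^
      6 * v ^ 4 + 72 * z ^ 3 * u ^ 5 * v ^ 5 - 72 * z * u ^ 5 * v ^ 5 + 108 * u ^ 5 * v ^ 5 +
      (216 / 5) * z ^ 3 * u ^ 4 * v ^ 6 - (216 / 5) * z * u ^ 4 * v ^ 6 + (324 / 5) * u ^ 4 * v
      ^ 6 + (144 / 5) * z ^ 3 * u ^ 3 * v ^ 7 - (144 / 5) * z * u ^ 3 * v ^ 7 + (216 / 5) * u ^
      3 * v ^ 7 + (72 / 5) * z ^ 3 * u ^ 2 * v ^ 8 - (72 / 5) * z * u ^ 2 * v ^ 8 + (108 / 5) *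
      u ^ 2 * v ^ 8 + (72 / 5) * z ^ 3 * u * v ^ 9 - (72 / 5) * z * u * v ^ 9 + (108 / 5) * u *
      v ^ 9) * hz

/-- `Q0 = P0 ∘ S`, `y`-coordinate. -/
theorem y0_S {z : K} (hz : z ^ 4 + z ^ 3 + z ^ 2 + z + 1 = 0) (u v : K) : y0 z (Su z u v) (Sv z u v) = yQ u v := by
  unfold y0
  rw [Su_pow_five hz, Sv_pow_five hz]
  have e : ∀ a b : K, y0UV z a b
      = 108 / 5 * (a * ((2 + 4 * z + 3 * z ^ 2 + z ^ 3) * a ^ 2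
            + (23 + 46 * z + 32 * z ^ 2 + 14 * z ^ 3) * (a * b))
          + b * ((9 + 18 * z - 14 * z ^ 2 + 32 * z ^ 3) * (a * b)
            + (-1 - 2 * z + z ^ 2 - 3 * z ^ 3) * b ^ 2)) := by
    intro a b; unfold y0UV; ring
  rw [e (SU5 z u v) (SV5 z u v), SU5_sq hz, SU5_mul_SV5 hz, SV5_sq hz]
  unfold SU5 SV5 SUU SUV SVV yQ
  linear_combination
    (-(864 / 625) * z ^ 5 * u ^ 15 + (1296 / 625) * z ^ 4 * u ^ 15 + (1296 / 625) * z ^ 3 * u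
      ^ 15 + (2268 / 625) * z ^ 2 * u ^ 15 + (2268 / 625) * z * u ^ 15 + (756 / 625) * u ^ 15 -
      (13176 / 625) * z ^ 5 * u ^ 14 * v + (11664 / 625) * z ^ 4 * u ^ 14 * v + (11664 / 625) *
      z ^ 3 * u ^ 14 * v + (1512 / 625) * z ^ 2 * u ^ 14 * v + (55512 / 625) * z * u ^ 14 * v -
      (71496 / 625) * u ^ 14 * v + (38448 / 625) * z ^ 5 * u ^ 13 * v ^ 2 - (84672 / 625) * z ^
      4 * u ^ 13 * v ^ 2 - (84672 / 625) * z ^ 3 * u ^ 13 * v ^ 2 - (13176 / 625) * z ^ 2 * u ^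
      13 * v ^ 2 - (229176 / 625) * z * u ^ 13 * v ^ 2 + (283608 / 625) * u ^ 13 * v ^ 2 -
      (108864 / 625) * z ^ 5 * u ^ 12 * v ^ 3 + (33696 / 625) * z ^ 4 * u ^ 12 * v ^ 3 + (33696
      / 625) * z ^ 3 * u ^ 12 * v ^ 3 - (54432 / 625) * z ^ 2 * u ^ 12 * v ^ 3 + (431568 / 625)
      * z * u ^ 12 * v ^ 3 - (666144 / 625) * u ^ 12 * v ^ 3 + (103032 / 625) * z ^ 5 * u ^ 11
      * v ^ 4 - (254448 / 625) * z ^ 4 * u ^ 11 * v ^ 4 - (254448 / 625) * z ^ 3 * u ^ 11 * v ^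
      4 + (59616 / 625) * z ^ 2 * u ^ 11 * v ^ 4 - (750384 / 625) * z * u ^ 11 * v ^ 4 +
      (1099872 / 625) * u ^ 11 * v ^ 4 - (280152 / 625) * z ^ 5 * u ^ 10 * v ^ 5 + (282528 /
      625) * z ^ 4 * u ^ 10 * v ^ 5 + (282528 / 625) * z ^ 3 * u ^ 10 * v ^ 5 - (42876 / 625) *
      z ^ 2 * u ^ 10 * v ^ 5 + (1307124 / 625) * z * u ^ 10 * v ^ 5 - (1814292 / 625) * u ^ 10
      * v ^ 5 + (357264 / 625) * z ^ 5 * u ^ 9 * v ^ 6 - (422496 / 625) * z ^ 4 * u ^ 9 * v ^ 6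
      - (422496 / 625) * z ^ 3 * u ^ 9 * v ^ 6 - (69768 / 625) * z ^ 2 * u ^ 9 * v ^ 6 -
      (1635768 / 625) * z * u ^ 9 * v ^ 6 + (2064744 / 625) * u ^ 9 * v ^ 6 - (235872 / 625) *
      z ^ 5 * u ^ 8 * v ^ 7 + (191808 / 625) * z ^ 4 * u ^ 8 * v ^ 7 + (191808 / 625) * z ^ 3 *
      u ^ 8 * v ^ 7 - (69336 / 625) * z ^ 2 * u ^ 8 * v ^ 7 + (1064664 / 625) * z * u ^ 8 * v ^
      7 - (1535112 / 625) * u ^ 8 * v ^ 7 - (95904 / 625) * z ^ 5 * u ^ 7 * v ^ 8 - (471744 /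
      625) * z ^ 4 * u ^ 7 * v ^ 8 - (471744 / 625) * z ^ 3 * u ^ 7 * v ^ 8 - (47952 / 625) * z
      ^ 2 * u ^ 7 * v ^ 8 - (371952 / 625) * z * u ^ 7 * v ^ 8 + (416016 / 625) * u ^ 7 * v ^ 8
      - (211248 / 625) * z ^ 5 * u ^ 6 * v ^ 9 - (714528 / 625) * z ^ 4 * u ^ 6 * v ^ 9 -
      (714528 / 625) * z ^ 3 * u ^ 6 * v ^ 9 - (354024 / 625) * z ^ 2 * u ^ 6 * v ^ 9 - (84024
      / 625) * z * u ^ 6 * v ^ 9 - (478008 / 625) * u ^ 6 * v ^ 9 - (141264 / 625) * z ^ 5 * u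
      ^ 5 * v ^ 10 - (560304 / 625) * z ^ 4 * u ^ 5 * v ^ 10 - (560304 / 625) * z ^ 3 * u ^ 5 *
      v ^ 10 - (208332 / 625) * z ^ 2 * u ^ 5 * v ^ 10 - (208332 / 625) * z * u ^ 5 * v ^ 10 -
      (69444 / 625) * u ^ 5 * v ^ 10 - (127224 / 625) * z ^ 5 * u ^ 4 * v ^ 11 - (206064 / 625)
      * z ^ 4 * u ^ 4 * v ^ 11 - (206064 / 625) * z ^ 3 * u ^ 4 * v ^ 11 - (71712 / 625) * z ^
      2 * u ^ 4 * v ^ 11 + (144288 / 625) * z * u ^ 4 * v ^ 11 - (311904 / 625) * u ^ 4 * v ^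
      11 - (16848 / 625) * z ^ 5 * u ^ 3 * v ^ 12 - (217728 / 625) * z ^ 4 * u ^ 3 * v ^ 12 -
      (217728 / 625) * z ^ 3 * u ^ 3 * v ^ 12 - (111024 / 625) * z ^ 2 * u ^ 3 * v ^ 12 -
      (165024 / 625) * z * u ^ 3 * v ^ 12 + (34992 / 625) * u ^ 3 * v ^ 12 - (42336 / 625) * z
      ^ 5 * u ^ 2 * v ^ 13 - (76896 / 625) * z ^ 4 * u ^ 2 * v ^ 13 - (76896 / 625) * z ^ 3 * u
      ^ 2 * v ^ 13 - (21168 / 625) * z ^ 2 * u ^ 2 * v ^ 13 + (32832 / 625) * z * u ^ 2 * v ^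
      13 - (79056 / 625) * u ^ 2 * v ^ 13 - (5832 / 625) * z ^ 5 * u * v ^ 14 - (26352 / 625) *
      z ^ 4 * u * v ^ 14 - (26352 / 625) * z ^ 3 * u * v ^ 14 - (11016 / 625) * z ^ 2 * u * v ^
      14 - (11016 / 625) * z * u * v ^ 14 - (3672 / 625) * u * v ^ 14 + (648 / 625) * z ^ 5 * v
      ^ 15 + (1728 / 625) * z ^ 4 * v ^ 15 + (1728 / 625) * z ^ 3 * v ^ 15 + (324 / 625) * z ^
      2 * v ^ 15 + (324 / 625) * z * v ^ 15 + (108 / 625) * v ^ 15) * hz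

/-- `T` is `S`-invariant: both `(coneA, coneB)(S w)` and `(coneA, coneB)(w)` are curves through
the point `Q0(w) = P0(S w)`, and `coneA` is already known to be invariant. -/
theorem coneB_S {z : K} (hz : z ^ 4 + z ^ 3 + z ^ 2 + z + 1 = 0) (u v : K) : coneB (Su z u v) (Sv z u v) = coneB u v := by
  have h1 := y0_sq hz (Su z u v) (Sv z u v)
  rw [x0_S hz, y0_S hz, coneA_S hz] at h1
  have h2 := yQ_sq u v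
  linear_combination h2 - h1

theorem tUV_S {z : K} (hz : z ^ 4 + z ^ 3 + z ^ 2 + z + 1 = 0) (u v : K) :
    tUV (Su z u v ^ 5) (Sv z u v ^ 5) = tUV (u ^ 5) (v ^ 5) := by
  have h := coneB_S hz u v
  unfold coneB at h
  have h54 : (54 : K) ≠ 0 := by norm_num
  exact mul_left_cancel₀ h54 h

/-- `f⁵` is `S`-invariant. -/
theorem f5UV_S {z : K} (hz : z ^ 4 + z ^ 3 + z ^ 2 + z + 1 = 0) (u v : K) :
    f5UV (Su z u v ^ 5) (Sv z u v ^ 5) = f5UV (u ^ 5) (v ^ 5) := by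
  have h1 := c4UV_cube_sub_tUV_sq (Su z u v ^ 5) (Sv z u v ^ 5)
  have h2 := c4UV_cube_sub_tUV_sq (u ^ 5) (v ^ 5)
  rw [c4UV_S hz, tUV_S hz] at h1
  have h : (-1728 : K) ≠ 0 := by norm_num
  exact mul_left_cancel₀ h (h1.symm.trans h2)

/-- Non-vanishing of `f` is `S`-invariant. -/
theorem fuv_S_ne_zero {z : K} (hz : z ^ 4 + z ^ 3 + z ^ 2 + z + 1 = 0) {u v : K} (hf : fuv u v ≠ 0) :
    fuv (Su z u v) (Sv z u v) ≠ 0 := by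
  intro h0
  have h5 : fuv (Su z u v) (Sv z u v) ^ 5 = 0 := by rw [h0]; ring
  rw [fuv_pow_five, f5UV_S hz, ← fuv_pow_five] at h5
  exact hf ((pow_eq_zero_iff (by norm_num)).mp h5)

end Fermat.Agent.G35.Sym
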