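/-
GATE-Q (S52), node Q2 (SYMMETRY), file 7: chord / tangent addition on a SHORT Weierstrass curve
(`a₁ = a₂ = a₃ = 0`) over a field, in cleared (division-free) form.  Mathlib only.
-/
import Mathlib

set_option autoImplicit false

namespace Fermat.Agent.G35.Sym

open WeierstrassCurve

variable {K : Type*} [Field K] [DecidableEq K]

/-- `E` is a short Weierstrass curve `y² = x³ + a₄ x + a₆`. -/
structure IsShort (E : WeierstrassCurve K) : Prop where
  a₁ : E.a₁ = 0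
  a₂ : E.a₂ = 0
  a₃ : E.a₃ = 0

variable {E : WeierstrassCurve K}

omit [DecidableEq K] in
theorem IsShort.equation_iff (hE : IsShort E) (x y : K) :
    E.toAffine.Equation x y ↔ y ^ 2 = x ^ 3 + E.a₄ * x + E.a₆ := by
  rw [Affine.equation_iff, hE.a₁, hE.a₂, hE.a₃]
  constructor <;> intro h <;> linear_combination h

omit [DecidableEq K] in
theorem IsShort.Δ_eq (hE : IsShort E) : E.Δ = -16 * (4 * E.a₄ ^ 3 + 27 * E.a₆ ^ 2) := by
  simp only [Δ, b₂, b₄, b₆, b₈, hE.a₁, hE.a₂, hE.a₃]; ring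

omit [DecidableEq K] in
theorem IsShort.negY (hE : IsShort E) (x y : K) : E.toAffine.negY x y = -y := by
  simp only [Affine.negY, hE.a₁, hE.a₃]; ring

omit [DecidableEq K] in
/-- Congruence for `Point.some` (the nonsingularity proofs are irrelevant). -/
theorem some_congr {x y x' y' : K} (hx : x = x') (hy : y = y')
    (h : E.toAffine.Nonsingular x y) (h' : E.toAffine.Nonsingular x' y') :
    Affine.Point.some x y h = Affine.Point.some x' y' h' := by
  subst hx; subst hy; rfl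

/-- Negation of an affine point on a short curve. -/
theorem IsShort.neg_some (hE : IsShort E) {x y : K} (h : E.toAffine.Nonsingular x y)
    (h' : E.toAffine.Nonsingular x (-y)) :
    -Affine.Point.some x y h = Affine.Point.some x (-y) h' := by
  rw [Affine.Point.neg_some]
  exact some_congr rfl (hE.negY x y) _ _

/-- **Chord addition in cleared form.** -/
theorem IsShort.add_of_chord (hE : IsShort E) {x₁ y₁ x₂ y₂ x₃ y₃ : K}
    (h₁ : E.toAffine.Nonsingular x₁ y₁) (h₂ : E.toAffine.Nonsingular x₂ y₂)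
    (h₃ : E.toAffine.Nonsingular x₃ y₃) (hx : x₁ ≠ x₂)
    (hX : (x₃ + x₁ + x₂) * (x₁ - x₂) ^ 2 = (y₁ - y₂) ^ 2)
    (hY : (y₃ + y₁) * (x₁ - x₂) = -(y₁ - y₂) * (x₃ - x₁)) :
    Affine.Point.some x₁ y₁ h₁ + Affine.Point.some x₂ y₂ h₂ = Affine.Point.some x₃ y₃ h₃ := by
  rw [Affine.Point.add_of_X_ne hx]
  have hne : x₁ - x₂ ≠ 0 := sub_ne_zero.mpr hx
  have hXeq : E.toAffine.addX x₁ x₂ (E.toAffine.slope x₁ x₂ y₁ y₂) = x₃ := by
    rw [Affine.slope_of_X_ne hx]
    simp only [Affine.addX, hE.a₁, hE.a₂]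
    field_simp
    linear_combination -hX
  have hYeq : E.toAffine.addY x₁ x₂ y₁ (E.toAffine.slope x₁ x₂ y₁ y₂) = y₃ := by
    rw [Affine.addY, hE.negY, Affine.negAddY, hXeq, Affine.slope_of_X_ne hx]
    field_simp
    linear_combination -hY
  exact some_congr hXeq hYeq _ _

/-- **Tangent doubling in cleared form.** -/
theorem IsShort.add_self_of_tangent (hE : IsShort E) {x₁ y₁ x₃ y₃ : K}
    (h₁ : E.toAffine.Nonsingular x₁ y₁) (h₃ : E.toAffine.Nonsingular x₃ y₃) (hy : y₁ ≠ 0)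
    [NeZero (2 : K)]
    (hX : (x₃ + 2 * x₁) * (2 * y₁) ^ 2 = (3 * x₁ ^ 2 + E.a₄) ^ 2)
    (hY : (y₃ + y₁) * (2 * y₁) = -(3 * x₁ ^ 2 + E.a₄) * (x₃ - x₁)) :
    Affine.Point.some x₁ y₁ h₁ + Affine.Point.some x₁ y₁ h₁ = Affine.Point.some x₃ y₃ h₃ := by
  have h2 : (2 : K) ≠ 0 := NeZero.ne 2
  have hyn : y₁ ≠ E.toAffine.negY x₁ y₁ := by
    rw [hE.negY]
    intro h
    apply hy
    have : 2 * y₁ = 0 := by linear_combination h
    exact (mul_eq_zero.mp this).resolve_left h2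
  rw [Affine.Point.add_self_of_Y_ne hyn]
  have h2y : 2 * y₁ ≠ 0 := mul_ne_zero h2 hy
  have hsl : E.toAffine.slope x₁ x₁ y₁ y₁ = (3 * x₁ ^ 2 + E.a₄) / (2 * y₁) := by
    rw [Affine.slope_of_Y_ne rfl hyn, hE.negY, hE.a₁, hE.a₂]
    congr 1 <;> ring
  have hXeq : E.toAffine.addX x₁ x₁ (E.toAffine.slope x₁ x₁ y₁ y₁) = x₃ := by
    rw [hsl]
    simp only [Affine.addX, hE.a₁, hE.a₂]
    field_simp
    linear_combination -hX
  have hYeq : E.toAffine.addY x₁ x₁ y₁ (E.toAffine.slope x₁ x₁ y₁ y₁) = y₃ := by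
    rw [Affine.addY, hE.negY, Affine.negAddY, hXeq, hsl]
    field_simp
    linear_combination -hY
  exact some_congr hXeq hYeq _ _

end Fermat.Agent.G35.Sym
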