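/-
GATE-Q (S52), node Q2 (SYMMETRY), file 8: the sections `P_ζ = (x0, y0)` and `Q = (xQ, yQ)` as POINTS
of an arbitrary short Weierstrass curve `E` (`a₁ = a₂ = a₃ = 0`, `Δ ≠ 0`) over a field `K` of
characteristic zero, on the fibre `{(u,v) | coneA u v = E.a₄ ∧ coneB u v = E.a₆}` of the Klein cone,
and the generator relations at POINT level:

* `S`  : `P ∘ S = Q`,  `Q ∘ S = -P`;
* `T̃` : `P ∘ T̃ = P`, `Q ∘ T̃ = Q - P`;
* `Z`  : `P ∘ Z = P`,  `Q ∘ Z = Q`;
* conjugates: `P_{ζ²} = 2 • P_ζ`, `P_{ζ⁴} = -P_ζ`, hence `5 • P = 0`, `5 • Q = 0`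
  (NO division polynomial needed);
* independence: `a • P + b • Q = 0 → 5 ∣ a ∧ 5 ∣ b`.

No casts: `E` is a variable, the fibre condition is a hypothesis.  Mathlib only.
-/
import Fermat.Agent.G35.Sym.ShortCurve
import Fermat.Agent.G35.Sym.SInv
import Fermat.Agent.G35.Sym.AddId
import Fermat.Agent.G35.Sym.Conj

set_option autoImplicit false

namespace Fermat.Agent.G35.Sym

open WeierstrassCurve

variable {K : Type*} [Field K] [CharZero K] [DecidableEq K] {E : WeierstrassCurve K}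

/-- `(u, v)` lies in the fibre of the Klein cone over the short curve `E`. -/
def InFib (E : WeierstrassCurve K) (u v : K) : Prop := coneA u v = E.a₄ ∧ coneB u v = E.a₆

omit [DecidableEq K] in
theorem InFib.fuv_ne_zero (hE : IsShort E) (hΔ : E.Δ ≠ 0) {u v : K} (h : InFib E u v) :
    fuv u v ≠ 0 := by
  intro h0
  apply hΔ
  rw [hE.Δ_eq, ← h.1, ← h.2]
  have h5 : f5UV (u ^ 5) (v ^ 5) = 0 := by rw [← fuv_pow_five, h0]; ring
  have hs := c4UV_cube_sub_tUV_sq (u ^ 5) (v ^ 5)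
  rw [h5] at hs
  unfold coneA coneB
  linear_combination (16 * 78732 : K) * hs

/-! ### parity and homogeneity -/

omit [DecidableEq K] in
theorem x0_neg (z u v : K) : x0 z (-u) (-v) = x0 z u v := by
  unfold x0 x0UV; ring

omit [DecidableEq K] in
theorem y0_neg (z u v : K) : y0 z (-u) (-v) = -y0 z u v := by
  unfold y0 y0UV; ring

omit [CharZero K] [DecidableEq K] in
theorem xQ_smul (t u v : K) : xQ (t * u) (t * v) = t ^ 10 * xQ u v := by
  unfold xQ; ring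

omit [CharZero K] [DecidableEq K] in
theorem yQ_smul (t u v : K) : yQ (t * u) (t * v) = t ^ 15 * yQ u v := by
  unfold yQ; ring

variable {z : K}

/-! ### fibre stability -/

omit [DecidableEq K] in
theorem inFib_S (hz : z ^ 4 + z ^ 3 + z ^ 2 + z + 1 = 0) {u v : K} :
    InFib E (Su z u v) (Sv z u v) ↔ InFib E u v := by
  unfold InFib; rw [coneA_S hz, coneB_S hz]

omit [CharZero K] [DecidableEq K] in
theorem inFib_T (hz : z ^ 4 + z ^ 3 + z ^ 2 + z + 1 = 0) {u v : K} :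
    InFib E (z ^ 3 * u) (z ^ 2 * v) ↔ InFib E u v := by
  unfold InFib; rw [coneA_T hz, coneB_T hz]

omit [CharZero K] [DecidableEq K] in
theorem z_mul_pow_five (hz : z ^ 4 + z ^ 3 + z ^ 2 + z + 1 = 0) (u : K) : (z * u) ^ 5 = u ^ 5 := by
  rw [mul_pow, z_pow_five hz, one_mul]

omit [CharZero K] [DecidableEq K] in
theorem inFib_Z (hz : z ^ 4 + z ^ 3 + z ^ 2 + z + 1 = 0) {u v : K} :
    InFib E (z * u) (z * v) ↔ InFib E u v := by
  unfold InFib coneA coneB; rw [z_mul_pow_five hz, z_mul_pow_five hz]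

/-! ### the two sections as points -/

omit [DecidableEq K] in
theorem nonsingular_P (hE : IsShort E) (hΔ : E.Δ ≠ 0)
    (hz : z ^ 4 + z ^ 3 + z ^ 2 + z + 1 = 0) {u v : K} (h : InFib E u v) :
    E.toAffine.Nonsingular (x0 z u v) (y0 z u v) :=
  (Affine.equation_iff_nonsingular_of_Δ_ne_zero hΔ).mp
    ((hE.equation_iff _ _).mpr (by rw [y0_sq hz, h.1, h.2]))

omit [CharZero K] [DecidableEq K] in
theorem nonsingular_Q (hE : IsShort E) (hΔ : E.Δ ≠ 0) {u v : K} (h : InFib E u v) :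
    E.toAffine.Nonsingular (xQ u v) (yQ u v) :=
  (Affine.equation_iff_nonsingular_of_Δ_ne_zero hΔ).mp
    ((hE.equation_iff _ _).mpr (by rw [yQ_sq, h.1, h.2]))

/-- The `ζ`-section `P_ζ(u, v)` as a point of `E`. -/
def ptP (hE : IsShort E) (hΔ : E.Δ ≠ 0) (hz : z ^ 4 + z ^ 3 + z ^ 2 + z + 1 = 0) {u v : K}
    (h : InFib E u v) : E.toAffine.Point :=
  .some _ _ (nonsingular_P hE hΔ hz h)

/-- The rational section `Q(u, v)` as a point of `E`. -/
def ptQ (hE : IsShort E) (hΔ : E.Δ ≠ 0) {u v : K} (h : InFib E u v) : E.toAffine.Point :=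
  .some _ _ (nonsingular_Q hE hΔ h)

variable (hE : IsShort E) (hΔ : E.Δ ≠ 0) (hz : z ^ 4 + z ^ 3 + z ^ 2 + z + 1 = 0)

omit [DecidableEq K] in
theorem ptP_ne_zero {u v : K} (h : InFib E u v) : ptP hE hΔ hz h ≠ 0 :=
  Affine.Point.some_ne_zero _

omit [CharZero K] [DecidableEq K] in
theorem ptQ_ne_zero {u v : K} (h : InFib E u v) : ptQ hE hΔ h ≠ 0 :=
  Affine.Point.some_ne_zero _

/-! ### generator `S` -/

omit [DecidableEq K] in
/-- `P ∘ S = Q`. -/
theorem ptP_S {u v : K} (h : InFib E u v) (hS : InFib E (Su z u v) (Sv z u v)) :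
    ptP hE hΔ hz hS = ptQ hE hΔ h :=
  some_congr (x0_S hz u v) (y0_S hz u v) _ _

/-- `Q ∘ S = -P`. -/
theorem ptQ_S {u v : K} (h : InFib E u v) (hS : InFib E (Su z u v) (Sv z u v)) :
    ptQ hE hΔ hS = -ptP hE hΔ hz h := by
  have hx : xQ (Su z u v) (Sv z u v) = x0 z u v := by
    rw [← x0_S hz, Su_S hz, Sv_S hz, x0_neg]
  have hy : yQ (Su z u v) (Sv z u v) = -y0 z u v := by
    rw [← y0_S hz, Su_S hz, Sv_S hz, y0_neg]
  have hn : E.toAffine.Nonsingular (x0 z u v) (-y0 z u v) := by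
    rw [← hx, ← hy]; exact nonsingular_Q hE hΔ hS
  unfold ptP
  rw [hE.neg_some _ hn]
  exact some_congr hx hy _ _

/-! ### generator `T̃` -/

omit [DecidableEq K] in
/-- `P ∘ T̃ = P`. -/
theorem ptP_T {u v : K} (h : InFib E u v) (hT : InFib E (z ^ 3 * u) (z ^ 2 * v)) :
    ptP hE hΔ hz hT = ptP hE hΔ hz h :=
  some_congr (x0_T hz u v) (y0_T hz u v) _ _

/-- `Q ∘ T̃ + P = Q`. -/
theorem ptQ_T_add {u v : K} (h : InFib E u v) (hT : InFib E (z ^ 3 * u) (z ^ 2 * v)) :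
    ptQ hE hΔ hT + ptP hE hΔ hz h = ptQ hE hΔ h := by
  have hf := h.fuv_ne_zero hE hΔ
  have hn : E.toAffine.Nonsingular (XQT z u v) (YQT z u v) := by
    rw [← xQ_T hz, ← yQ_T hz]; exact nonsingular_Q hE hΔ hT
  have e : ptQ hE hΔ hT = Affine.Point.some _ _ hn :=
    some_congr (xQ_T hz u v) (yQ_T hz u v) _ _
  rw [e]
  exact hE.add_of_chord hn (nonsingular_P hE hΔ hz h) (nonsingular_Q hE hΔ h)
    (XQT_ne_x0 hz hf) (add_x hz u v) (add_y hz u v)

/-- `Q ∘ T̃ = Q - P`. -/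
theorem ptQ_T {u v : K} (h : InFib E u v) (hT : InFib E (z ^ 3 * u) (z ^ 2 * v)) :
    ptQ hE hΔ hT = ptQ hE hΔ h - ptP hE hΔ hz h :=
  eq_sub_of_add_eq (ptQ_T_add hE hΔ hz h hT)

/-! ### generator `Z` -/

omit [DecidableEq K] in
/-- `P ∘ Z = P`. -/
theorem ptP_Z {u v : K} (h : InFib E u v) (hZ : InFib E (z * u) (z * v)) :
    ptP hE hΔ hz hZ = ptP hE hΔ hz h := by
  refine some_congr ?_ ?_ _ _
  · unfold x0; rw [z_mul_pow_five hz, z_mul_pow_five hz]
  · unfold y0; rw [z_mul_pow_five hz, z_mul_pow_five hz]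

include hz in
omit [CharZero K] [DecidableEq K] in
/-- `Q ∘ Z = Q`. -/
theorem ptQ_Z {u v : K} (h : InFib E u v) (hZ : InFib E (z * u) (z * v)) :
    ptQ hE hΔ hZ = ptQ hE hΔ h := by
  have h5 := z_pow_five hz
  refine some_congr ?_ ?_ _ _
  · rw [xQ_smul]
    have : z ^ 10 = 1 := by
      calc z ^ 10 = (z ^ 5) ^ 2 := by ring
        _ = 1 := by rw [h5]; ring
    rw [this, one_mul]
  · rw [yQ_smul]
    have : z ^ 15 = 1 := by
      calc z ^ 15 = (z ^ 5) ^ 3 := by ring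
        _ = 1 := by rw [h5]; ring
    rw [this, one_mul]

/-! ### conjugate roots -/

/-- `P_{ζ⁴} = -P_ζ`. -/
theorem ptP_conj_four {u v : K} (h : InFib E u v) :
    ptP hE hΔ (cyclo_fourth hz) h = -ptP hE hΔ hz h := by
  have hn : E.toAffine.Nonsingular (x0 z u v) (-y0 z u v) := by
    rw [← x0_conj_four hz, ← y0_conj_four hz]; exact nonsingular_P hE hΔ (cyclo_fourth hz) h
  unfold ptP
  rw [hE.neg_some _ hn]
  exact some_congr (x0_conj_four hz u v) (y0_conj_four hz u v) _ _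

/-- `P_{ζ²} = 2 • P_ζ`. -/
theorem ptP_conj_two {u v : K} (h : InFib E u v) :
    ptP hE hΔ (cyclo_sq hz) h = 2 • ptP hE hΔ hz h := by
  have hf := h.fuv_ne_zero hE hΔ
  rw [two_nsmul]
  symm
  refine hE.add_self_of_tangent (nonsingular_P hE hΔ hz h) (nonsingular_P hE hΔ (cyclo_sq hz) h)
    (y0_ne_zero hz hf) ?_ ?_
  · rw [← h.1]; exact dbl_x hz u v
  · rw [← h.1]; exact dbl_y hz u v

/-- `5 • P = 0` (from `P_{ζ²} = 2P`, `P_{ζ⁴} = -P`; no division polynomial). -/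
theorem five_nsmul_ptP {u v : K} (h : InFib E u v) : 5 • ptP hE hΔ hz h = 0 := by
  have h2 := ptP_conj_two hE hΔ hz h
  have h4 := ptP_conj_two hE hΔ (cyclo_sq hz) h
  have e : ptP hE hΔ (cyclo_sq (cyclo_sq hz)) h = ptP hE hΔ (cyclo_fourth hz) h := by
    have hzz : (z ^ 2) ^ 2 = z ^ 4 := by ring
    exact some_congr (by rw [hzz]) (by rw [hzz]) _ _
  rw [e, ptP_conj_four hE hΔ hz h, h2] at h4
  -- h4 : -P = 2 • (2 • P)
  have : (5 : ℕ) • ptP hE hΔ hz h = 2 • (2 • ptP hE hΔ hz h) + ptP hE hΔ hz h := by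
    rw [← mul_nsmul]; rw [show (5 : ℕ) = 2 * 2 + 1 by norm_num, add_nsmul, one_nsmul]
  rw [this, ← h4, neg_add_cancel]

include hz in
/-- `5 • Q = 0`. -/
theorem five_nsmul_ptQ {u v : K} (h : InFib E u v) : 5 • ptQ hE hΔ h = 0 := by
  have hS : InFib E (Su z u v) (Sv z u v) := (inFib_S hz).mpr h
  rw [← ptP_S hE hΔ hz h hS]
  exact five_nsmul_ptP hE hΔ hz hS

end Fermat.Agent.G35.Sym
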