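/-
GATE-Q (S52), node Q2 (SYMMETRY), file 9: `P_{ζ^k} = k • P_ζ`, independence of `(P, Q)` in the
5-torsion, and compatibility of the coordinates with ring homomorphisms (Galois conjugation).
Mathlib only.
-/
import Fermat.Agent.G35.Sym.Points

set_option autoImplicit false

namespace Fermat.Agent.G35.Sym

open WeierstrassCurve

variable {K : Type*} [Field K] [CharZero K] [DecidableEq K] {E : WeierstrassCurve K} {z : K}
variable (hE : IsShort E) (hΔ : E.Δ ≠ 0) (hz : z ^ 4 + z ^ 3 + z ^ 2 + z + 1 = 0)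

omit [DecidableEq K] in
/-- `ptP` only depends on the value of the root. -/
theorem ptP_congr {z' : K} (e : z = z') (hz' : z' ^ 4 + z' ^ 3 + z' ^ 2 + z' + 1 = 0) {u v : K}
    (h : InFib E u v) : ptP hE hΔ hz h = ptP hE hΔ hz' h := by
  subst e; rfl

/-- `P_{ζ³} = 3 • P_ζ`. -/
theorem ptP_conj_three {u v : K} (h : InFib E u v) :
    ptP hE hΔ (cyclo_cube hz) h = 3 • ptP hE hΔ hz h := by
  have h4 := cyclo_fourth hz
  have e : ptP hE hΔ (cyclo_cube hz) h = ptP hE hΔ (cyclo_sq h4) h := by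
    refine ptP_congr hE hΔ _ ?_ _ h
    have h5 := z_pow_five hz
    calc z ^ 3 = z ^ 3 * 1 := by ring
      _ = z ^ 3 * z ^ 5 := by rw [h5]
      _ = (z ^ 4) ^ 2 := by ring
  rw [e, ptP_conj_two hE hΔ h4 h, ptP_conj_four hE hΔ hz h]
  have h5 := five_nsmul_ptP hE hΔ hz h
  -- 2 • (-P) = 3 • P since 5 • P = 0
  have : (3 : ℕ) • ptP hE hΔ hz h = 5 • ptP hE hΔ hz h + 2 • (-ptP hE hΔ hz h) := by
    rw [show (5 : ℕ) = 3 + 2 by norm_num, add_nsmul, smul_neg]; abel
  rw [this, h5, zero_add]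

/-- `P_{ζ^k} = k • P_ζ` for every `k` prime to `5`. -/
theorem ptP_pow (k : ℕ) (hzk : (z ^ k) ^ 4 + (z ^ k) ^ 3 + (z ^ k) ^ 2 + z ^ k + 1 = 0) {u v : K}
    (h : InFib E u v) : ptP hE hΔ hzk h = k • ptP hE hΔ hz h := by
  have h5 := z_pow_five hz
  have h5P := five_nsmul_ptP hE hΔ hz h
  have hzk' : z ^ k = z ^ (k % 5) := by
    conv_lhs => rw [← Nat.div_add_mod k 5, pow_add, pow_mul, h5, one_pow, one_mul]
  have hk' : k • ptP hE hΔ hz h = (k % 5) • ptP hE hΔ hz h := by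
    conv_lhs => rw [← Nat.div_add_mod k 5, add_nsmul, mul_nsmul, h5P, smul_zero, zero_add]
  rw [hk']
  have hlt : k % 5 < 5 := Nat.mod_lt _ (by norm_num)
  generalize k % 5 = r at hzk' hlt
  interval_cases r
  · -- r = 0 : z^k = 1 is not a root
    exfalso
    rw [hzk', pow_zero] at hzk
    norm_num at hzk
  · rw [one_nsmul]; exact ptP_congr hE hΔ _ (by rw [hzk', pow_one]) _ h
  · rw [← ptP_conj_two hE hΔ hz h]; exact ptP_congr hE hΔ _ hzk' _ h
  · rw [← ptP_conj_three hE hΔ hz h]; exact ptP_congr hE hΔ _ hzk' _ h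
  · have e4 : (4 : ℕ) • ptP hE hΔ hz h = -ptP hE hΔ hz h := by
      have : (5 : ℕ) • ptP hE hΔ hz h = 4 • ptP hE hΔ hz h + ptP hE hΔ hz h := by
        rw [show (5 : ℕ) = 4 + 1 by norm_num, add_nsmul, one_nsmul]
      rw [this] at h5P
      exact eq_neg_of_add_eq_zero_left h5P
    rw [e4, ← ptP_conj_four hE hΔ hz h]; exact ptP_congr hE hΔ _ hzk' _ h

/-! ### independence -/

/-- The multiples of `P` have `x`-coordinate `x0[ζ]` or `x0[ζ²]` (or are zero): `Q` is none of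
them. -/
theorem ptQ_ne_nsmul_ptP {u v : K} (h : InFib E u v) (k : ℕ) :
    ptQ hE hΔ h ≠ k • ptP hE hΔ hz h := by
  have hf := h.fuv_ne_zero hE hΔ
  have h5P := five_nsmul_ptP hE hΔ hz h
  have hk' : k • ptP hE hΔ hz h = (k % 5) • ptP hE hΔ hz h := by
    conv_lhs => rw [← Nat.div_add_mod k 5, add_nsmul, mul_nsmul, h5P, smul_zero, zero_add]
  rw [hk']
  have hlt : k % 5 < 5 := Nat.mod_lt _ (by norm_num)
  generalize k % 5 = r at hlt
  have e4 : (4 : ℕ) • ptP hE hΔ hz h = -ptP hE hΔ hz h := by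
    have : (5 : ℕ) • ptP hE hΔ hz h = 4 • ptP hE hΔ hz h + ptP hE hΔ hz h := by
      rw [show (5 : ℕ) = 4 + 1 by norm_num, add_nsmul, one_nsmul]
    rw [this] at h5P
    exact eq_neg_of_add_eq_zero_left h5P
  have hneg : ∀ {x y : K} (hxy : E.toAffine.Nonsingular x y) (hQ : ptQ hE hΔ h = -Affine.Point.some x y hxy),
      xQ u v = x := by
    intro x y hxy hQ
    rw [Affine.Point.neg_some] at hQ
    unfold ptQ at hQ
    injection hQ
  interval_cases r
  · rw [zero_nsmul]; exact ptQ_ne_zero hE hΔ h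
  · rw [one_nsmul]
    intro hQ
    unfold ptQ ptP at hQ
    injection hQ with hx _
    exact xQ_ne_x0 hz hf hx
  · rw [← ptP_conj_two hE hΔ hz h]
    intro hQ
    unfold ptQ ptP at hQ
    injection hQ with hx _
    exact xQ_ne_x0_sq hz hf hx
  · -- 3 • P = -(2 • P)
    have e3 : (3 : ℕ) • ptP hE hΔ hz h = -(2 • ptP hE hΔ hz h) := by
      have : (5 : ℕ) • ptP hE hΔ hz h = 3 • ptP hE hΔ hz h + 2 • ptP hE hΔ hz h := by
        rw [show (5 : ℕ) = 3 + 2 by norm_num, add_nsmul]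
      rw [this] at h5P
      exact eq_neg_of_add_eq_zero_left h5P
    rw [e3, ← ptP_conj_two hE hΔ hz h]
    intro hQ
    exact xQ_ne_x0_sq hz hf (hneg _ hQ)
  · rw [e4]
    intro hQ
    exact xQ_ne_x0 hz hf (hneg _ hQ)

/-- `P` has exact order `5`: `a • P = 0 → 5 ∣ a`. -/
theorem five_dvd_of_zsmul_ptP {u v : K} (h : InFib E u v) (a : ℤ)
    (ha : a • ptP hE hΔ hz h = 0) : (5 : ℤ) ∣ a := by
  have h5P := five_nsmul_ptP hE hΔ hz h
  have hord : addOrderOf (ptP hE hΔ hz h) = 5 := by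
    have hd : addOrderOf (ptP hE hΔ hz h) ∣ 5 := addOrderOf_dvd_of_nsmul_eq_zero h5P
    rcases (Nat.dvd_prime (by norm_num : Nat.Prime 5)).mp hd with h1 | h5
    · exact absurd (AddMonoid.addOrderOf_eq_one_iff.mp h1) (ptP_ne_zero hE hΔ hz h)
    · exact h5
  have := (addOrderOf_dvd_iff_zsmul_eq_zero (x := ptP hE hΔ hz h) (i := a)).mpr ha
  rw [hord] at this
  exact_mod_cast this

/-- **Independence**: `a • P + b • Q = 0 → 5 ∣ a ∧ 5 ∣ b`. -/
theorem five_dvd_of_zsmul_add_zsmul {u v : K} (h : InFib E u v) (a b : ℤ)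
    (hab : a • ptP hE hΔ hz h + b • ptQ hE hΔ h = 0) : (5 : ℤ) ∣ a ∧ (5 : ℤ) ∣ b := by
  have h5P := five_nsmul_ptP hE hΔ hz h
  have h5Q := five_nsmul_ptQ hE hΔ hz h
  have h5Pz : (5 : ℤ) • ptP hE hΔ hz h = 0 := by exact_mod_cast h5P
  have h5Qz : (5 : ℤ) • ptQ hE hΔ h = 0 := by exact_mod_cast h5Q
  have hb : (5 : ℤ) ∣ b := by
    by_contra hnb
    -- b invertible mod 5: c * b = 1 + 5 d
    have hcop : IsCoprime b 5 := by
      have hp : Prime (5 : ℤ) := by norm_num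
      exact (hp.coprime_iff_not_dvd.mpr hnb).symm
    obtain ⟨c, d, hcd⟩ := hcop
    -- Q = (c b + 5 d) • Q = c • (b • Q) = c • (-(a • P)) = (-(c a)) • P
    have hQ : ptQ hE hΔ h = (-(c * a)) • ptP hE hΔ hz h := by
      have hbQ : b • ptQ hE hΔ h = -(a • ptP hE hΔ hz h) := eq_neg_of_add_eq_zero_right hab
      calc ptQ hE hΔ h = (1 : ℤ) • ptQ hE hΔ h := (one_zsmul _).symm
        _ = (c * b + d * 5) • ptQ hE hΔ h := by rw [hcd]
        _ = c • (b • ptQ hE hΔ h) + d • ((5 : ℤ) • ptQ hE hΔ h) := by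
            rw [add_zsmul, mul_zsmul, mul_zsmul]
        _ = (-(c * a)) • ptP hE hΔ hz h := by
            rw [hbQ, h5Qz, smul_zero, add_zero, smul_neg, neg_zsmul, mul_zsmul]
    -- reduce the integer multiple to a natural one
    obtain ⟨k, hk⟩ : ∃ k : ℕ, (-(c * a)) • ptP hE hΔ hz h = k • ptP hE hΔ hz h := by
      refine ⟨((-(c * a)) % 5).toNat, ?_⟩
      have hnn : 0 ≤ (-(c * a)) % 5 := Int.emod_nonneg _ (by norm_num)
      have e : (-(c * a)) = 5 * ((-(c * a)) / 5) + (-(c * a)) % 5 := (Int.mul_ediv_add_emod _ _).symm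
      conv_lhs => rw [e, add_zsmul, mul_zsmul', h5Pz, smul_zero, zero_add]
      rw [← natCast_zsmul, Int.toNat_of_nonneg hnn]
    rw [hk] at hQ
    exact ptQ_ne_nsmul_ptP hE hΔ hz h k hQ
  refine ⟨?_, hb⟩
  obtain ⟨b', rfl⟩ := hb
  rw [mul_zsmul', h5Qz, smul_zero, add_zero] at hab
  exact five_dvd_of_zsmul_ptP hE hΔ hz h a hab

/-! ### ring homomorphisms commute with the coordinates -/

section map

variable {L : Type*} [Field L] [CharZero L] (φ : K →+* L)

omit [DecidableEq K] in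
theorem map_x0 (z u v : K) : φ (x0 z u v) = x0 (φ z) (φ u) (φ v) := by
  unfold x0 x0UV sqrt5
  simp only [map_neg, map_add, map_sub, map_mul, map_pow, map_div₀, map_ofNat, map_one]

omit [DecidableEq K] in
theorem map_y0 (z u v : K) : φ (y0 z u v) = y0 (φ z) (φ u) (φ v) := by
  unfold y0 y0UV
  simp only [map_neg, map_add, map_sub, map_mul, map_pow, map_div₀, map_ofNat, map_one]

omit [DecidableEq K] [CharZero K] [CharZero L] in
theorem map_xQ (u v : K) : φ (xQ u v) = xQ (φ u) (φ v) := by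
  unfold xQ
  simp only [map_add, map_sub, map_mul, map_pow, map_ofNat]

omit [DecidableEq K] [CharZero K] [CharZero L] in
theorem map_yQ (u v : K) : φ (yQ u v) = yQ (φ u) (φ v) := by
  unfold yQ
  simp only [map_add, map_sub, map_mul, map_pow, map_ofNat]

omit [DecidableEq K] [CharZero K] [CharZero L] in
theorem map_coneA (u v : K) : φ (coneA u v) = coneA (φ u) (φ v) := by
  unfold coneA c4UV
  simp only [map_neg, map_add, map_sub, map_mul, map_pow, map_ofNat]

omit [DecidableEq K] [CharZero K] [CharZero L] in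
theorem map_coneB (u v : K) : φ (coneB u v) = coneB (φ u) (φ v) := by
  unfold coneB tUV
  simp only [map_neg, map_add, map_sub, map_mul, map_pow, map_ofNat]

omit [DecidableEq K] [CharZero K] [CharZero L] in
theorem map_cyclo {z : K} (hz : z ^ 4 + z ^ 3 + z ^ 2 + z + 1 = 0) :
    (φ z) ^ 4 + (φ z) ^ 3 + (φ z) ^ 2 + φ z + 1 = 0 := by
  have := congrArg φ hz
  simpa only [map_add, map_pow, map_one, map_zero] using this

end map

end Fermat.Agent.G35.Sym
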