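/-
GATE-Q / S52 (3–5 switch), node Q2(c) = D4(c): GALOIS ACTION ON THE SECTIONS `ptP`, `ptQ` (helper16).

Setting of helper43's `Sym/Points.lean` (`ptP hE hΔ hz h`, `ptQ hE hΔ h` on a short curve `E` with the fibre
condition `h : InFib E u v`), specialised to a curve `E` over `ℚ̄` with `hEW : E = shortQb W`
(`W : WeierstrassCurve ℤ`; helper63's `ShortIso`), `σ ∈ G_ℚ` with `σ ζ = ζ ^ k`:

* `inFib_conj`      : the fibre is stable under `σ` (coordinatewise);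
* `conjPoint_ptP`   : `conjPoint σ (P_ζ(u,v)) = k • P_ζ(σ u, σ v)`;
* `conjPoint_ptQ`   : `conjPoint σ (Q(u,v)) = Q(σ u, σ v)`  (`Q` is a rational section);
* `smul_curveIso_ptP`, `smul_curveIso_ptQ` : the same in `W(ℚ̄)` with the PRELUDE `G_ℚ`-action,
  through `curveIso hEW : E.Point ≃+ (EQb W).Point`:
    `σ • curveIso (P_ζ(u,v)) = k • curveIso (P_ζ(σ u, σ v))`,  `σ • curveIso (Q(u,v)) = curveIso (Q(σ u, σ v))`;
* `isShort_shortQb`, `inFib_shortQb_iff` : the dictionary for `E = shortQb W`.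

Imports `G35/ShortIso` + `G35/Sym/Basis` only.
-/
import Fermat.Agent.G35.ShortIso
import Fermat.Agent.G35.Sym.Basis

set_option autoImplicit false

open scoped WeierstrassCurve.Affine

namespace Fermat.Agent.G35.Sym.GalPoints

open WeierstrassCurve Fermat.Agent.G35.Sym Fermat.Agent.G35.ShortIso Fermat.Agent.G35.Integral

local notation "Qb" => AlgebraicClosure ℚ
local notation "GQ" => (AlgebraicClosure ℚ ≃ₐ[ℚ] AlgebraicClosure ℚ)

/-! ### the short model of `W` over `ℚ̄` -/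

theorem shortQb_a₁ (W : WeierstrassCurve ℤ) : (shortQb W).a₁ = 0 := rfl
theorem shortQb_a₂ (W : WeierstrassCurve ℤ) : (shortQb W).a₂ = 0 := rfl
theorem shortQb_a₃ (W : WeierstrassCurve ℤ) : (shortQb W).a₃ = 0 := rfl
theorem shortQb_a₄ (W : WeierstrassCurve ℤ) : (shortQb W).a₄ = -27 * ((W.c₄ : ℤ) : Qb) := rfl
theorem shortQb_a₆ (W : WeierstrassCurve ℤ) : (shortQb W).a₆ = -54 * ((W.c₆ : ℤ) : Qb) := rfl

theorem isShort_shortQb (W : WeierstrassCurve ℤ) : IsShort (shortQb W) :=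
  ⟨rfl, rfl, rfl⟩

theorem shortQb_Δ_ne_zero (W : WeierstrassCurve ℤ) (hΔ : W.Δ ≠ 0) : (shortQb W).Δ ≠ 0 := by
  rw [shortQb, shortModel_Δ]
  have h := W.c_relation
  have hQ : (((W.c₄ : ℤ) : Qb)) ^ 3 - (((W.c₆ : ℤ) : Qb)) ^ 2 = 1728 * ((W.Δ : ℤ) : Qb) := by
    have := congrArg (fun n : ℤ => (n : Qb)) h
    simp only [Int.cast_mul, Int.cast_sub, Int.cast_pow, Int.cast_ofNat] at this
    linear_combination -this
  intro h0
  apply hΔ
  have h1 : ((W.Δ : ℤ) : Qb) = 0 := by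
    rcases mul_eq_zero.mp h0 with h3 | h3
    · norm_num at h3
    · rw [hQ] at h3
      rcases mul_eq_zero.mp h3 with h4 | h4
      · norm_num at h4
      · exact h4
  exact_mod_cast h1

/-- the fibre condition for `shortQb W` in terms of the Klein forms -/
theorem inFib_shortQb_iff (W : WeierstrassCurve ℤ) (u v : Qb) :
    InFib (shortQb W) u v ↔
      c4UV (u ^ 5) (v ^ 5) = ((W.c₄ : ℤ) : Qb) ∧ tUV (u ^ 5) (v ^ 5) = -((W.c₆ : ℤ) : Qb) := by
  unfold InFib coneA coneB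
  rw [shortQb_a₄, shortQb_a₆]
  constructor
  · rintro ⟨h1, h2⟩
    refine ⟨?_, ?_⟩
    · have : (-27 : Qb) ≠ 0 := by norm_num
      exact mul_left_cancel₀ this h1
    · have : (54 : Qb) ≠ 0 := by norm_num
      apply mul_left_cancel₀ this
      rw [h2]; ring
  · rintro ⟨h1, h2⟩
    rw [h1, h2]
    exact ⟨rfl, by ring⟩

/-! ### Galois stability of the fibre -/

section Conj

variable {W : WeierstrassCurve ℤ} {E : WeierstrassCurve Qb} (hEW : E = shortQb W)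

include hEW in
/-- the fibre over a curve with rational coefficients is stable under `G_ℚ`. -/
theorem inFib_conj (σ : GQ) {u v : Qb} (h : InFib E u v) : InFib E (σ u) (σ v) := by
  subst hEW
  obtain ⟨h1, h2⟩ := h
  refine ⟨?_, ?_⟩
  · have := congrArg (σ : Qb →+* Qb) h1
    rw [map_coneA, shortQb_a₄, map_mul, map_neg, map_ofNat, map_intCast] at this
    rw [shortQb_a₄]; exact this
  · have := congrArg (σ : Qb →+* Qb) h2
    rw [map_coneB, shortQb_a₆, map_mul, map_neg, map_ofNat, map_intCast] at this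
    rw [shortQb_a₆]; exact this

variable (hE : IsShort E) (hΔ : E.Δ ≠ 0) {z : Qb} (hz : z ^ 4 + z ^ 3 + z ^ 2 + z + 1 = 0)

/-- **D4(c) for `P`, coordinatewise form**: `σ(P_ζ(u, v)) = k • P_ζ(σ u, σ v)` when `σ ζ = ζ ^ k`. -/
theorem conjPoint_ptP (σ : GQ) (k : ℕ) (hσ : σ z = z ^ k) {u v : Qb} (h : InFib E u v) :
    conjPoint hEW σ (ptP hE hΔ hz h) = k • ptP hE hΔ hz (inFib_conj hEW σ h) := by
  have hzk : (z ^ k) ^ 4 + (z ^ k) ^ 3 + (z ^ k) ^ 2 + z ^ k + 1 = 0 := by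
    have := map_cyclo (σ : Qb →+* Qb) hz
    rw [← hσ]; exact this
  rw [← ptP_pow hE hΔ hz k hzk (inFib_conj hEW σ h)]
  unfold ptP
  rw [conjPoint_some]
  refine some_congr ?_ ?_ _ _
  · have := map_x0 (σ : Qb →+* Qb) z u v
    rw [← hσ]; exact this
  · have := map_y0 (σ : Qb →+* Qb) z u v
    rw [← hσ]; exact this

/-- **D4(c) for `Q`, coordinatewise form**: `σ(Q(u, v)) = Q(σ u, σ v)` (`Q` is a rational section). -/
theorem conjPoint_ptQ (σ : GQ) {u v : Qb} (h : InFib E u v) :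
    conjPoint hEW σ (ptQ hE hΔ h) = ptQ hE hΔ (inFib_conj hEW σ h) := by
  unfold ptQ
  rw [conjPoint_some]
  exact some_congr (map_xQ (σ : Qb →+* Qb) u v) (map_yQ (σ : Qb →+* Qb) u v) _ _

/-- **D4(c) for `P` in `W(ℚ̄)`** (prelude `G_ℚ`-action on `(W_ℚ⁄ℚ̄).Point = (EQb W).Point`). -/
theorem smul_curveIso_ptP (σ : GQ) (k : ℕ) (hσ : σ z = z ^ k) {u v : Qb} (h : InFib E u v) :
    σ • curveIso hEW (ptP hE hΔ hz h) = k • curveIso hEW (ptP hE hΔ hz (inFib_conj hEW σ h)) := by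
  rw [← curveIso_conjPoint, conjPoint_ptP hEW hE hΔ hz σ k hσ h, map_nsmul]

/-- **D4(c) for `Q` in `W(ℚ̄)`**. -/
theorem smul_curveIso_ptQ (σ : GQ) {u v : Qb} (h : InFib E u v) :
    σ • curveIso hEW (ptQ hE hΔ h) = curveIso hEW (ptQ hE hΔ (inFib_conj hEW σ h)) := by
  rw [← curveIso_conjPoint, conjPoint_ptQ hEW hE hΔ σ h]

end Conj

/-! ### every `σ` sends `ζ` to a power of `ζ` -/

theorem exists_pow_eq_conj' {z : Qb} (hz : z ^ 4 + z ^ 3 + z ^ 2 + z + 1 = 0) (σ : GQ) :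
    ∃ k : ℕ, 0 < k ∧ k < 5 ∧ σ z = z ^ k := by
  have h5 : z ^ 5 = 1 := z_pow_five hz
  have h1 : z ≠ 1 := by
    rintro rfl
    norm_num at hz
  have hprim : IsPrimitiveRoot z 5 := by
    have : Fact (Nat.Prime 5) := ⟨Nat.prime_five⟩
    exact IsPrimitiveRoot.iff_orderOf.mpr (orderOf_eq_prime h5 h1)
  have hprim' : IsPrimitiveRoot (σ z) 5 := hprim.map_of_injective σ.injective
  obtain ⟨k, hk5, hk⟩ := hprim.eq_pow_of_pow_eq_one (hprim'.pow_eq_one)
  refine ⟨k, ?_, hk5, hk.symm⟩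
  rcases Nat.eq_zero_or_pos k with h0 | h0
  · exfalso
    rw [h0, pow_zero] at hk
    exact hprim'.ne_one (by norm_num) hk.symm
  · exact h0

end Fermat.Agent.G35.Sym.GalPoints
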