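/-
GATE-Q / S52 node Q2(a) (helper3): invariance of the Klein forms under the generators
`S`, `T~`, `Z` of the order-600 group, in a DIVISION-FREE form valid over ANY commutative ring `R`
with an element `ζ` such that `ζ^4+ζ^3+ζ^2+ζ+1 = 0`.

* `kc4 U V`, `kT U V`, `kf5 U V` : the Klein forms in `U = u^5`, `V = v^5` (degrees 4, 6, 12 in
  `(U,V)`), and `kf u v = u v (u^10 + 11 u^5 v^5 - v^10)` with `kf5 (u^5) (v^5) = (kf u v)^5`.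
* `Su ζ u v`, `Sv ζ u v` : the two coordinates of `√5 • S (u,v)`, where
  `S = (1/√5) [[ζ^4-ζ, ζ^2-ζ^3], [ζ^2-ζ^3, ζ-ζ^4]]`; `sq5 ζ = 1 + 2(ζ+ζ^4)` satisfies `sq5^2 = 5`.
* `kc4_S`, `kT_S`, `kf_S`, `kf5_S` :
  `k ((Su)^5) ((Sv)^5) = 5^10 / 5^15 / 5^30 * k (u^5) (v^5)`, `kf Su Sv = 5^6 * kf u v`.
* `kc4_S_scaled` ... : for ANY `t` with `t^2 * 5 = 1` (i.e. `t = ± 1/√5`), the honest
  `S (u,v) = (t * Su, t * Sv)` leaves `kc4 (u^5) (v^5)`, `kT (u^5) (v^5)`, `kf u v` invariant;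
  field corollaries `kc4_S_inv` ... with `t = (sq5 ζ)⁻¹` when `(5 : K) ≠ 0`.
* `Su_Su`, `Sv_Sv` : `(√5 S)^2 = -5`;  `S_S_scaled_u/v` : `S^2 = -1`.
* `zeta3_mul_pow5` ... : `T~ = diag(ζ^3, ζ^2)` and `Z = ζ • 1` fix `u^5` and `v^5`, hence fix
  `kc4`, `kT`, `kf5` of `(u^5, v^5)`; `kf_Ttilde`, `kf_Z`.

Method: everything is pushed into the "golden" subring `ℤ[τ]`, `τ = ζ+ζ^4`, `τ^2+τ-1 = 0`, through
`(Su)^2 = gq1 τ u v`, `(Sv)^2 = gq2 τ u v`, `Su * Sv = gq3 τ u v`; the golden statements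
(`kc4q_gold` ...) hold for any root `τ` of `τ^2+τ-1` in any commutative ring.
Certificates (cofactors) computed by exact integer polynomial arithmetic.  Mathlib-only.
-/
import Mathlib

namespace Fermat.Agent.G35.KleinInv

variable {R : Type*} [CommRing R]

/-- Klein's degree-4 form in `(U,V) = (u^5,v^5)` (degree 20 in `(u,v)`). -/
def kc4 (U V : R) : R := U^4 + V^4 - 228*(U^3*V - U*V^3) + 494*U^2*V^2

/-- Klein's degree-6 form in `(U,V) = (u^5,v^5)` (degree 30 in `(u,v)`). -/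
def kT (U V : R) : R := U^6 + V^6 + 522*(U^5*V - U*V^5) - 10005*(U^4*V^2 + U^2*V^4)

/-- Klein's degree-12 form in `(U,V)`: the fifth power of `kf`. -/
def kf5 (U V : R) : R := U*V*(U^2 + 11*U*V - V^2)^5

/-- The degree-12 form `f = u v (u^10 + 11 u^5 v^5 - v^10)`. -/
def kf (u v : R) : R := u*v*(u^10 + 11*u^5*v^5 - v^10)

/-- `kc4` through `X = U^2`, `Y = V^2`, `W = U V`. -/
def kc4q (X Y W : R) : R := X^2 + Y^2 - 228*(W*(X - Y)) + 494*(X*Y)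

/-- `kT` through `X = U^2`, `Y = V^2`, `W = U V`. -/
def kTq (X Y W : R) : R := X^3 + Y^3 + 522*(W*(X^2 - Y^2)) - 10005*(X*Y*(X + Y))

theorem kc4_eq_kc4q (U V : R) : kc4 U V = kc4q (U^2) (V^2) (U*V) := by
  unfold kc4 kc4q; ring

theorem kT_eq_kTq (U V : R) : kT U V = kTq (U^2) (V^2) (U*V) := by
  unfold kT kTq; ring

theorem kf5_eq_kf_pow (u v : R) : kf5 (u^5) (v^5) = (kf u v)^5 := by
  unfold kf5 kf; ring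

theorem kc4_smul (t U V : R) : kc4 (t*U) (t*V) = t^4 * kc4 U V := by
  unfold kc4; ring

theorem kT_smul (t U V : R) : kT (t*U) (t*V) = t^6 * kT U V := by
  unfold kT; ring

theorem kf5_smul (t U V : R) : kf5 (t*U) (t*V) = t^12 * kf5 U V := by
  unfold kf5; ring

theorem kf_smul (t u v : R) : kf (t*u) (t*v) = t^12 * kf u v := by
  unfold kf; ring

/-! ### The golden ring `ℤ[τ]`, `τ^2 + τ - 1 = 0` -/

/-- `(Su)^2` as a quadratic form over `ℤ[τ]`. -/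
def gq1 (τ u v : R) : R := (-3 - τ)*u^2 + 2*(1 + 2*τ)*(u*v) + (τ - 2)*v^2

/-- `(Sv)^2` as a quadratic form over `ℤ[τ]`. -/
def gq2 (τ u v : R) : R := (τ - 2)*u^2 - 2*(1 + 2*τ)*(u*v) + (-3 - τ)*v^2

/-- `Su * Sv` as a quadratic form over `ℤ[τ]`. -/
def gq3 (τ u v : R) : R := (1 + 2*τ)*(u^2 + u*v - v^2)

/-- `gq1^5 = gX0 + τ * gX1`. -/
def gX0 (u v : R) : R :=
  -175*v^10 - 1000*u*v^9 - 3375*u^2*v^8 - 3000*u^3*v^7 - 10500*u^4*v^6 + 6300*u^5*v^5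
    - 15750*u^6*v^4 + 12000*u^7*v^3 - 7875*u^8*v^2 + 2750*u^9*v - 450*u^10

/-- `gq1^5 = gX0 + τ * gX1`. -/
def gX1 (u v : R) : R :=
  275*v^10 + 1750*u*v^9 + 4500*u^2*v^8 + 9000*u^3*v^7 + 5250*u^4*v^6 + 12600*u^5*v^5
    - 5250*u^6*v^4 + 9000*u^7*v^3 - 4500*u^8*v^2 + 1750*u^9*v - 275*u^10

/-- `gq2^5 = gY0 + τ * gY1`. -/
def gY0 (u v : R) : R :=
  -450*v^10 - 2750*u*v^9 - 7875*u^2*v^8 - 12000*u^3*v^7 - 15750*u^4*v^6 - 6300*u^5*v^5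
    - 10500*u^6*v^4 + 3000*u^7*v^3 - 3375*u^8*v^2 + 1000*u^9*v - 175*u^10

/-- `gq2^5 = gY0 + τ * gY1`. -/
def gY1 (u v : R) : R :=
  -275*v^10 - 1750*u*v^9 - 4500*u^2*v^8 - 9000*u^3*v^7 - 5250*u^4*v^6 - 12600*u^5*v^5
    + 5250*u^6*v^4 - 9000*u^7*v^3 + 4500*u^8*v^2 - 1750*u^9*v + 275*u^10

section golden

variable {τ : R} (hτ : τ^2 + τ - 1 = 0)
include hτ

theorem gold_sq5 : (1 + 2*τ)^2 = 5 := by
  linear_combination 4 * hτ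

theorem gq1_pow5 (u v : R) : (gq1 τ u v)^5 = gX0 u v + τ * gX1 u v := by
  unfold gq1 gX0 gX1
  linear_combination
    (-143*v^10 - 1160*u*v^9 - 2815*u^2*v^8 - 4280*u^3*v^7 - 8180*u^4*v^6 + 3148*u^5*v^5
      - 12270*u^6*v^4 + 9120*u^7*v^3 - 5985*u^8*v^2 + 1940*u^9*v - 207*u^10 + 52*τ*v^10 + 590*τ*u*v^9
      + 2085*τ*u^2*v^8 + 2320*τ*u^3*v^7 + 2470*τ*u^4*v^6 + 6228*τ*u^5*v^5 - 6520*τ*u^6*v^4
      + 7920*τ*u^7*v^3 - 4410*τ*u^8*v^2 + 990*τ*u^9*v - 77*τ*u^10 - 11*τ^2*v^10 - 170*τ^2*u*v^9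
      - 930*τ^2*u^2*v^8 - 1960*τ^2*u^3*v^7 - 810*τ^2*u^4*v^6 - 204*τ^2*u^5*v^5 - 3240*τ^2*u^6*v^4
      + 3640*τ^2*u^7*v^3 - 1395*τ^2*u^8*v^2 + 230*τ^2*u^9*v - 14*τ^2*u^10 + τ^3*v^10 + 20*τ^3*u*v^9
      + 155*τ^3*u^2*v^8 + 560*τ^3*u^3*v^7 + 810*τ^3*u^4*v^6 - 136*τ^3*u^5*v^5 - 810*τ^3*u^6*v^4
      + 560*τ^3*u^7*v^3 - 155*τ^3*u^8*v^2 + 20*τ^3*u^9*v - τ^3*u^10) * hτ

theorem gq2_pow5 (u v : R) : (gq2 τ u v)^5 = gY0 u v + τ * gY1 u v := by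
  unfold gq2 gY0 gY1
  linear_combination
    (-207*v^10 - 1940*u*v^9 - 5985*u^2*v^8 - 9120*u^3*v^7 - 12270*u^4*v^6 - 3148*u^5*v^5
      - 8180*u^6*v^4 + 4280*u^7*v^3 - 2815*u^8*v^2 + 1160*u^9*v - 143*u^10 - 77*τ*v^10 - 990*τ*u*v^9
      - 4410*τ*u^2*v^8 - 7920*τ*u^3*v^7 - 6520*τ*u^4*v^6 - 6228*τ*u^5*v^5 + 2470*τ*u^6*v^4
      - 2320*τ*u^7*v^3 + 2085*τ*u^8*v^2 - 590*τ*u^9*v + 52*τ*u^10 - 14*τ^2*v^10 - 230*τ^2*u*v^9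
      - 1395*τ^2*u^2*v^8 - 3640*τ^2*u^3*v^7 - 3240*τ^2*u^4*v^6 + 204*τ^2*u^5*v^5 - 810*τ^2*u^6*v^4
      + 1960*τ^2*u^7*v^3 - 930*τ^2*u^8*v^2 + 170*τ^2*u^9*v - 11*τ^2*u^10 - τ^3*v^10 - 20*τ^3*u*v^9
      - 155*τ^3*u^2*v^8 - 560*τ^3*u^3*v^7 - 810*τ^3*u^4*v^6 + 136*τ^3*u^5*v^5 + 810*τ^3*u^6*v^4
      - 560*τ^3*u^7*v^3 + 155*τ^3*u^8*v^2 - 20*τ^3*u^9*v + τ^3*u^10) * hτ

theorem gq3_pow5 (u v : R) : (gq3 τ u v)^5 = (25 + 50*τ) * (u^2 + u*v - v^2)^5 := by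
  unfold gq3
  have h5 : (1 + 2*τ)^5 = 25 + 50*τ := by
    linear_combination (32*τ^3 + 48*τ^2 + 64*τ + 24) * hτ
  rw [mul_pow, h5]

/-- **golden `kc4` invariance**. -/
theorem kc4q_gold (u v : R) :
    kc4q ((gq1 τ u v)^5) ((gq2 τ u v)^5) ((gq3 τ u v)^5) = 5^10 * kc4 (u^5) (v^5) := by
  rw [gq1_pow5 hτ, gq2_pow5 hτ, gq3_pow5 hτ]
  unfold kc4q kc4 gX0 gX1 gY0 gY1
  linear_combination
    (-30937500*v^20 - 465000000*u*v^19 - 2790000000*u^2*v^18 - 10230000000*u^3*v^17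
      - 26970000000*u^4*v^16 - 51228750000*u^5*v^15 - 84165000000*u^6*v^14 - 95790000000*u^7*v^13
      - 117180000000*u^8*v^12 - 52545000000*u^9*v^11 - 110608125000*u^10*v^10 + 52545000000*u^11*v^9
      - 117180000000*u^12*v^8 + 95790000000*u^13*v^7 - 84165000000*u^14*v^6 + 51228750000*u^15*v^5
      - 26970000000*u^16*v^4 + 10230000000*u^17*v^3 - 2790000000*u^18*v^2 + 465000000*u^19*v
      - 30937500*u^20) * hτ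

/-- **golden `kT` invariance**. -/
theorem kTq_gold (u v : R) :
    kTq ((gq1 τ u v)^5) ((gq2 τ u v)^5) ((gq3 τ u v)^5) = 5^15 * kT (u^5) (v^5) := by
  rw [gq1_pow5 hτ, gq2_pow5 hτ, gq3_pow5 hτ]
  unfold kTq kT gX0 gX1 gY0 gY1
  linear_combination
    (-464062500000*v^30 - 8792578125000*u*v^29 - 79133203125000*u^2*v^28 - 457214062500000*u^3*v^27
      - 1907989453125000*u^4*v^26 - 6132378515625000*u^5*v^25 - 15782677734375000*u^6*v^24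
      - 33411796875000000*u^7*v^23 - 59481791015625000*u^8*v^22 - 89464482421875000*u^9*v^21
      - 117573890625000000*u^10*v^20 - 128107863281250000*u^11*v^19 - 135317777343750000*u^12*v^18
      - 93553031250000000*u^13*v^17 - 113600109375000000*u^14*v^16 - 113600109375000000*u^16*v^14
      + 93553031250000000*u^17*v^13 - 135317777343750000*u^18*v^12 + 128107863281250000*u^19*v^11
      - 117573890625000000*u^20*v^10 + 89464482421875000*u^21*v^9 - 59481791015625000*u^22*v^8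
      + 33411796875000000*u^23*v^7 - 15782677734375000*u^24*v^6 + 6132378515625000*u^25*v^5
      - 1907989453125000*u^26*v^4 + 457214062500000*u^27*v^3 - 79133203125000*u^28*v^2
      + 8792578125000*u^29*v - 464062500000*u^30) * hτ

/-- **golden `kf` invariance**. -/
theorem kf_gold (u v : R) :
    gq3 τ u v * ((gq1 τ u v)^5 + 11 * (gq3 τ u v)^5 - (gq2 τ u v)^5) = 5^6 * kf u v := by
  rw [gq1_pow5 hτ, gq2_pow5 hτ, gq3_pow5 hτ]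
  unfold gq3 kf gX0 gX1 gY0 gY1
  linear_combination
    (-12500*u*v^11 + 137500*u^6*v^6 + 12500*u^11*v) * hτ

end golden

/-! ### The cyclotomic ring: `ζ^4+ζ^3+ζ^2+ζ+1 = 0`, `τ = ζ + ζ^4` -/

/-- `√5 = 1 + 2(ζ+ζ^4)`. -/
def sq5 (ζ : R) : R := 1 + 2*(ζ + ζ^4)

/-- first coordinate of `√5 • S (u,v)`. -/
def Su (ζ u v : R) : R := (ζ^4 - ζ)*u + (ζ^2 - ζ^3)*v

/-- second coordinate of `√5 • S (u,v)`. -/
def Sv (ζ u v : R) : R := (ζ^2 - ζ^3)*u + (ζ - ζ^4)*v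

section cyclo

variable {ζ : R} (hζ : ζ^4 + ζ^3 + ζ^2 + ζ + 1 = 0)
include hζ

theorem zeta_pow5 : ζ^5 = 1 := by
  linear_combination (ζ - 1) * hζ

theorem tau_rel : (ζ + ζ^4)^2 + (ζ + ζ^4) - 1 = 0 := by
  linear_combination (-1 + 2*ζ - ζ^3 + ζ^4) * hζ

theorem sq5_sq : (sq5 ζ)^2 = 5 := by
  unfold sq5
  exact gold_sq5 (tau_rel hζ)

/-- `a^2 + b^2 = -5` for `a = ζ^4-ζ`, `b = ζ^2-ζ^3`. -/
theorem a_sq_add_b_sq : (ζ^4 - ζ)^2 + (ζ^2 - ζ^3)^2 = -5 := by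
  linear_combination (5 - 5*ζ + ζ^2 - ζ^3 + ζ^4) * hζ

/-- `a * b = √5`. -/
theorem a_mul_b : (ζ^4 - ζ) * (ζ^2 - ζ^3) = sq5 ζ := by
  unfold sq5
  linear_combination (-1 - ζ + 2*ζ^2 - ζ^3) * hζ

/-- `(√5 S)^2 = -5`, first coordinate. -/
theorem Su_Su (u v : R) : Su ζ (Su ζ u v) (Sv ζ u v) = -5 * u := by
  unfold Su Sv
  linear_combination u * a_sq_add_b_sq hζ

/-- `(√5 S)^2 = -5`, second coordinate. -/
theorem Sv_Sv (u v : R) : Sv ζ (Su ζ u v) (Sv ζ u v) = -5 * v := by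
  unfold Su Sv
  linear_combination v * a_sq_add_b_sq hζ

theorem Su_sq (u v : R) : (Su ζ u v)^2 = gq1 (ζ + ζ^4) u v := by
  unfold Su gq1
  linear_combination
    (2*v^2 - 2*u*v + 3*u^2 - 3*ζ*v^2 - 2*ζ*u*v - 2*ζ*u^2 + ζ^2*v^2 + 4*ζ^2*u*v - 2*ζ^3*u*v - ζ^3*u^2
      + ζ^4*u^2) * hζ

theorem Sv_sq (u v : R) : (Sv ζ u v)^2 = gq2 (ζ + ζ^4) u v := by
  unfold Sv gq2
  linear_combination
    (3*v^2 + 2*u*v + 2*u^2 - 2*ζ*v^2 + 2*ζ*u*v - 3*ζ*u^2 - 4*ζ^2*u*v + ζ^2*u^2 - ζ^3*v^2 + 2*ζ^3*u*v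
      + ζ^4*v^2) * hζ

theorem Su_mul_Sv (u v : R) : Su ζ u v * Sv ζ u v = gq3 (ζ + ζ^4) u v := by
  unfold Su Sv gq3
  linear_combination
    (v^2 - u*v - u^2 + ζ*v^2 - ζ*u*v - ζ*u^2 - 2*ζ^2*v^2 + ζ^2*u*v + 2*ζ^2*u^2 + ζ^3*v^2 + ζ^3*u*v
      - ζ^3*u^2 - ζ^4*u*v) * hζ

theorem Su_pow5_sq (u v : R) : ((Su ζ u v)^5)^2 = (gq1 (ζ + ζ^4) u v)^5 := by
  rw [← Su_sq hζ]; ring

theorem Sv_pow5_sq (u v : R) : ((Sv ζ u v)^5)^2 = (gq2 (ζ + ζ^4) u v)^5 := by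
  rw [← Sv_sq hζ]; ring

theorem Su_pow5_mul_Sv_pow5 (u v : R) :
    (Su ζ u v)^5 * (Sv ζ u v)^5 = (gq3 (ζ + ζ^4) u v)^5 := by
  rw [← Su_mul_Sv hζ]; ring

/-- **`kc4 ∘ (√5 S) = 5^10 kc4`**. -/
theorem kc4_S (u v : R) :
    kc4 ((Su ζ u v)^5) ((Sv ζ u v)^5) = 5^10 * kc4 (u^5) (v^5) := by
  rw [kc4_eq_kc4q, Su_pow5_sq hζ, Sv_pow5_sq hζ, Su_pow5_mul_Sv_pow5 hζ]
  exact kc4q_gold (tau_rel hζ) u v

/-- **`kT ∘ (√5 S) = 5^15 kT`**. -/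
theorem kT_S (u v : R) :
    kT ((Su ζ u v)^5) ((Sv ζ u v)^5) = 5^15 * kT (u^5) (v^5) := by
  rw [kT_eq_kTq, Su_pow5_sq hζ, Sv_pow5_sq hζ, Su_pow5_mul_Sv_pow5 hζ]
  exact kTq_gold (tau_rel hζ) u v

/-- **`kf ∘ (√5 S) = 5^6 kf`**. -/
theorem kf_S (u v : R) : kf (Su ζ u v) (Sv ζ u v) = 5^6 * kf u v := by
  have h : kf (Su ζ u v) (Sv ζ u v)
      = Su ζ u v * Sv ζ u v * (((Su ζ u v)^5)^2 + 11 * ((Su ζ u v)^5 * (Sv ζ u v)^5)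
          - ((Sv ζ u v)^5)^2) := by
    unfold kf; ring
  rw [h, Su_pow5_sq hζ, Sv_pow5_sq hζ, Su_pow5_mul_Sv_pow5 hζ, Su_mul_Sv hζ]
  exact kf_gold (tau_rel hζ) u v

/-- **`kf5 ∘ (√5 S) = 5^30 kf5`**. -/
theorem kf5_S (u v : R) :
    kf5 ((Su ζ u v)^5) ((Sv ζ u v)^5) = 5^30 * kf5 (u^5) (v^5) := by
  rw [kf5_eq_kf_pow, kf5_eq_kf_pow, kf_S hζ]
  ring

/-! #### The honest `S = t • (Su, Sv)` with `t^2 * 5 = 1` -/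

theorem kc4_S_scaled {t : R} (ht : t^2 * 5 = 1) (u v : R) :
    kc4 ((t * Su ζ u v)^5) ((t * Sv ζ u v)^5) = kc4 (u^5) (v^5) := by
  rw [mul_pow, mul_pow, kc4_smul, kc4_S hζ]
  have h : (t^5)^4 * 5^10 = (1 : R) := by
    have : (t^5)^4 * 5^10 = (t^2 * 5)^10 := by ring
    rw [this, ht, one_pow]
  rw [← mul_assoc, h, one_mul]

theorem kT_S_scaled {t : R} (ht : t^2 * 5 = 1) (u v : R) :
    kT ((t * Su ζ u v)^5) ((t * Sv ζ u v)^5) = kT (u^5) (v^5) := by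
  rw [mul_pow, mul_pow, kT_smul, kT_S hζ]
  have h : (t^5)^6 * 5^15 = (1 : R) := by
    have : (t^5)^6 * 5^15 = (t^2 * 5)^15 := by ring
    rw [this, ht, one_pow]
  rw [← mul_assoc, h, one_mul]

theorem kf_S_scaled {t : R} (ht : t^2 * 5 = 1) (u v : R) :
    kf (t * Su ζ u v) (t * Sv ζ u v) = kf u v := by
  rw [kf_smul, kf_S hζ]
  have h : t^12 * 5^6 = (1 : R) := by
    have : t^12 * 5^6 = (t^2 * 5)^6 := by ring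
    rw [this, ht, one_pow]
  rw [← mul_assoc, h, one_mul]

theorem kf5_S_scaled {t : R} (ht : t^2 * 5 = 1) (u v : R) :
    kf5 ((t * Su ζ u v)^5) ((t * Sv ζ u v)^5) = kf5 (u^5) (v^5) := by
  rw [kf5_eq_kf_pow, kf5_eq_kf_pow, kf_S_scaled hζ ht]

/-- `S^2 = -1`, first coordinate. -/
theorem S_S_scaled_u {t : R} (ht : t^2 * 5 = 1) (u v : R) :
    t * Su ζ (t * Su ζ u v) (t * Sv ζ u v) = -u := by
  have h : t * Su ζ (t * Su ζ u v) (t * Sv ζ u v) = t^2 * Su ζ (Su ζ u v) (Sv ζ u v) := by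
    unfold Su; ring
  rw [h, Su_Su hζ]
  linear_combination (-u) * ht

/-- `S^2 = -1`, second coordinate. -/
theorem S_S_scaled_v {t : R} (ht : t^2 * 5 = 1) (u v : R) :
    t * Sv ζ (t * Su ζ u v) (t * Sv ζ u v) = -v := by
  have h : t * Sv ζ (t * Su ζ u v) (t * Sv ζ u v) = t^2 * Sv ζ (Su ζ u v) (Sv ζ u v) := by
    unfold Sv; ring
  rw [h, Sv_Sv hζ]
  linear_combination (-v) * ht

/-! #### `T~ = diag(ζ^3, ζ^2)` and `Z = ζ • 1` -/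

theorem zeta_mul_pow5 (u : R) : (ζ * u)^5 = u^5 := by
  rw [mul_pow, zeta_pow5 hζ, one_mul]

theorem zeta2_mul_pow5 (u : R) : (ζ^2 * u)^5 = u^5 := by
  have h : (ζ^2 * u)^5 = (ζ^5)^2 * u^5 := by ring
  rw [h, zeta_pow5 hζ, one_pow, one_mul]

theorem zeta3_mul_pow5 (u : R) : (ζ^3 * u)^5 = u^5 := by
  have h : (ζ^3 * u)^5 = (ζ^5)^3 * u^5 := by ring
  rw [h, zeta_pow5 hζ, one_pow, one_mul]

theorem kc4_Ttilde (u v : R) : kc4 ((ζ^3 * u)^5) ((ζ^2 * v)^5) = kc4 (u^5) (v^5) := by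
  rw [zeta3_mul_pow5 hζ, zeta2_mul_pow5 hζ]

theorem kT_Ttilde (u v : R) : kT ((ζ^3 * u)^5) ((ζ^2 * v)^5) = kT (u^5) (v^5) := by
  rw [zeta3_mul_pow5 hζ, zeta2_mul_pow5 hζ]

theorem kf5_Ttilde (u v : R) : kf5 ((ζ^3 * u)^5) ((ζ^2 * v)^5) = kf5 (u^5) (v^5) := by
  rw [zeta3_mul_pow5 hζ, zeta2_mul_pow5 hζ]

theorem kf_Ttilde (u v : R) : kf (ζ^3 * u) (ζ^2 * v) = kf u v := by
  have h : kf (ζ^3 * u) (ζ^2 * v)
      = ζ^5 * (u * v * ((ζ^5)^6 * u^10 + 11 * ((ζ^5)^5 * (u^5 * v^5)) - (ζ^5)^4 * v^10)) := by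
    unfold kf; ring
  rw [h, zeta_pow5 hζ]
  unfold kf; ring

theorem kc4_Z (u v : R) : kc4 ((ζ * u)^5) ((ζ * v)^5) = kc4 (u^5) (v^5) := by
  rw [zeta_mul_pow5 hζ, zeta_mul_pow5 hζ]

theorem kT_Z (u v : R) : kT ((ζ * u)^5) ((ζ * v)^5) = kT (u^5) (v^5) := by
  rw [zeta_mul_pow5 hζ, zeta_mul_pow5 hζ]

theorem kf5_Z (u v : R) : kf5 ((ζ * u)^5) ((ζ * v)^5) = kf5 (u^5) (v^5) := by
  rw [zeta_mul_pow5 hζ, zeta_mul_pow5 hζ]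

/-- `Z = ζ • 1` is NOT in `SL₂`: it multiplies `kf` by `ζ^2` (but fixes `kf5 = kf^5`). -/
theorem kf_Z (u v : R) : kf (ζ * u) (ζ * v) = ζ^2 * kf u v := by
  rw [kf_smul]
  have h : ζ^12 = (ζ^5)^2 * ζ^2 := by ring
  rw [h, zeta_pow5 hζ, one_pow, one_mul]

end cyclo

/-! ### Field corollaries -/

section field

variable {K : Type*} [Field K] {ζ : K} (hζ : ζ^4 + ζ^3 + ζ^2 + ζ + 1 = 0) (h5 : (5 : K) ≠ 0)
include hζ h5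

theorem sq5_ne_zero : sq5 ζ ≠ 0 := by
  intro h
  apply h5
  rw [← sq5_sq hζ, h]; ring

theorem sq5_inv_sq : ((sq5 ζ)⁻¹)^2 * 5 = 1 := by
  rw [← sq5_sq hζ, inv_pow]
  exact inv_mul_cancel₀ (pow_ne_zero 2 (sq5_ne_zero hζ h5))

theorem kc4_S_inv (u v : K) :
    kc4 (((sq5 ζ)⁻¹ * Su ζ u v)^5) (((sq5 ζ)⁻¹ * Sv ζ u v)^5) = kc4 (u^5) (v^5) :=
  kc4_S_scaled hζ (sq5_inv_sq hζ h5) u v

theorem kT_S_inv (u v : K) :
    kT (((sq5 ζ)⁻¹ * Su ζ u v)^5) (((sq5 ζ)⁻¹ * Sv ζ u v)^5) = kT (u^5) (v^5) :=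
  kT_S_scaled hζ (sq5_inv_sq hζ h5) u v

theorem kf_S_inv (u v : K) :
    kf ((sq5 ζ)⁻¹ * Su ζ u v) ((sq5 ζ)⁻¹ * Sv ζ u v) = kf u v :=
  kf_S_scaled hζ (sq5_inv_sq hζ h5) u v

theorem kf5_S_inv (u v : K) :
    kf5 (((sq5 ζ)⁻¹ * Su ζ u v)^5) (((sq5 ζ)⁻¹ * Sv ζ u v)^5) = kf5 (u^5) (v^5) :=
  kf5_S_scaled hζ (sq5_inv_sq hζ h5) u v

end field

end Fermat.Agent.G35.KleinInv
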