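/-
GATE-Q (S52), node Q2 → Q4 glue: the CONCRETE instance of helper23's `TransAbs.KleinSym`.

`L` a field of characteristic zero, `ζ` a root of the 5th cyclotomic polynomial, `E` ANY short
Weierstrass curve over `L` with `a₄ = -27 c`, `a₆ = 54 t`, `c³ ≠ t²` (e.g. `(shortModel c₀ d₀)⁄Qb`
with `t = -d₀`, or `kleinCurve u v`).  On `V = Fin 2 → L` with the generators `gS, gT, gZ` of
helper60's `KleinTrans` we define TOTAL labellings `P5, Q5 : V → E[5]` (value `0` off the fibre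
`fibreVec c t`) from `Sym.ptP`, `Sym.ptQ`, and prove

* `kleinSym`   : `TransAbs.KleinSym (gS hζ) (gT hζ) (gZ hζ) P5 Q5 (fibreVec c t)`;
* `hind`       : independence of `P5 w, Q5 w` over `ZMod 5` at every point of the fibre;
* `gZ_pow_smul_ne` : `gZ ^ k • x ≠ x` on the fibre for `0 < k < 5`.

These are ALL the binders of `TransAbs.exists_smul_eq / exists_pow_of_label_eq / exists_label`
(with `KleinTrans.fibreVec_finite_ncard_le`), so the corollaries at the end have no binder left.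
-/
import Fermat.Agent.G35.Sym.Basis
import Fermat.Agent.G35.KleinTrans
import Fermat.Agent.G35.TransAbs

set_option autoImplicit false

namespace Fermat.Agent.G35.Sym

open WeierstrassCurve Matrix
open Fermat.Agent.G35.Free Fermat.Agent.G35.Cocycle Fermat.Agent.G35.KleinTrans

variable {L : Type*} [Field L] [CharZero L] [DecidableEq L]
variable {E : WeierstrassCurve L} {c t : L} {ζ : L}

/-! ### bridges -/

omit [DecidableEq L] in
theorem Δ_ne_zero_of_short (hE : IsShort E) (hA : E.a₄ = -27 * c) (hB : E.a₆ = 54 * t)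
    (hct : c ^ 3 ≠ t ^ 2) : E.Δ ≠ 0 := by
  rw [hE.Δ_eq, hA, hB]
  intro h
  apply hct
  have h16 : (16 * 78732 : L) ≠ 0 := by norm_num
  have : (16 * 78732 : L) * (c ^ 3 - t ^ 2) = 0 := by linear_combination h
  exact sub_eq_zero.mp ((mul_eq_zero.mp this).resolve_left h16)

omit [DecidableEq L] in
theorem inFib_iff_mem_fibreVec (hA : E.a₄ = -27 * c) (hB : E.a₆ = 54 * t) (w : Fin 2 → L) :
    InFib E (w 0) (w 1) ↔ w ∈ fibreVec c t := by
  have e4 : coneA (w 0) (w 1) = -27 * c4 (w 0) (w 1) := by unfold coneA c4UV c4; ring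
  have e6 : coneB (w 0) (w 1) = 54 * T6 (w 0) (w 1) := by unfold coneB tUV T6; ring
  unfold InFib fibreVec
  rw [e4, e6, hA, hB, Set.mem_setOf_eq]
  have h27 : (-27 : L) ≠ 0 := by norm_num
  have h54 : (54 : L) ≠ 0 := by norm_num
  constructor
  · rintro ⟨h1, h2⟩; exact ⟨mul_left_cancel₀ h27 h1, mul_left_cancel₀ h54 h2⟩
  · rintro ⟨h1, h2⟩; rw [h1, h2]; exact ⟨rfl, rfl⟩

omit [DecidableEq L] in
/-- my `Su, Sv` are the two coordinates of `gS • w`. -/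
theorem gS_smul (hζ : ζ ^ 4 + ζ ^ 3 + ζ ^ 2 + ζ + 1 = 0) (w : Fin 2 → L) :
    (gS hζ • w) 0 = Su ζ (w 0) (w 1) ∧ (gS hζ • w) 1 = Sv ζ (w 0) (w 1) := by
  have h5 : (5 : L) ≠ 0 := by norm_num
  have hs : Fermat.Agent.G35.KleinInv.sq5 ζ ≠ 0 := Fermat.Agent.G35.KleinInv.sq5_ne_zero hζ h5
  have hss : Fermat.Agent.G35.KleinInv.sq5 ζ = sqrt5 ζ := rfl
  have ha := Sa_mul_sqrt5 hζ
  have hb := Sb_mul_sqrt5 hζ
  have e : gS hζ • w = Smat ζ *ᵥ w := rfl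
  rw [e, Smat_mulVec]
  simp only [Matrix.cons_val_zero, Matrix.cons_val_one]
  unfold Fermat.Agent.G35.KleinInv.Su Fermat.Agent.G35.KleinInv.Sv Su Sv
  rw [hss] at hs ⊢
  constructor
  · rw [← ha, ← hb]; field_simp
  · have h1 : ζ - ζ ^ 4 = -(Sa ζ * sqrt5 ζ) := by rw [ha]; ring
    rw [h1, ← hb]; field_simp; ring

omit [DecidableEq L] in
theorem gT_smul (hζ : ζ ^ 4 + ζ ^ 3 + ζ ^ 2 + ζ + 1 = 0) (w : Fin 2 → L) :
    (gT hζ • w) 0 = ζ ^ 3 * w 0 ∧ (gT hζ • w) 1 = ζ ^ 2 * w 1 := by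
  have e : gT hζ • w = Tmat ζ *ᵥ w := rfl
  rw [e, Tmat_mulVec]
  exact ⟨rfl, rfl⟩

omit [DecidableEq L] in
theorem gZ_smul (hζ : ζ ^ 4 + ζ ^ 3 + ζ ^ 2 + ζ + 1 = 0) (w : Fin 2 → L) :
    (gZ hζ • w) 0 = ζ * w 0 ∧ (gZ hζ • w) 1 = ζ * w 1 := by
  have e : gZ hζ • w = Zmat ζ *ᵥ w := rfl
  rw [e, Zmat_mulVec]
  exact ⟨rfl, rfl⟩

omit [DecidableEq L] in
/-- `ptP` only depends on the values of the coordinates. -/
theorem ptP_congr_uv (hE : IsShort E) (hΔ : E.Δ ≠ 0) (hζ : ζ ^ 4 + ζ ^ 3 + ζ ^ 2 + ζ + 1 = 0)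
    {u v u' v' : L} (hu : u = u') (hv : v = v') (h : InFib E u v) (h' : InFib E u' v') :
    ptP hE hΔ hζ h = ptP hE hΔ hζ h' := by
  subst hu; subst hv; rfl

omit [DecidableEq L] [CharZero L] in
/-- `ptQ` only depends on the values of the coordinates. -/
theorem ptQ_congr_uv (hE : IsShort E) (hΔ : E.Δ ≠ 0)
    {u v u' v' : L} (hu : u = u') (hv : v = v') (h : InFib E u v) (h' : InFib E u' v') :
    ptQ hE hΔ h = ptQ hE hΔ h' := by
  subst hu; subst hv; rfl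

/-! ### the total labellings with values in `E[5]` -/

section total

variable (hE : IsShort E) (hΔ : E.Δ ≠ 0) (hζ : ζ ^ 4 + ζ ^ 3 + ζ ^ 2 + ζ + 1 = 0)

/-- `E[5]`. -/
abbrev Tors5 (E : WeierstrassCurve L) : Type _ := Submodule.torsionBy ℤ E.toAffine.Point (5 : ℕ)

theorem ptP_mem_tors {u v : L} (h : InFib E u v) :
    ptP hE hΔ hζ h ∈ Submodule.torsionBy ℤ E.toAffine.Point (5 : ℕ) := by
  rw [Submodule.mem_torsionBy_iff, Nat.cast_smul_eq_nsmul]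
  exact five_nsmul_ptP hE hΔ hζ h

include hζ in
theorem ptQ_mem_tors {u v : L} (h : InFib E u v) :
    ptQ hE hΔ h ∈ Submodule.torsionBy ℤ E.toAffine.Point (5 : ℕ) := by
  rw [Submodule.mem_torsionBy_iff, Nat.cast_smul_eq_nsmul]
  exact five_nsmul_ptQ hE hΔ hζ h

open Classical in
/-- The TOTAL labelling `P` with values in `E[5]` (zero off the fibre). -/
noncomputable def P5 (w : Fin 2 → L) : Tors5 E :=
  if h : InFib E (w 0) (w 1) then ⟨ptP hE hΔ hζ h, ptP_mem_tors hE hΔ hζ h⟩ else 0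

open Classical in
/-- The TOTAL labelling `Q` with values in `E[5]` (zero off the fibre). -/
noncomputable def Q5 (w : Fin 2 → L) : Tors5 E :=
  if h : InFib E (w 0) (w 1) then ⟨ptQ hE hΔ h, ptQ_mem_tors hE hΔ hζ h⟩ else 0

theorem P5_of_mem {w : Fin 2 → L} (h : InFib E (w 0) (w 1)) :
    P5 hE hΔ hζ w = ⟨ptP hE hΔ hζ h, ptP_mem_tors hE hΔ hζ h⟩ := by
  unfold P5; rw [dif_pos h]

theorem Q5_of_mem {w : Fin 2 → L} (h : InFib E (w 0) (w 1)) :
    Q5 hE hΔ hζ w = ⟨ptQ hE hΔ h, ptQ_mem_tors hE hΔ hζ h⟩ := by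
  unfold Q5; rw [dif_pos h]

theorem coe_P5_of_mem {w : Fin 2 → L} (h : InFib E (w 0) (w 1)) :
    ((P5 hE hΔ hζ w : Tors5 E) : E.toAffine.Point) = ptP hE hΔ hζ h := by
  rw [P5_of_mem hE hΔ hζ h]

theorem coe_Q5_of_mem {w : Fin 2 → L} (h : InFib E (w 0) (w 1)) :
    ((Q5 hE hΔ hζ w : Tors5 E) : E.toAffine.Point) = ptQ hE hΔ h := by
  rw [Q5_of_mem hE hΔ hζ h]

end total

/-! ### the `KleinSym` instance -/

section inst

variable (hE : IsShort E) (hA : E.a₄ = -27 * c) (hB : E.a₆ = 54 * t) (hct : c ^ 3 ≠ t ^ 2)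
variable (hζ : ζ ^ 4 + ζ ^ 3 + ζ ^ 2 + ζ + 1 = 0)

/-- **The concrete Klein symmetry package** (input of `TransAbs`). -/
theorem kleinSym :
    Fermat.Agent.G35.TransAbs.KleinSym (gS hζ) (gT hζ) (gZ hζ)
      (P5 hE (Δ_ne_zero_of_short hE hA hB hct) hζ) (Q5 hE (Δ_ne_zero_of_short hE hA hB hct) hζ)
      (fibreVec c t) := by
  have hΔ := Δ_ne_zero_of_short hE hA hB hct
  have hmem : ∀ {x : Fin 2 → L}, x ∈ fibreVec c t → InFib E (x 0) (x 1) :=
    fun {x} hx => (inFib_iff_mem_fibreVec hA hB x).mpr hx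
  have hFs : ∀ x, gS hζ • x ∈ fibreVec c t ↔ x ∈ fibreVec c t :=
    fun x => smul_mem_fibreVec_iff (gS_mem_formStab hζ) c t x
  have hFt : ∀ x, gT hζ • x ∈ fibreVec c t ↔ x ∈ fibreVec c t :=
    fun x => smul_mem_fibreVec_iff (gT_mem_formStab hζ) c t x
  have hFz : ∀ x, gZ hζ • x ∈ fibreVec c t ↔ x ∈ fibreVec c t :=
    fun x => smul_mem_fibreVec_iff (gZ_mem_formStab hζ) c t x
  refine ⟨hFs, hFt, hFz, ?_, ?_, ?_, ?_, ?_, ?_⟩
  · -- P ∘ S = Q
    intro x hx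
    have h := hmem hx
    have hS := hmem ((hFs x).mpr hx)
    obtain ⟨e0, e1⟩ := gS_smul hζ x
    have hS' : InFib E (Su ζ (x 0) (x 1)) (Sv ζ (x 0) (x 1)) := by rw [← e0, ← e1]; exact hS
    apply Subtype.ext
    rw [coe_P5_of_mem hE hΔ hζ hS, coe_Q5_of_mem hE hΔ hζ h,
      ptP_congr_uv hE hΔ hζ e0 e1 hS hS']
    exact ptP_S hE hΔ hζ h hS'
  · -- Q ∘ S = -P
    intro x hx
    have h := hmem hx
    have hS := hmem ((hFs x).mpr hx)
    obtain ⟨e0, e1⟩ := gS_smul hζ x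
    have hS' : InFib E (Su ζ (x 0) (x 1)) (Sv ζ (x 0) (x 1)) := by rw [← e0, ← e1]; exact hS
    apply Subtype.ext
    rw [Submodule.coe_neg, coe_Q5_of_mem hE hΔ hζ hS, coe_P5_of_mem hE hΔ hζ h,
      ptQ_congr_uv hE hΔ e0 e1 hS hS']
    exact ptQ_S hE hΔ hζ h hS'
  · -- P ∘ T = P
    intro x hx
    have h := hmem hx
    have hT := hmem ((hFt x).mpr hx)
    obtain ⟨e0, e1⟩ := gT_smul hζ x
    have hT' : InFib E (ζ ^ 3 * x 0) (ζ ^ 2 * x 1) := by rw [← e0, ← e1]; exact hT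
    apply Subtype.ext
    rw [coe_P5_of_mem hE hΔ hζ hT, coe_P5_of_mem hE hΔ hζ h,
      ptP_congr_uv hE hΔ hζ e0 e1 hT hT']
    exact ptP_T hE hΔ hζ h hT'
  · -- Q ∘ T = Q - P
    intro x hx
    have h := hmem hx
    have hT := hmem ((hFt x).mpr hx)
    obtain ⟨e0, e1⟩ := gT_smul hζ x
    have hT' : InFib E (ζ ^ 3 * x 0) (ζ ^ 2 * x 1) := by rw [← e0, ← e1]; exact hT
    apply Subtype.ext
    rw [Submodule.coe_sub, coe_Q5_of_mem hE hΔ hζ hT, coe_Q5_of_mem hE hΔ hζ h,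
      coe_P5_of_mem hE hΔ hζ h, ptQ_congr_uv hE hΔ e0 e1 hT hT']
    exact ptQ_T hE hΔ hζ h hT'
  · -- P ∘ Z = P
    intro x hx
    have h := hmem hx
    have hZ := hmem ((hFz x).mpr hx)
    obtain ⟨e0, e1⟩ := gZ_smul hζ x
    have hZ' : InFib E (ζ * x 0) (ζ * x 1) := by rw [← e0, ← e1]; exact hZ
    apply Subtype.ext
    rw [coe_P5_of_mem hE hΔ hζ hZ, coe_P5_of_mem hE hΔ hζ h,
      ptP_congr_uv hE hΔ hζ e0 e1 hZ hZ']
    exact ptP_Z hE hΔ hζ h hZ'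
  · -- Q ∘ Z = Q
    intro x hx
    have h := hmem hx
    have hZ := hmem ((hFz x).mpr hx)
    obtain ⟨e0, e1⟩ := gZ_smul hζ x
    have hZ' : InFib E (ζ * x 0) (ζ * x 1) := by rw [← e0, ← e1]; exact hZ
    apply Subtype.ext
    rw [coe_Q5_of_mem hE hΔ hζ hZ, coe_Q5_of_mem hE hΔ hζ h,
      ptQ_congr_uv hE hΔ e0 e1 hZ hZ']
    exact ptQ_Z hE hΔ hζ h hZ'

/-- **Independence over `ZMod 5`** of the two labels, for ANY `ZMod 5`-module structure on `E[5]`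
(it is unique). -/
theorem hind [Module (ZMod 5) (Tors5 E)] {w : Fin 2 → L} (hw : w ∈ fibreVec c t) (a b : ZMod 5)
    (hab : a • P5 hE (Δ_ne_zero_of_short hE hA hB hct) hζ w
      + b • Q5 hE (Δ_ne_zero_of_short hE hA hB hct) hζ w = 0) : a = 0 ∧ b = 0 := by
  have hΔ := Δ_ne_zero_of_short hE hA hB hct
  have h : InFib E (w 0) (w 1) := (inFib_iff_mem_fibreVec hA hB w).mpr hw
  have ea : a • P5 hE hΔ hζ w = (a.val : ℤ) • P5 hE hΔ hζ w := by
    conv_lhs => rw [← ZMod.natCast_zmod_val a, Nat.cast_smul_eq_nsmul]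
    rw [natCast_zsmul]
  have eb : b • Q5 hE hΔ hζ w = (b.val : ℤ) • Q5 hE hΔ hζ w := by
    conv_lhs => rw [← ZMod.natCast_zmod_val b, Nat.cast_smul_eq_nsmul]
    rw [natCast_zsmul]
  rw [ea, eb] at hab
  have hab' : ((a.val : ℤ)) • ptP hE hΔ hζ h + ((b.val : ℤ)) • ptQ hE hΔ h = 0 := by
    have := congrArg (Subtype.val) hab
    rw [Submodule.coe_add, Submodule.coe_smul, Submodule.coe_smul, coe_P5_of_mem hE hΔ hζ h,
      coe_Q5_of_mem hE hΔ hζ h] at this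
    exact this
  obtain ⟨h1, h2⟩ := five_dvd_of_zsmul_add_zsmul hE hΔ hζ h _ _ hab'
  have hval : ∀ x : ZMod 5, (5 : ℤ) ∣ (x.val : ℤ) → x = 0 := by
    intro x hx
    have hlt : x.val < 5 := ZMod.val_lt x
    have h0 : x.val = 0 := by
      have : (5 : ℕ) ∣ x.val := by exact_mod_cast hx
      exact Nat.eq_zero_of_dvd_of_lt this hlt
    exact (ZMod.val_eq_zero x).mp h0
  exact ⟨hval a h1, hval b h2⟩

omit [DecidableEq L] in
/-- the centre `Z = ζ • 1` acts freely on the fibre. -/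
theorem gZ_pow_smul_ne (hc : c ≠ 0) {x : Fin 2 → L} (hx : x ∈ fibreVec c t) {k : ℕ}
    (hk0 : 0 < k) (hk5 : k < 5) : (gZ hζ) ^ k • x ≠ x := by
  intro hfix
  rw [gZ_pow_smul] at hfix
  have hx0 : x ≠ 0 := by
    intro h0
    apply hc
    have := hx.1
    rw [h0] at this
    simp only [Pi.zero_apply] at this
    rw [← this]
    unfold c4; ring
  obtain ⟨i, hi⟩ := Function.ne_iff.mp hx0
  have h1 := congrFun hfix i
  simp only [Pi.smul_apply, smul_eq_mul] at h1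
  have h2 : (ζ ^ k - 1) * x i = 0 := by linear_combination h1
  rcases mul_eq_zero.mp h2 with h3 | h3
  · exact zeta_pow_ne_one hζ hk0 hk5 (sub_eq_zero.mp h3)
  · exact hi h3

/-! ### corollaries: no binder left -/

include hE hA hB hct in
/-- **Transitivity** of `closure {gS, gT, gZ}` on every Klein fibre. -/
theorem klein_transitive [Module (ZMod 5) (Tors5 E)] (hc : c ≠ 0) (ht : t ≠ 0)
    {w0 : Fin 2 → L} (hw0 : w0 ∈ fibreVec c t) :
    ∀ w ∈ fibreVec c t,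
      ∃ γ ∈ Subgroup.closure ({gS hζ, gT hζ, gZ hζ} : Set (GL (Fin 2) L)), γ • w0 = w := by
  obtain ⟨hfin, hcard⟩ := fibreVec_finite_ncard_le hc ht hct
  exact Fermat.Agent.G35.TransAbs.exists_smul_eq (kleinSym hE hA hB hct hζ) hw0
    (fun a b => hind hE hA hB hct hζ hw0 a b)
    (fun x hx k hk0 hk5 => gZ_pow_smul_ne hζ hc hx hk0 hk5) hfin hcard

/-- **Kernel of the label**: same `P5`, `Q5` as `w0` ⟹ `w = ζ^k • w0`. -/
theorem klein_label_kernel [Module (ZMod 5) (Tors5 E)] (hc : c ≠ 0) (ht : t ≠ 0)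
    {w0 : Fin 2 → L} (hw0 : w0 ∈ fibreVec c t) :
    ∀ w ∈ fibreVec c t,
      P5 hE (Δ_ne_zero_of_short hE hA hB hct) hζ w = P5 hE (Δ_ne_zero_of_short hE hA hB hct) hζ w0 →
      Q5 hE (Δ_ne_zero_of_short hE hA hB hct) hζ w = Q5 hE (Δ_ne_zero_of_short hE hA hB hct) hζ w0 →
      ∃ k, k < 5 ∧ (gZ hζ) ^ k • w0 = w := by
  obtain ⟨hfin, hcard⟩ := fibreVec_finite_ncard_le hc ht hct
  exact Fermat.Agent.G35.TransAbs.exists_pow_of_label_eq (kleinSym hE hA hB hct hζ) hw0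
    (fun a b => hind hE hA hB hct hζ hw0 a b)
    (fun x hx k hk0 hk5 => gZ_pow_smul_ne hζ hc hx hk0 hk5) hfin hcard

end inst

end Fermat.Agent.G35.Sym
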