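/-
GATE-Q / S52 (3–5 switch), node Q2(c), GALOIS ACTION ON THE SECTION `P0` (helper16).

For `w = (u, v)` in the Klein fibre over `(c₄(W), -c₆(W))`, `ζ` a primitive 5th root of unity and
`σ ∈ G_ℚ` with `σ ζ = ζ ^ k`:

  `σ • kleinIso (u, v) (P0 ζ (u, v)) = k • kleinIso (σ u, σ v) (P0 ζ (σ u, σ v))`

in `W(ℚ̄)` (prelude action on `(W_ℚ⁄ℚ̄).Point`), i.e. "`σ • P_ζ(w) = k • P_ζ(σ w)`": the coordinates of
`P0` are polynomials in `ζ, u, v` with rational coefficients (map-functoriality of `some`, through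
helper63's `ShortIso.kleinIso_conj`) and `P0(ζ^k) = k • P0(ζ)` (helper21's `Klein/Double.P0_pow`).

Also: the fibre conditions, `Δ ≠ 0` and `Φ₅(ζ) = 0` are stable under `σ`.
Imports `G35/ShortIso` + `G35/Klein/Double` only.
-/
import Fermat.Agent.G35.ShortIso
import Fermat.Agent.G35.Klein.Double

set_option autoImplicit false

open scoped WeierstrassCurve.Affine

namespace Fermat.Agent.G35.Sym.GalP0

open WeierstrassCurve Fermat.Agent.G35.Klein Fermat.Agent.G35.Klein.Section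
  Fermat.Agent.G35.ShortIso

local notation "Qb" => AlgebraicClosure ℚ
local notation "GQ" => (AlgebraicClosure ℚ ≃ₐ[ℚ] AlgebraicClosure ℚ)

/-! ### ring homomorphisms commute with the Klein forms and with the coordinates of `P0` -/

section Map

variable {K L : Type*} [Field K] [Field L] (φ : K →+* L)

theorem map_kc4 (U V : K) : φ (kc4 U V) = kc4 (φ U) (φ V) := by
  simp only [kc4, map_add, map_sub, map_mul, map_pow, map_ofNat]

theorem map_kT (U V : K) : φ (kT U V) = kT (φ U) (φ V) := by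
  simp only [kT, map_add, map_sub, map_mul, map_pow, map_ofNat]

theorem map_kf5 (U V : K) : φ (kf5 U V) = kf5 (φ U) (φ V) := by
  simp only [kf5, map_add, map_sub, map_mul, map_pow, map_ofNat]

theorem map_ks (ζ : K) : φ (ks ζ) = ks (φ ζ) := by
  simp only [ks, map_add, map_mul, map_pow, map_ofNat, map_one]

theorem map_kw (ζ : K) : φ (kw ζ) = kw (φ ζ) := by
  simp only [kw, map_sub, map_pow]

theorem map_kx0 (s U V : K) : φ (kx0 s U V) = kx0 (φ s) (φ U) (φ V) := by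
  simp only [kx0, map_neg, map_add, map_sub, map_mul, map_pow, map_ofNat, map_div₀]

theorem map_kC (s U V : K) : φ (kC s U V) = kC (φ s) (φ U) (φ V) := by
  simp only [kC, map_add, map_sub, map_mul, map_pow, map_ofNat, map_div₀]

theorem map_ky0 (ζ U V : K) : φ (ky0 ζ U V) = ky0 (φ ζ) (φ U) (φ V) := by
  simp only [ky0, map_mul, map_kw, map_kC, map_ks]

theorem map_phi5 {ζ : K} (hζ : ζ ^ 4 + ζ ^ 3 + ζ ^ 2 + ζ + 1 = 0) :
    (φ ζ) ^ 4 + (φ ζ) ^ 3 + (φ ζ) ^ 2 + φ ζ + 1 = 0 := by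
  have := congrArg φ hζ
  simpa only [map_add, map_pow, map_one, map_zero] using this

end Map

/-! ### stability of the fibre under Galois -/

section Fibre

variable {W : WeierstrassCurve ℤ}

theorem kc4_conj (σ : GQ) {u v : Qb} (h4 : kc4 (u ^ 5) (v ^ 5) = ((W.c₄ : ℤ) : Qb)) :
    kc4 ((σ u) ^ 5) ((σ v) ^ 5) = ((W.c₄ : ℤ) : Qb) := by
  have := congrArg σ h4
  rwa [← AlgEquiv.coe_ringEquiv, ← RingEquiv.coe_toRingHom, map_kc4, map_pow, map_pow,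
    map_intCast] at this

theorem kT_conj (σ : GQ) {u v : Qb} (h6 : kT (u ^ 5) (v ^ 5) = -((W.c₆ : ℤ) : Qb)) :
    kT ((σ u) ^ 5) ((σ v) ^ 5) = -((W.c₆ : ℤ) : Qb) := by
  have := congrArg σ h6
  rwa [← AlgEquiv.coe_ringEquiv, ← RingEquiv.coe_toRingHom, map_kT, map_pow, map_pow,
    map_neg, map_intCast] at this

theorem kleinCurve_Δ_conj (σ : GQ) {u v : Qb} (hΔ : (kleinCurve u v).Δ ≠ 0) :
    (kleinCurve (σ u) (σ v)).Δ ≠ 0 := by
  rw [kleinCurve_Δ] at hΔ ⊢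
  intro h0
  apply hΔ
  have h1 : (σ : Qb →+* Qb) (-6 ^ 12 * kf5 (u ^ 5) (v ^ 5)) = 0 := by
    rw [map_mul, map_kf5, map_pow, map_pow, map_neg, map_pow, map_ofNat]
    exact h0
  exact (map_eq_zero_iff (σ : Qb →+* Qb) (RingHom.injective _)).mp h1

end Fibre

/-! ### the main statement -/

section Main

variable {W : WeierstrassCurve ℤ}

/-- `curveIso` only depends on the coordinates of the point -/
theorem curveIso_some_congr {E E' : WeierstrassCurve Qb} (hE : E = shortQb W)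
    (hE' : E' = shortQb W) {x y x' y' : Qb} (hx : x = x') (hy : y = y')
    (h : E.toAffine.Nonsingular x y) (h' : E'.toAffine.Nonsingular x' y') :
    curveIso hE (.some x y h) = curveIso hE' (.some x' y' h') := by
  subst hE
  subst hE'
  subst hx
  subst hy
  rfl

/-- **Q2(c) for `P0`**: `σ • P_ζ(u, v) = k • P_ζ(σ u, σ v)` in `W(ℚ̄)`, when `σ ζ = ζ ^ k`. -/
theorem smul_kleinIso_P0 {ζ : Qb} (hζ : ζ ^ 4 + ζ ^ 3 + ζ ^ 2 + ζ + 1 = 0) {u v : Qb}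
    (h4 : kc4 (u ^ 5) (v ^ 5) = ((W.c₄ : ℤ) : Qb))
    (h6 : kT (u ^ 5) (v ^ 5) = -((W.c₆ : ℤ) : Qb))
    (hΔ : (kleinCurve u v).Δ ≠ 0) (σ : GQ) (k : ℕ) (hσ : σ ζ = ζ ^ k) :
    σ • kleinIso h4 h6 (P0 hζ hΔ) =
      k • kleinIso (kc4_conj σ h4) (kT_conj σ h6) (P0 hζ (kleinCurve_Δ_conj σ hΔ)) := by
  have hζk : (ζ ^ k) ^ 4 + (ζ ^ k) ^ 3 + (ζ ^ k) ^ 2 + ζ ^ k + 1 = 0 := by
    have := map_phi5 (σ : Qb →+* Qb) hζ
    rw [← hσ]; exact this
  rw [← map_nsmul, ← P0_pow hζ (kleinCurve_Δ_conj σ hΔ) k hζk]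
  have hns : (kleinCurve u v).toAffine.Nonsingular (kx0 (ks ζ) (u ^ 5) (v ^ 5))
      (ky0 ζ (u ^ 5) (v ^ 5)) := nonsingular_P0UV (U := u ^ 5) (V := v ^ 5) hζ hΔ
  have hns' : (kleinCurve (σ u) (σ v)).toAffine.Nonsingular
      (kx0 (ks (ζ ^ k)) ((σ u) ^ 5) ((σ v) ^ 5)) (ky0 (ζ ^ k) ((σ u) ^ 5) ((σ v) ^ 5)) :=
    nonsingular_P0UV (U := (σ u) ^ 5) (V := (σ v) ^ 5) hζk (kleinCurve_Δ_conj σ hΔ)
  have e1 : P0 hζ hΔ = .some _ _ hns := rfl
  have e2 : P0 hζk (kleinCurve_Δ_conj σ hΔ) = .some _ _ hns' := rfl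
  rw [e1, e2, ← kleinIso_conj h4 h6 σ hns]
  unfold kleinIso
  refine curveIso_some_congr _ _ ?_ ?_ _ _
  · have := map_kx0 (σ : Qb →+* Qb) (ks ζ) (u ^ 5) (v ^ 5)
    rw [map_ks, map_pow, map_pow] at this
    rw [← hσ]; exact this
  · have := map_ky0 (σ : Qb →+* Qb) ζ (u ^ 5) (v ^ 5)
    rw [map_pow, map_pow] at this
    rw [← hσ]; exact this

/-- the same with arbitrary proofs of the side conditions at an arbitrary point `(u', v')` equal to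
`(σ u, σ v)` (consumer-friendly form: no proof terms, no casts in the statement). -/
theorem smul_kleinIso_P0' {ζ : Qb} (hζ : ζ ^ 4 + ζ ^ 3 + ζ ^ 2 + ζ + 1 = 0) {u v u' v' : Qb}
    (h4 : kc4 (u ^ 5) (v ^ 5) = ((W.c₄ : ℤ) : Qb))
    (h6 : kT (u ^ 5) (v ^ 5) = -((W.c₆ : ℤ) : Qb))
    (hΔ : (kleinCurve u v).Δ ≠ 0) (σ : GQ) (k : ℕ) (hσ : σ ζ = ζ ^ k)
    (hu : u' = σ u) (hv : v' = σ v)
    (h4' : kc4 (u' ^ 5) (v' ^ 5) = ((W.c₄ : ℤ) : Qb))
    (h6' : kT (u' ^ 5) (v' ^ 5) = -((W.c₆ : ℤ) : Qb))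
    (hΔ' : (kleinCurve u' v').Δ ≠ 0) :
    σ • kleinIso h4 h6 (P0 hζ hΔ) = k • kleinIso h4' h6' (P0 hζ hΔ') := by
  subst hu
  subst hv
  exact smul_kleinIso_P0 hζ h4 h6 hΔ σ k hσ

/-- every `σ ∈ G_ℚ` sends `ζ` to a power `ζ ^ k`, `0 < k < 5` -/
theorem exists_pow_eq_conj {ζ : Qb} (hζ : ζ ^ 4 + ζ ^ 3 + ζ ^ 2 + ζ + 1 = 0) (σ : GQ) :
    ∃ k : ℕ, 0 < k ∧ k < 5 ∧ σ ζ = ζ ^ k := by
  have h5 : ζ ^ 5 = 1 := zeta_pow_five hζ
  have h1 : ζ ≠ 1 := by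
    rintro rfl
    norm_num at hζ
  have hprim : IsPrimitiveRoot ζ 5 := by
    have : Fact (Nat.Prime 5) := ⟨Nat.prime_five⟩
    exact IsPrimitiveRoot.iff_orderOf.mpr (orderOf_eq_prime h5 h1)
  have hprim' : IsPrimitiveRoot (σ ζ) 5 := hprim.map_of_injective σ.injective
  obtain ⟨k, hk5, hk⟩ := hprim.eq_pow_of_pow_eq_one (hprim'.pow_eq_one)
  refine ⟨k, ?_, hk5, hk.symm⟩
  rcases Nat.eq_zero_or_pos k with h0 | h0
  · exfalso
    rw [h0, pow_zero] at hk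
    exact hprim'.ne_one (by norm_num) hk.symm
  · exact h0

end Main

end Fermat.Agent.G35.Sym.GalP0
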