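/-
GATE-Q (S52), clause (I3) of the descent contract T1 (helper23 4123 D3), as ONE standalone theorem
(helper43): for `w0` in the Klein fibre of `W` (`c4 w0 = c₄(W)`, `T6 w0 = -c₆(W)`), a Galois
automorphism `ρ` fixing `ζ` and fixing `W(ℚ̄)[5]` pointwise moves `w0` by a power of `ζ`:
`ρ (w0 i) = ζ ^ k * w0 i`.

Proof: `ρ • P_ζ(w0) = P_ζ(ρ w0)` and `ρ • Q(w0) = Q(ρ w0)` (helper16 `GalPoints`, `k = 1`), so `ρ w0`
has the same label `(P5, Q5)` as `w0`; the kernel of the label map is `⟨Z⟩` (`klein_label_kernel`).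
-/
import Fermat.Agent.G35.Sym.GalPoints
import Fermat.Agent.G35.Sym.KleinSymInst
import Fermat.Agent.GE.Top.ECAssembly

set_option autoImplicit false

open scoped WeierstrassCurve.Affine

namespace Fermat.Agent.G35.Sym.I3

open WeierstrassCurve Fermat.Agent.G35.Sym Fermat.Agent.G35.ShortIso
open Fermat.Agent.G35.Sym.GalPoints
open Fermat.Agent.G35.Free Fermat.Agent.G35.Cocycle Fermat.Agent.G35.KleinTrans
open Fermat.Agent.GE.ECAssembly

local notation "Qb" => AlgebraicClosure ℚ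
local notation "GQ" => (AlgebraicClosure ℚ ≃ₐ[ℚ] AlgebraicClosure ℚ)

/-- `c₄³ ≠ t²` for `(c, t) = (c₄(W), -c₆(W))` when `Δ(W) ≠ 0`. -/
theorem c4_cube_ne (W : WeierstrassCurve ℤ) (hΔ : W.Δ ≠ 0) :
    (((W.c₄ : ℤ) : Qb)) ^ 3 ≠ (-((W.c₆ : ℤ) : Qb)) ^ 2 := by
  have h := W.c_relation
  have hQ : (((W.c₄ : ℤ) : Qb)) ^ 3 - (((W.c₆ : ℤ) : Qb)) ^ 2 = 1728 * ((W.Δ : ℤ) : Qb) := by
    have := congrArg (fun n : ℤ => (n : Qb)) h
    simp only [Int.cast_mul, Int.cast_sub, Int.cast_pow, Int.cast_ofNat] at this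
    linear_combination -this
  intro h0
  apply hΔ
  have h1 : (1728 : Qb) * ((W.Δ : ℤ) : Qb) = 0 := by rw [← hQ, h0]; ring
  rcases mul_eq_zero.mp h1 with h3 | h3
  · norm_num at h3
  · exact_mod_cast h3

/-- powers of `gZ` act by multiplication with powers of `ζ`. -/
theorem gZ_pow_smul {L : Type*} [Field L] [CharZero L] {ζ : L} (hζ : ζ ^ 4 + ζ ^ 3 + ζ ^ 2 + ζ + 1 = 0) (k : ℕ)
    (w : Fin 2 → L) (i : Fin 2) : ((gZ hζ) ^ k • w) i = ζ ^ k * w i := by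
  induction k generalizing w i with
  | zero => simp
  | succ n ih =>
    rw [pow_succ, mul_smul, ih]
    have h := gZ_smul hζ w
    fin_cases i
    · simp only [Fin.zero_eta]
      rw [h.1]; ring
    · simp only [Fin.mk_one]
      rw [h.2]; ring

/-- **Clause (I3) of T1.** -/
theorem klein_I3 (W : WeierstrassCurve ℤ) (hΔ : W.Δ ≠ 0) (hc4 : W.c₄ ≠ 0) (hc6 : W.c₆ ≠ 0)
    {ζ : Qb} (hζ : ζ ^ 4 + ζ ^ 3 + ζ ^ 2 + ζ + 1 = 0) {w0 : Fin 2 → Qb}
    (h4 : c4 (w0 0) (w0 1) = ((W.c₄ : ℤ) : Qb)) (h6 : T6 (w0 0) (w0 1) = -((W.c₆ : ℤ) : Qb))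
    (ρ : GQ) (hρ : ρ ζ = ζ) (hfix : ∀ P : TN W 5, ρ • P = P) :
    ∃ k : ℕ, k < 5 ∧ ∀ i, ρ (w0 i) = ζ ^ k * w0 i := by
  classical
  -- the short model and its dictionary
  have hE : IsShort (shortQb W) := isShort_shortQb W
  have hA : (shortQb W).a₄ = -27 * ((W.c₄ : ℤ) : Qb) := shortQb_a₄ W
  have hB : (shortQb W).a₆ = 54 * (-((W.c₆ : ℤ) : Qb)) := by rw [shortQb_a₆]; ring
  have hct := c4_cube_ne W hΔ
  have hc : ((W.c₄ : ℤ) : Qb) ≠ 0 := by exact_mod_cast hc4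
  have ht : (-((W.c₆ : ℤ) : Qb)) ≠ 0 := by
    rw [neg_ne_zero]; exact_mod_cast hc6
  have hΔE : (shortQb W).Δ ≠ 0 := Δ_ne_zero_of_short hE hA hB hct
  have hw0 : w0 ∈ fibreVec ((W.c₄ : ℤ) : Qb) (-((W.c₆ : ℤ) : Qb)) := ⟨h4, h6⟩
  have hF0 : InFib (shortQb W) (w0 0) (w0 1) := (inFib_iff_mem_fibreVec hA hB w0).2 hw0
  -- the conjugate vector
  set w1 : Fin 2 → Qb := fun i => ρ (w0 i) with hw1def
  have hF1 : InFib (shortQb W) (w1 0) (w1 1) := inFib_conj (W := W) rfl ρ hF0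
  have hw1 : w1 ∈ fibreVec ((W.c₄ : ℤ) : Qb) (-((W.c₆ : ℤ) : Qb)) :=
    (inFib_iff_mem_fibreVec hA hB w1).1 hF1
  -- `ρ` fixes every 5-torsion point of `W(ℚ̄)`
  have hfix' : ∀ P : ((WQ W)⁄Qb).Point, (5 : ℕ) • P = 0 → ρ • P = P := by
    intro P hP
    have hmem : P ∈ Submodule.torsionBy ℤ (EQb W).Point ((5 : ℕ) : ℤ) := by
      rw [Submodule.mem_torsionBy_iff, natCast_zsmul]; exact hP
    exact congrArg Subtype.val (hfix ⟨P, hmem⟩)
  -- same `P`-label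
  have hP : ptP hE hΔE hζ hF1 = ptP hE hΔE hζ hF0 := by
    apply (curveIso (W := W) (E := shortQb W) rfl).injective
    have h1 := smul_curveIso_ptP (W := W) (E := shortQb W) rfl hE hΔE hζ ρ 1
      (by rw [pow_one]; exact hρ) hF0
    rw [one_smul] at h1
    rw [← h1]
    apply hfix'
    rw [nsmul_curveIso_eq_zero_iff]
    exact five_nsmul_ptP hE hΔE hζ hF0
  have hQ : ptQ hE hΔE hF1 = ptQ hE hΔE hF0 := by
    apply (curveIso (W := W) (E := shortQb W) rfl).injective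
    have h1 := smul_curveIso_ptQ (W := W) (E := shortQb W) rfl hE hΔE ρ hF0
    rw [← h1]
    apply hfix'
    rw [nsmul_curveIso_eq_zero_iff]
    exact five_nsmul_ptQ hE hΔE hζ hF0
  let _ : Module (ZMod 5) (Tors5 (shortQb W)) :=
    AddCommGroup.zmodModule fun x => by
      rw [← Nat.cast_smul_eq_nsmul ℤ 5 x]
      exact Submodule.smul_torsionBy _ x
  obtain ⟨k, hk5, hk⟩ := klein_label_kernel (E := shortQb W) hE hA hB hct hζ hc ht hw0 w1 hw1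
    (by
      apply Subtype.ext
      rw [coe_P5_of_mem hE hΔE hζ hF1, coe_P5_of_mem hE hΔE hζ hF0]
      exact hP)
    (by
      apply Subtype.ext
      rw [coe_Q5_of_mem hE hΔE hζ hF1, coe_Q5_of_mem hE hΔE hζ hF0]
      exact hQ)
  refine ⟨k, hk5, fun i => ?_⟩
  have := congrFun hk i
  rw [gZ_pow_smul hζ k w0 i] at this
  exact this.symm

end Fermat.Agent.G35.Sym.I3
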