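/-
GATE-Q (S52): the transitivity hypothesis `htrans` of helper60's `Q4Family.exists_rational_family`,
UNCONDITIONALLY: over any field `L` of characteristic zero containing a root `ζ` of the 5th
cyclotomic polynomial, `formStab L` (indeed `closure {gS, gT, gZ}`) is transitive on every Klein
fibre `fibreVec c t` with `c ≠ 0`, `t ≠ 0`, `c³ ≠ t²`.
(Instance of `Sym.klein_transitive` at the curve `y² = x³ - 27 c x + 54 t`.)
-/
import Fermat.Agent.G35.Sym.KleinSymInst

set_option autoImplicit false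

namespace Fermat.Agent.G35.Sym

open WeierstrassCurve Matrix
open Fermat.Agent.G35.Free Fermat.Agent.G35.Cocycle Fermat.Agent.G35.KleinTrans

variable {L : Type*} [Field L] [CharZero L]

/-- The fibre curve `y² = x³ - 27 c x + 54 t`. -/
def fibreCurve (c t : L) : WeierstrassCurve L := ⟨0, 0, 0, -27 * c, 54 * t⟩

theorem fibreCurve_isShort (c t : L) : IsShort (fibreCurve c t) := ⟨rfl, rfl, rfl⟩

/-- **Transitivity of `closure {gS, gT, gZ}` on the Klein fibres** (no binder). -/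
theorem klein_closure_transitive {c t ζ : L} (hc : c ≠ 0) (ht : t ≠ 0) (hct : c ^ 3 ≠ t ^ 2)
    (hζ : ζ ^ 4 + ζ ^ 3 + ζ ^ 2 + ζ + 1 = 0) :
    ∀ w₀ ∈ fibreVec c t, ∀ w ∈ fibreVec c t,
      ∃ γ ∈ Subgroup.closure (kleinGens hζ), γ • w₀ = w := by
  classical
  intro w₀ hw₀ w hw
  letI : Module (ZMod 5) (Tors5 (fibreCurve c t)) :=
    AddCommGroup.zmodModule fun x => by
      rw [← Nat.cast_smul_eq_nsmul ℤ 5 x]
      exact Submodule.smul_torsionBy _ x
  exact klein_transitive (E := fibreCurve c t) (fibreCurve_isShort c t) rfl rfl hct hζ hc ht hw₀ w hw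

/-- **The `htrans` binder of `Q4Family.exists_rational_family`**, unconditionally. -/
theorem klein_htrans_final {c t ζ : L} (hc : c ≠ 0) (ht : t ≠ 0) (hct : c ^ 3 ≠ t ^ 2)
    (hζ : ζ ^ 4 + ζ ^ 3 + ζ ^ 2 + ζ + 1 = 0) :
    ∀ w₀ ∈ fibreVec c t, ∀ w ∈ fibreVec c t,
      ∃ M ∈ formStab L, (M : Matrix (Fin 2) (Fin 2) L) *ᵥ w₀ = w := by
  intro w₀ hw₀ w hw
  obtain ⟨γ, hγ, hγw⟩ := klein_closure_transitive hc ht hct hζ w₀ hw₀ w hw
  exact ⟨γ, closure_kleinGens_le hζ hγ, hγw⟩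

end Fermat.Agent.G35.Sym
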