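/-
GATE-Q (S52), clause (I4) of the descent contract T1 (helper23 4123 D3), as ONE standalone theorem,
binder-free (helper43): for `w0` in the Klein fibre over a RATIONAL point `(c, t)`
(`c ≠ 0`, `t ≠ 0`, `c³ ≠ t²`), `ρ ζ = ζ` and `ρ w0 = w0` imply `ρ (σ w0) = σ w0` for every `σ`
(normality of `ℚ(ζ, w0)/ℚ`).

Proof: `σ w0` is again in the fibre, hence `σ w0 = γ • w0` with `γ ∈ closure {gS, gT, gZ}`
(`klein_closure_transitive`), and `γ` has entries in `ℚ(ζ)` (`KleinClosure.galois_fix_of_fix`).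

Also: `formStab L = closure {gS, gT, gZ}` with no labelling binder.
-/
import Fermat.Agent.G35.Sym.HTrans
import Fermat.Agent.G35.KleinClosure

set_option autoImplicit false

namespace Fermat.Agent.G35.Sym.I4

open Matrix Fermat.Agent.G35.Sym
open Fermat.Agent.G35.Free Fermat.Agent.G35.Cocycle Fermat.Agent.G35.KleinTrans

section General

variable {L : Type*} [Field L] [CharZero L]

/-- **`formStab L = closure {gS, gT, gZ}`**, with no labelling binder (one fibre point suffices). -/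
theorem formStab_eq_closure_final {c t ζ : L} (hc : c ≠ 0) (ht : t ≠ 0) (hct : c ^ 3 ≠ t ^ 2)
    (hζ : ζ ^ 4 + ζ ^ 3 + ζ ^ 2 + ζ + 1 = 0) {w₀ : Fin 2 → L} (hw₀ : w₀ ∈ fibreVec c t) :
    formStab L = Subgroup.closure (kleinGens hζ) := by
  refine le_antisymm (fun M hM => ?_) (closure_kleinGens_le hζ)
  have hMw : (M : Matrix (Fin 2) (Fin 2) L) *ᵥ w₀ ∈ fibreVec c t :=
    (smul_mem_fibreVec_iff hM c t w₀).2 hw₀
  obtain ⟨γ, hγ, hγw⟩ := klein_closure_transitive hc ht hct hζ w₀ hw₀ _ hMw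
  have hfix := mulVec_eq_of_mulVec_eq (M := M) (N := γ) (w := w₀) hγw.symm
  have hmem : γ⁻¹ * M ∈ formStab L :=
    (formStab L).mul_mem ((formStab L).inv_mem (closure_kleinGens_le hζ hγ)) hM
  have h1 : γ⁻¹ * M = 1 :=
    formStab_free hmem
      (Fermat.Agent.G35.KleinClosure.f12_ne_zero_of_mem_fibreVec hζ hct hw₀) hfix
  have : M = γ := by
    have := congrArg (fun x => γ * x) h1
    simpa using this
  rw [this]
  exact hγ

/-- **(I4), general field form**: `K ⊆ L`, `(c, t)` fixed by `σ`, `w0` in the fibre, `ρ ζ = ζ`,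
`ρ w0 = w0` ⟹ `ρ (σ w0) = σ w0`. -/
theorem galois_fix_conj {K : Type*} [Field K] [Algebra K L] {c t ζ : L} (hc : c ≠ 0) (ht : t ≠ 0)
    (hct : c ^ 3 ≠ t ^ 2) (hζ : ζ ^ 4 + ζ ^ 3 + ζ ^ 2 + ζ + 1 = 0) {w0 : Fin 2 → L}
    (hw0 : w0 ∈ fibreVec c t) (σ ρ : L ≃ₐ[K] L) (hσc : σ c = c) (hσt : σ t = t)
    (hρ : ρ ζ = ζ) (hfix : ∀ i, ρ (w0 i) = w0 i) (i : Fin 2) :
    ρ (σ (w0 i)) = σ (w0 i) := by
  have hσw : (fun j => σ (w0 j)) ∈ fibreVec c t := by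
    obtain ⟨h4, h6⟩ := hw0
    refine ⟨?_, ?_⟩
    · have := congrArg σ h4
      rw [hσc] at this
      rw [← this]
      simp only [c4, map_add, map_sub, map_mul, map_pow, map_ofNat]
    · have := congrArg σ h6
      rw [hσt] at this
      rw [← this]
      simp only [T6, map_add, map_sub, map_mul, map_pow, map_ofNat]
  obtain ⟨γ, hγ, hγw⟩ := klein_closure_transitive hc ht hct hζ w0 hw0 _ hσw
  have h := Fermat.Agent.G35.KleinClosure.galois_fix_of_fix hζ ρ hρ hγ hfix i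
  have e : ((γ : Matrix (Fin 2) (Fin 2) L) *ᵥ w0) = fun j => σ (w0 j) := hγw
  rw [e] at h
  exact h

end General

local notation "Qb" => AlgebraicClosure ℚ
local notation "GQ" => (AlgebraicClosure ℚ ≃ₐ[ℚ] AlgebraicClosure ℚ)

/-- **Clause (I4) of T1**, for the fibre of an integral curve `W`. -/
theorem klein_I4 (W : WeierstrassCurve ℤ) (hΔ : W.Δ ≠ 0) (hc4 : W.c₄ ≠ 0) (hc6 : W.c₆ ≠ 0)
    {ζ : Qb} (hζ : ζ ^ 4 + ζ ^ 3 + ζ ^ 2 + ζ + 1 = 0) {w0 : Fin 2 → Qb}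
    (h4 : c4 (w0 0) (w0 1) = ((W.c₄ : ℤ) : Qb)) (h6 : T6 (w0 0) (w0 1) = -((W.c₆ : ℤ) : Qb))
    (ρ σ : GQ) (hρ : ρ ζ = ζ) (hfix : ∀ i, ρ (w0 i) = w0 i) (i : Fin 2) :
    ρ (σ (w0 i)) = σ (w0 i) := by
  have hct : (((W.c₄ : ℤ) : Qb)) ^ 3 ≠ (-((W.c₆ : ℤ) : Qb)) ^ 2 := by
    have h := W.c_relation
    have hQ : (((W.c₄ : ℤ) : Qb)) ^ 3 - (((W.c₆ : ℤ) : Qb)) ^ 2 = 1728 * ((W.Δ : ℤ) : Qb) := by
      have := congrArg (fun n : ℤ => (n : Qb)) h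
      simp only [Int.cast_mul, Int.cast_sub, Int.cast_pow, Int.cast_ofNat] at this
      linear_combination -this
    intro h0
    apply hΔ
    have h1 : (1728 : Qb) * ((W.Δ : ℤ) : Qb) = 0 := by rw [← hQ, h0]; ring
    rcases mul_eq_zero.mp h1 with h3 | h3
    · norm_num at h3
    · exact_mod_cast h3
  have hc : ((W.c₄ : ℤ) : Qb) ≠ 0 := by exact_mod_cast hc4
  have ht : (-((W.c₆ : ℤ) : Qb)) ≠ 0 := by
    rw [neg_ne_zero]; exact_mod_cast hc6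
  exact galois_fix_conj (K := ℚ) hc ht hct hζ ⟨h4, h6⟩ σ ρ (map_intCast σ _)
    (by rw [map_neg, map_intCast]) hρ hfix i

/-- rational-point version (fibre over `(c₀, t₀) ∈ ℚ²`, the shape of `Q4Family`). -/
theorem klein_I4_rat (c₀ t₀ : ℚ) (hc : c₀ ≠ 0) (ht : t₀ ≠ 0) (hct : c₀ ^ 3 ≠ t₀ ^ 2)
    {ζ : Qb} (hζ : ζ ^ 4 + ζ ^ 3 + ζ ^ 2 + ζ + 1 = 0) {w0 : Fin 2 → Qb}
    (hw0 : w0 ∈ fibreVec (algebraMap ℚ Qb c₀) (algebraMap ℚ Qb t₀))
    (ρ σ : GQ) (hρ : ρ ζ = ζ) (hfix : ∀ i, ρ (w0 i) = w0 i) (i : Fin 2) :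
    ρ (σ (w0 i)) = σ (w0 i) := by
  have hinj : Function.Injective (algebraMap ℚ Qb) := (algebraMap ℚ Qb).injective
  have hc' : algebraMap ℚ Qb c₀ ≠ 0 := by
    rw [Ne, map_eq_zero_iff _ hinj]; exact hc
  have ht' : algebraMap ℚ Qb t₀ ≠ 0 := by
    rw [Ne, map_eq_zero_iff _ hinj]; exact ht
  have hct' : (algebraMap ℚ Qb c₀) ^ 3 ≠ (algebraMap ℚ Qb t₀) ^ 2 := by
    rw [← map_pow, ← map_pow]
    exact fun h => hct (hinj h)
  exact galois_fix_conj (K := ℚ) hc' ht' hct' hζ hw0 σ ρ (σ.commutes c₀) (σ.commutes t₀) hρ hfix i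

end Fermat.Agent.G35.Sym.I4
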