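/-
GATE-Q (S52): helper60's `Q4Family.exists_rational_family` with its ONLY binder `htrans` discharged
(`Sym.klein_htrans_final`): node Q4, first half, UNCONDITIONAL.
-/
import Fermat.Agent.G35.Sym.HTrans
import Fermat.Agent.G35.Q4Family

set_option autoImplicit false

namespace Fermat.Agent.G35.Sym

open Polynomial Matrix
open Fermat.Agent.G35.Free Fermat.Agent.G35.Cocycle

/-- An algebraically closed field contains a root of the 5th cyclotomic polynomial. -/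
theorem exists_cyclo_root (L : Type*) [Field L] [IsAlgClosed L] :
    ∃ ζ : L, ζ ^ 4 + ζ ^ 3 + ζ ^ 2 + ζ + 1 = 0 := by
  have hdeg : (X ^ 4 + X ^ 3 + X ^ 2 + X + 1 : L[X]).degree = 4 := by compute_degree!
  obtain ⟨ζ, hζ⟩ := IsAlgClosed.exists_root (X ^ 4 + X ^ 3 + X ^ 2 + X + 1 : L[X])
    (by rw [hdeg]; norm_num)
  refine ⟨ζ, ?_⟩
  simpa [IsRoot] using hζ

/-- **Node Q4, first half, unconditional**: `Q4Family.exists_rational_family` without `htrans`. -/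
theorem exists_rational_family_final (c₀ t₀ : ℚ) (hc : c₀ ≠ 0) (ht : t₀ ≠ 0)
    (hct : c₀ ^ 3 ≠ t₀ ^ 2) :
    ∃ (w₀ w₁ : Fin 2 → AlgebraicClosure ℚ)
      (A : (AlgebraicClosure ℚ ≃ₐ[ℚ] AlgebraicClosure ℚ) → GL (Fin 2) (AlgebraicClosure ℚ))
      (ι : (Fin 2 → ℚ) →ₗ[ℚ] (Fin 2 → AlgebraicClosure ℚ)) (f4 f6 : ℚ[X]),
      w₀ ∈ fibreVec (algebraMap ℚ (AlgebraicClosure ℚ) c₀)
        (algebraMap ℚ (AlgebraicClosure ℚ) t₀) ∧
      (∀ σ, A σ ∈ formStab (AlgebraicClosure ℚ)) ∧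
      (∀ σ τ : AlgebraicClosure ℚ ≃ₐ[ℚ] AlgebraicClosure ℚ,
        (A (σ * τ) : Matrix (Fin 2) (Fin 2) (AlgebraicClosure ℚ)) =
          (A τ : Matrix (Fin 2) (Fin 2) (AlgebraicClosure ℚ)).map σ *
            (A σ : Matrix (Fin 2) (Fin 2) (AlgebraicClosure ℚ))) ∧
      (∀ ρ : AlgebraicClosure ℚ ≃ₐ[ℚ] AlgebraicClosure ℚ, (∀ i, ρ (w₀ i) = w₀ i) → A ρ = 1) ∧
      Function.Injective ι ∧ ι ![1, 0] = w₀ ∧ ι ![0, 1] = w₁ ∧
      (∀ (σ : AlgebraicClosure ℚ ≃ₐ[ℚ] AlgebraicClosure ℚ) (v : Fin 2 → ℚ),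
        (fun i => σ (ι v i)) = (A σ : Matrix (Fin 2) (Fin 2) (AlgebraicClosure ℚ)) *ᵥ ι v) ∧
      LinearIndependent (AlgebraicClosure ℚ) ![w₀, w₁] ∧
      (∀ t : ℚ, algebraMap ℚ (AlgebraicClosure ℚ) (f4.eval t)
        = c4 (w₀ 0 + w₁ 0 * algebraMap ℚ (AlgebraicClosure ℚ) t)
            (w₀ 1 + w₁ 1 * algebraMap ℚ (AlgebraicClosure ℚ) t)) ∧
      (∀ t : ℚ, algebraMap ℚ (AlgebraicClosure ℚ) (f6.eval t)
        = -T6 (w₀ 0 + w₁ 0 * algebraMap ℚ (AlgebraicClosure ℚ) t)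
            (w₀ 1 + w₁ 1 * algebraMap ℚ (AlgebraicClosure ℚ) t)) ∧
      f4.eval 0 = c₀ ∧ f6.eval 0 = -t₀ ∧ IsCoprime f4 f6 := by
  obtain ⟨ζ, hζ⟩ := exists_cyclo_root (AlgebraicClosure ℚ)
  have hinj : Function.Injective (algebraMap ℚ (AlgebraicClosure ℚ)) :=
    (algebraMap ℚ (AlgebraicClosure ℚ)).injective
  have hc' : algebraMap ℚ (AlgebraicClosure ℚ) c₀ ≠ 0 := by
    rw [Ne, map_eq_zero_iff _ hinj]; exact hc
  have ht' : algebraMap ℚ (AlgebraicClosure ℚ) t₀ ≠ 0 := by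
    rw [Ne, map_eq_zero_iff _ hinj]; exact ht
  have hct' : (algebraMap ℚ (AlgebraicClosure ℚ) c₀) ^ 3
      ≠ (algebraMap ℚ (AlgebraicClosure ℚ) t₀) ^ 2 := by
    rw [← map_pow, ← map_pow]
    exact fun h => hct (hinj h)
  exact Fermat.Agent.G35.Q4Family.exists_rational_family c₀ t₀ hc ht hct
    (klein_htrans_final hc' ht' hct' hζ)

end Fermat.Agent.G35.Sym
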