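/-
GATE-Q / S52 node Q2(d), part (ii) (helper3): abstract "basis of the 5-torsion" lemmas, Mathlib-only.

* `zsmul_eq_zero_iff_five_dvd` : for `P ≠ 0`, `5 • P = 0`:  `a • P = 0 ↔ 5 ∣ a`.
* `five_dvd_of_zsmul_add_zsmul_eq_zero` : INDEPENDENCE — `P ≠ 0`, `5 • P = 0 = 5 • Q`,
  `Q ∉ zmultiples P`, `a • P + b • Q = 0` ⟹ `5 ∣ a ∧ 5 ∣ b`.
* `exists_zsmul_add_zsmul_of_card` : SPANNING — if moreover `Nat.card {R // 5 • R = 0} = 25`,
  every `R` with `5 • R = 0` is `a • P + b • Q` (`a b : ℤ`; also `exists_fin_coords` with `Fin 5`).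
* `coordEquiv` : the bijection `Fin 5 × Fin 5 ≃ {R // 5 • R = 0}`.
* `not_mem_zmultiples_of_x_ne` : for Weierstrass points, `P = (x,y)` of order dividing 5,
  `2 • P = (x2,y2)`, `Q = (x',y')` with `x' ≠ x`, `x' ≠ x2` ⟹ `Q ∉ zmultiples P`.
-/
import Mathlib

namespace Fermat.Agent.G35.BasisAbs

section group

variable {A : Type*} [AddCommGroup A]

theorem zsmul_eq_zero_iff_five_dvd {P : A} (hP : (5 : ℕ) • P = 0) (hP0 : P ≠ 0) (a : ℤ) :
    a • P = 0 ↔ (5 : ℤ) ∣ a := by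
  have : Fact (Nat.Prime 5) := ⟨by norm_num⟩
  have hord : addOrderOf P = 5 := addOrderOf_eq_prime hP hP0
  rw [← addOrderOf_dvd_iff_zsmul_eq_zero, hord]
  norm_cast

/-- INDEPENDENCE of `P`, `Q` modulo `5`. -/
theorem five_dvd_of_zsmul_add_zsmul_eq_zero {P Q : A} (hP : (5 : ℕ) • P = 0)
    (hQ5 : (5 : ℕ) • Q = 0) (hP0 : P ≠ 0) (hQ : Q ∉ AddSubgroup.zmultiples P) {a b : ℤ}
    (h : a • P + b • Q = 0) : (5 : ℤ) ∣ a ∧ (5 : ℤ) ∣ b := by
  have hQ5' : (5 : ℤ) • Q = 0 := by exact_mod_cast hQ5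
  have hb : (5 : ℤ) ∣ b := by
    by_contra hb
    have hcop : IsCoprime b 5 := by
      have h5 : Prime (5 : ℤ) := by norm_num
      exact (h5.coprime_iff_not_dvd.mpr hb).symm
    obtain ⟨c, k, hck⟩ := hcop
    apply hQ
    rw [AddSubgroup.mem_zmultiples_iff]
    refine ⟨-(c * a), ?_⟩
    have hbQ : b • Q = -(a • P) := eq_neg_of_add_eq_zero_right h
    calc (-(c * a)) • P = c • (-(a • P)) := by
            rw [neg_smul, mul_smul, smul_neg]
      _ = c • (b • Q) := by rw [hbQ]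
      _ = (c * b) • Q + k • ((5 : ℤ) • Q) := by rw [hQ5', smul_zero, add_zero, mul_smul]
      _ = (c * b + k * 5) • Q := by rw [add_smul, mul_smul k 5 Q]
      _ = Q := by rw [hck, one_smul]
  refine ⟨?_, hb⟩
  obtain ⟨b', rfl⟩ := hb
  have hz : ((5 : ℤ) * b') • Q = 0 := by
    rw [mul_comm, mul_smul, hQ5', smul_zero]
  rw [hz, add_zero] at h
  exact (zsmul_eq_zero_iff_five_dvd hP hP0 a).mp h

/-- the coordinate map `Fin 5 × Fin 5 → A[5]`. -/
def coordMap {P Q : A} (hP : (5 : ℕ) • P = 0) (hQ5 : (5 : ℕ) • Q = 0) :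
    Fin 5 × Fin 5 → {R : A // (5 : ℕ) • R = 0} :=
  fun ij => ⟨(ij.1 : ℕ) • P + (ij.2 : ℕ) • Q, by
    rw [smul_add, smul_comm, hP, smul_comm (5 : ℕ), hQ5, smul_zero, smul_zero, add_zero]⟩

theorem coordMap_injective {P Q : A} (hP : (5 : ℕ) • P = 0) (hQ5 : (5 : ℕ) • Q = 0)
    (hP0 : P ≠ 0) (hQ : Q ∉ AddSubgroup.zmultiples P) :
    Function.Injective (coordMap hP hQ5) := by
  rintro ⟨i, j⟩ ⟨i', j'⟩ h
  have h1 : (i : ℕ) • P + (j : ℕ) • Q = (i' : ℕ) • P + (j' : ℕ) • Q := congrArg Subtype.val h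
  have h2 : (((i : ℕ) : ℤ) - ((i' : ℕ) : ℤ)) • P + (((j : ℕ) : ℤ) - ((j' : ℕ) : ℤ)) • Q = 0 := by
    rw [sub_smul, sub_smul, natCast_zsmul, natCast_zsmul, natCast_zsmul, natCast_zsmul]
    have : (i : ℕ) • P - (i' : ℕ) • P + ((j : ℕ) • Q - (j' : ℕ) • Q)
        = ((i : ℕ) • P + (j : ℕ) • Q) - ((i' : ℕ) • P + (j' : ℕ) • Q) := by abel
    rw [this, h1, sub_self]
  obtain ⟨ha, hb⟩ := five_dvd_of_zsmul_add_zsmul_eq_zero hP hQ5 hP0 hQ h2
  have hi := i.isLt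
  have hi' := i'.isLt
  have hj := j.isLt
  have hj' := j'.isLt
  have e1 : (i : ℕ) = (i' : ℕ) := by omega
  have e2 : (j : ℕ) = (j' : ℕ) := by omega
  exact Prod.ext (Fin.ext e1) (Fin.ext e2)

theorem coordMap_bijective {P Q : A} (hcard : Nat.card {R : A // (5 : ℕ) • R = 0} = 25)
    (hP : (5 : ℕ) • P = 0) (hQ5 : (5 : ℕ) • Q = 0)
    (hP0 : P ≠ 0) (hQ : Q ∉ AddSubgroup.zmultiples P) :
    Function.Bijective (coordMap hP hQ5) := by
  have : Finite {R : A // (5 : ℕ) • R = 0} :=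
    Nat.finite_of_card_ne_zero (by rw [hcard]; norm_num)
  apply (coordMap_injective hP hQ5 hP0 hQ).bijective_of_nat_card_le
  rw [hcard, Nat.card_eq_fintype_card, Fintype.card_prod, Fintype.card_fin]

/-- the bijection `Fin 5 × Fin 5 ≃ A[5]`, `(i,j) ↦ i • P + j • Q`. -/
noncomputable def coordEquiv {P Q : A} (hcard : Nat.card {R : A // (5 : ℕ) • R = 0} = 25)
    (hP : (5 : ℕ) • P = 0) (hQ5 : (5 : ℕ) • Q = 0)
    (hP0 : P ≠ 0) (hQ : Q ∉ AddSubgroup.zmultiples P) :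
    Fin 5 × Fin 5 ≃ {R : A // (5 : ℕ) • R = 0} :=
  Equiv.ofBijective _ (coordMap_bijective hcard hP hQ5 hP0 hQ)

/-- SPANNING, `Fin 5` coordinates. -/
theorem exists_fin_coords {P Q : A} (hcard : Nat.card {R : A // (5 : ℕ) • R = 0} = 25)
    (hP : (5 : ℕ) • P = 0) (hQ5 : (5 : ℕ) • Q = 0)
    (hP0 : P ≠ 0) (hQ : Q ∉ AddSubgroup.zmultiples P) {R : A} (hR : (5 : ℕ) • R = 0) :
    ∃ i j : Fin 5, R = (i : ℕ) • P + (j : ℕ) • Q := by
  obtain ⟨⟨i, j⟩, hij⟩ := (coordMap_bijective hcard hP hQ5 hP0 hQ).2 ⟨R, hR⟩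
  exact ⟨i, j, (congrArg Subtype.val hij).symm⟩

/-- SPANNING, integer coordinates. -/
theorem exists_zsmul_add_zsmul_of_card {P Q : A}
    (hcard : Nat.card {R : A // (5 : ℕ) • R = 0} = 25)
    (hP : (5 : ℕ) • P = 0) (hQ5 : (5 : ℕ) • Q = 0)
    (hP0 : P ≠ 0) (hQ : Q ∉ AddSubgroup.zmultiples P) {R : A} (hR : (5 : ℕ) • R = 0) :
    ∃ a b : ℤ, R = a • P + b • Q := by
  obtain ⟨i, j, h⟩ := exists_fin_coords hcard hP hQ5 hP0 hQ hR
  exact ⟨((i : ℕ) : ℤ), ((j : ℕ) : ℤ), by rw [natCast_zsmul, natCast_zsmul]; exact h⟩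

/-- UNIQUENESS of integer coordinates modulo `5`. -/
theorem coords_unique {P Q : A} (hP : (5 : ℕ) • P = 0) (hQ5 : (5 : ℕ) • Q = 0)
    (hP0 : P ≠ 0) (hQ : Q ∉ AddSubgroup.zmultiples P) {a b a' b' : ℤ}
    (h : a • P + b • Q = a' • P + b' • Q) : (5 : ℤ) ∣ a - a' ∧ (5 : ℤ) ∣ b - b' := by
  apply five_dvd_of_zsmul_add_zsmul_eq_zero hP hQ5 hP0 hQ
  rw [sub_smul, sub_smul]
  have : a • P - a' • P + (b • Q - b' • Q) = (a • P + b • Q) - (a' • P + b' • Q) := by abel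
  rw [this, h, sub_self]

end group

section point

open WeierstrassCurve.Affine

variable {F : Type*} [Field F] [DecidableEq F] {W : WeierstrassCurve.Affine F}

/-- `Q = (x',y') ∉ ⟨P⟩` when `P = (x,y)` has `5 • P = 0`, `2 • P = (x2,y2)`, `x' ≠ x`, `x' ≠ x2`. -/
theorem not_mem_zmultiples_of_x_ne {x y x2 y2 x' y' : F} (h : W.Nonsingular x y)
    (h2 : W.Nonsingular x2 y2) (h' : W.Nonsingular x' y')
    (h5 : (5 : ℕ) • (Point.some x y h) = 0)
    (hd : (2 : ℕ) • (Point.some x y h) = Point.some x2 y2 h2)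
    (hx : x' ≠ x) (hx2 : x' ≠ x2) :
    Point.some x' y' h' ∉ AddSubgroup.zmultiples (Point.some x y h) := by
  set P : W.Point := Point.some x y h with hPdef
  rw [AddSubgroup.mem_zmultiples_iff]
  rintro ⟨k, hk⟩
  have h5' : (5 : ℤ) • P = 0 := by exact_mod_cast h5
  have hd' : (2 : ℤ) • P = Point.some x2 y2 h2 := by exact_mod_cast hd
  -- reduce `k` modulo 5
  have hkr : k • P = (k % 5) • P := by
    conv_lhs => rw [← Int.emod_add_mul_ediv k 5]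
    rw [add_smul, mul_comm (5 : ℤ) (k / 5), mul_smul, h5', smul_zero, add_zero]
  have hr0 : 0 ≤ k % 5 := Int.emod_nonneg k (by norm_num)
  have hr5 : k % 5 < 5 := Int.emod_lt_of_pos k (by norm_num)
  rw [hkr] at hk
  have h3 : (3 : ℤ) • P = -((2 : ℤ) • P) := by
    rw [eq_neg_iff_add_eq_zero, ← add_smul]; exact h5'
  have h4 : (4 : ℤ) • P = -P := by
    rw [eq_neg_iff_add_eq_zero]
    have : (4 : ℤ) • P + P = (5 : ℤ) • P := by
      have : (5 : ℤ) = 4 + 1 := by norm_num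
      rw [this, add_smul, one_smul]
    rw [this]; exact h5'
  interval_cases hr : k % 5
  · rw [zero_smul] at hk
    exact Point.some_ne_zero _ hk.symm
  · rw [one_smul, hPdef] at hk
    have := (Point.some.injEq ..).mp hk
    exact hx this.1.symm
  · rw [hd'] at hk
    have := (Point.some.injEq ..).mp hk
    exact hx2 this.1.symm
  · rw [h3, hd', Point.neg_some] at hk
    have := (Point.some.injEq ..).mp hk
    exact hx2 this.1.symm
  · rw [h4, hPdef, Point.neg_some] at hk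
    have := (Point.some.injEq ..).mp hk
    exact hx this.1.symm

end point

end Fermat.Agent.G35.BasisAbs
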