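/-
GATE-Q / S52 node Q2(d), part (i) (helper3): the `x`-coordinate of `Q0 = P0 ∘ S` differs from the
`x`-coordinates of `±P0` and of `±2•P0` as soon as `kf u v ≠ 0`.

With `s = √5 = sq5 ζ = ks ζ`, `τ = ζ + ζ^4`, `S (u,v) = (t * Su ζ u v, t * Sv ζ u v)`, `t^2 * 5 = 1`:

* `kx0_S_sub`  : `x0(S w) - x0(w)      = -(36/5) * xdP τ u v`   (`x0(w) = kx0 s (u^5) (v^5)`),
* `kx0_S_sub'` : `x0(S w) - x0^σ(w)    = -(36/5) * xdM τ u v`   (`x0^σ(w) = kx0 (-s) (u^5) (v^5)`,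
  the `x`-coordinate of `2 • P0`, helper21 `Klein/Double.lean`),
* `xdP_mul_xgP`, `xdM_mul_xgM` : `xdP * xgP = 5 * kf^2`, `xdM * xgM = 5 * kf^2` (golden ring),
* `kx0_S_ne`, `kx0_S_ne'` : the two inequalities when `kf u v ≠ 0`.
Certificates by exact arithmetic in `ℚ(√5)[u]` (polynomial division of `f^2`).
-/
import Fermat.Agent.G35.Sym.KleinInv
import Fermat.Agent.G35.Klein.Section

namespace Fermat.Agent.G35.XDiff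

open Fermat.Agent.G35.KleinInv

section golden

variable {R : Type*} [CommRing R]

/-- `x0 ∘ S - x0 = -(36/5) * xdP`. -/
def xdP (τ u v : R) : R :=
  -2*v^10 - 5*u^2*v^8 - 5*u^3*v^7 - 10*u^4*v^6 + 7*u^5*v^5 - 25*u^6*v^4 + 15*u^7*v^3 - 10*u^8*v^2
    + 5*u^9*v - 3*u^10 + τ*v^10 - 11*τ*u^5*v^5 - τ*u^10

/-- cofactor: `xdP * xgP = 5 * kf^2`. -/
def xgP (τ u v : R) : R :=
  -3*u^2*v^12 + 10*u^4*v^10 + 10*u^5*v^9 - 15*u^6*v^8 - 7*u^7*v^7 - 5*u^9*v^5 - 5*u^10*v^4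
    - 5*u^11*v^3 - 2*u^12*v^2 - τ*u^2*v^12 + 5*τ*u^4*v^10 + 5*τ*u^5*v^9 - 10*τ*u^6*v^8
    - 14*τ*u^7*v^7 + 10*τ*u^9*v^5 + 10*τ*u^10*v^4 + 5*τ*u^11*v^3 + τ*u^12*v^2

/-- `x0 ∘ S - x0^σ = -(36/5) * xdM`. -/
def xdM (τ u v : R) : R :=
  -3*v^10 - 5*u^2*v^8 - 5*u^3*v^7 - 10*u^4*v^6 + 18*u^5*v^5 - 25*u^6*v^4 + 15*u^7*v^3 - 10*u^8*v^2
    + 5*u^9*v - 2*u^10 - τ*v^10 + 11*τ*u^5*v^5 + τ*u^10

/-- cofactor: `xdM * xgM = 5 * kf^2`. -/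
def xgM (τ u v : R) : R :=
  -2*u^2*v^12 + 5*u^4*v^10 + 5*u^5*v^9 - 5*u^6*v^8 + 7*u^7*v^7 - 15*u^9*v^5 - 15*u^10*v^4
    - 10*u^11*v^3 - 3*u^12*v^2 + τ*u^2*v^12 - 5*τ*u^4*v^10 - 5*τ*u^5*v^9 + 10*τ*u^6*v^8
    + 14*τ*u^7*v^7 - 10*τ*u^9*v^5 - 10*τ*u^10*v^4 - 5*τ*u^11*v^3 - τ*u^12*v^2

theorem xdP_mul_xgP {τ : R} (hτ : τ^2 + τ - 1 = 0) (u v : R) :
    xdP τ u v * xgP τ u v = 5 * (kf u v)^2 := by
  unfold xdP xgP kf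
  linear_combination
    (-u^2*v^22 + 5*u^4*v^20 + 5*u^5*v^19 - 10*u^6*v^18 - 3*u^7*v^17 - 45*u^9*v^15 - 45*u^10*v^14
      + 115*u^11*v^13 + 156*u^12*v^12 - 115*u^14*v^10 - 115*u^15*v^9 - 45*u^16*v^8 + 3*u^17*v^7
      - 10*u^19*v^5 - 10*u^20*v^4 - 5*u^21*v^3 - u^22*v^2) * hτ

theorem xdM_mul_xgM {τ : R} (hτ : τ^2 + τ - 1 = 0) (u v : R) :
    xdM τ u v * xgM τ u v = 5 * (kf u v)^2 := by
  unfold xdM xgM kf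
  linear_combination
    (-u^2*v^22 + 5*u^4*v^20 + 5*u^5*v^19 - 10*u^6*v^18 - 3*u^7*v^17 - 45*u^9*v^15 - 45*u^10*v^14
      + 115*u^11*v^13 + 156*u^12*v^12 - 115*u^14*v^10 - 115*u^15*v^9 - 45*u^16*v^8 + 3*u^17*v^7
      - 10*u^19*v^5 - 10*u^20*v^4 - 5*u^21*v^3 - u^22*v^2) * hτ

end golden

section field

variable {K : Type*} [Field K] [CharZero K]

omit [CharZero K] in
theorem ks_eq_sq5 (ζ : K) : Klein.Section.ks ζ = sq5 ζ := rfl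

theorem kx0_eq (s U V : K) :
    Klein.kx0 s U V
      = -((15 + 18 / 5 * s) * U ^ 2 + (198 / 5 * s) * (U * V) + (15 - 18 / 5 * s) * V ^ 2) := by
  unfold Klein.kx0; ring

variable {ζ : K} (hζ : ζ^4 + ζ^3 + ζ^2 + ζ + 1 = 0) {t : K} (ht : t^2 * 5 = 1)
include hζ ht

omit hζ in
theorem t_pow10 : t^10 = 1 / 3125 := by
  have h2 : t^2 = 1 / 5 := by
    rw [eq_div_iff (by norm_num : (5 : K) ≠ 0)]; exact ht
  have : t^10 = (t^2)^5 := by ring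
  rw [this, h2]; norm_num

theorem S_UU (u v : K) :
    ((t * Su ζ u v)^5)^2 = 1 / 3125 * (gX0 u v + (ζ + ζ^4) * gX1 u v) := by
  have h : ((t * Su ζ u v)^5)^2 = t^10 * ((Su ζ u v)^5)^2 := by ring
  rw [h, Su_pow5_sq hζ, gq1_pow5 (tau_rel hζ), t_pow10 ht]

theorem S_VV (u v : K) :
    ((t * Sv ζ u v)^5)^2 = 1 / 3125 * (gY0 u v + (ζ + ζ^4) * gY1 u v) := by
  have h : ((t * Sv ζ u v)^5)^2 = t^10 * ((Sv ζ u v)^5)^2 := by ring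
  rw [h, Sv_pow5_sq hζ, gq2_pow5 (tau_rel hζ), t_pow10 ht]

theorem S_UV (u v : K) :
    (t * Su ζ u v)^5 * (t * Sv ζ u v)^5
      = 1 / 3125 * ((25 + 50 * (ζ + ζ^4)) * (u^2 + u*v - v^2)^5) := by
  have h : (t * Su ζ u v)^5 * (t * Sv ζ u v)^5 = t^10 * ((Su ζ u v)^5 * (Sv ζ u v)^5) := by ring
  rw [h, Su_pow5_mul_Sv_pow5 hζ, gq3_pow5 (tau_rel hζ), t_pow10 ht]

/-- `x0(S w) - x0(w) = -(36/5) * xdP`. -/
theorem kx0_S_sub (u v : K) :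
    Klein.kx0 (sq5 ζ) ((t * Su ζ u v)^5) ((t * Sv ζ u v)^5) - Klein.kx0 (sq5 ζ) (u^5) (v^5)
      = -(36 / 5) * xdP (ζ + ζ^4) u v := by
  rw [kx0_eq, kx0_eq, S_UU hζ ht, S_VV hζ ht, S_UV hζ ht]
  have hτ := tau_rel hζ
  unfold sq5 xdP gX0 gX1 gY0 gY1
  generalize ζ + ζ^4 = τ at hτ ⊢
  linear_combination
    (1 / 15625 : K) * (-225000*u*v^9 - 225000*u^2*v^8 - 450000*u^3*v^7 - 675000*u^4*v^6 - 1125000*u^5*v^5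
      + 675000*u^6*v^4 - 450000*u^7*v^3 + 225000*u^8*v^2 - 225000*u^9*v) * hτ

/-- `x0(S w) - x0^σ(w) = -(36/5) * xdM`, where `x0^σ = kx0 (-√5)` is the `x`-coordinate of `2•P0`. -/
theorem kx0_S_sub' (u v : K) :
    Klein.kx0 (sq5 ζ) ((t * Su ζ u v)^5) ((t * Sv ζ u v)^5) - Klein.kx0 (-(sq5 ζ)) (u^5) (v^5)
      = -(36 / 5) * xdM (ζ + ζ^4) u v := by
  rw [kx0_eq, kx0_eq, S_UU hζ ht, S_VV hζ ht, S_UV hζ ht]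
  have hτ := tau_rel hζ
  unfold sq5 xdM gX0 gX1 gY0 gY1
  generalize ζ + ζ^4 = τ at hτ ⊢
  linear_combination
    (1 / 15625 : K) * (-225000*u*v^9 - 225000*u^2*v^8 - 450000*u^3*v^7 - 675000*u^4*v^6 - 1125000*u^5*v^5
      + 675000*u^6*v^4 - 450000*u^7*v^3 + 225000*u^8*v^2 - 225000*u^9*v) * hτ

/-- **`x(Q0) ≠ x(P0)`** when `kf ≠ 0`. -/
theorem kx0_S_ne {u v : K} (hf : kf u v ≠ 0) :
    Klein.kx0 (sq5 ζ) ((t * Su ζ u v)^5) ((t * Sv ζ u v)^5) ≠ Klein.kx0 (sq5 ζ) (u^5) (v^5) := by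
  intro h
  have h1 := kx0_S_sub hζ ht u v
  rw [h, sub_self] at h1
  have h2 : xdP (ζ + ζ^4) u v = 0 := by
    have h36 : (-(36 / 5) : K) ≠ 0 := by norm_num
    exact (mul_eq_zero.mp h1.symm).resolve_left h36
  have h3 := xdP_mul_xgP (tau_rel hζ) u v
  rw [h2, zero_mul] at h3
  have h5 : (5 : K) ≠ 0 := by norm_num
  exact hf ((pow_eq_zero_iff two_ne_zero).mp ((mul_eq_zero.mp h3.symm).resolve_left h5))

/-- **`x(Q0) ≠ x(2•P0)`** when `kf ≠ 0`. -/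
theorem kx0_S_ne' {u v : K} (hf : kf u v ≠ 0) :
    Klein.kx0 (sq5 ζ) ((t * Su ζ u v)^5) ((t * Sv ζ u v)^5) ≠ Klein.kx0 (-(sq5 ζ)) (u^5) (v^5) := by
  intro h
  have h1 := kx0_S_sub' hζ ht u v
  rw [h, sub_self] at h1
  have h2 : xdM (ζ + ζ^4) u v = 0 := by
    have h36 : (-(36 / 5) : K) ≠ 0 := by norm_num
    exact (mul_eq_zero.mp h1.symm).resolve_left h36
  have h3 := xdM_mul_xgM (tau_rel hζ) u v
  rw [h2, zero_mul] at h3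
  have h5 : (5 : K) ≠ 0 := by norm_num
  exact hf ((pow_eq_zero_iff two_ne_zero).mp ((mul_eq_zero.mp h3.symm).resolve_left h5))

end field

end Fermat.Agent.G35.XDiff
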