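/-
GATE-Q / S52 node Q2(d), part (iii) (helper3): `{P0, Q}` is a basis of the `5`-torsion of the Klein
curve `kleinCurveUV (u^5) (v^5)` for EVERY point `Q = (x0(S w), y')` of that curve killed by `5`
(definition-independent: whatever `Q0 = P0 ∘ S` is called elsewhere, it has this shape).

`S w = (t * Su ζ u v, t * Sv ζ u v)`, `t^2 * 5 = 1`.

* `kleinCurveUV_S` : `kleinCurveUV ((t*Su)^5) ((t*Sv)^5) = kleinCurveUV (u^5) (v^5)` (the curve is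
  literally the same: `kc4`, `kT` are `S`-invariant) — lets one transport `P0UV` at `S w`.
* `kf_ne_zero_of_Δ` : `Δ ≠ 0 ⟹ kf u v ≠ 0`.
* `Q_not_mem_zmultiples_P0UV` : `Q ∉ ⟨P0⟩`.
* `indep_P0UV` : `a • P0 + b • Q = 0 ⟹ 5 ∣ a ∧ 5 ∣ b`   (= (d) of helper23's D4, board 4123).
* `span_P0UV` : over an algebraically closed field, every `5`-torsion point is `a • P0 + b • Q`.
-/
import Fermat.Agent.G35.Sym.XDiff
import Fermat.Agent.G35.Sym.BasisAbs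
import Fermat.Agent.G35.Klein.Double
import Fermat.Agent.GE.Tors.Cor

namespace Fermat.Agent.G35.Indep

open Fermat.Agent.G35.Klein Fermat.Agent.G35.Klein.Section WeierstrassCurve

universe u

variable {F : Type u} [Field F]

theorem klein_kc4_eq (U V : F) : Klein.kc4 U V = KleinInv.kc4 U V := rfl

theorem klein_kT_eq (U V : F) : Klein.kT U V = KleinInv.kT U V := rfl

theorem klein_kf5_eq (U V : F) : Klein.kf5 U V = KleinInv.kf5 U V := rfl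

/-- The Klein curve at `S w` IS the Klein curve at `w`. -/
theorem kleinCurveUV_S {ζ : F} (hζ : ζ ^ 4 + ζ ^ 3 + ζ ^ 2 + ζ + 1 = 0) {t : F}
    (ht : t ^ 2 * 5 = 1) (u v : F) :
    kleinCurveUV ((t * KleinInv.Su ζ u v) ^ 5) ((t * KleinInv.Sv ζ u v) ^ 5)
      = kleinCurveUV (u ^ 5) (v ^ 5) := by
  unfold kleinCurveUV
  rw [klein_kc4_eq, klein_kT_eq, KleinInv.kc4_S_scaled hζ ht, KleinInv.kT_S_scaled hζ ht,
    klein_kc4_eq, klein_kT_eq]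

/-- The Klein curve at `T~ w` IS the Klein curve at `w`. -/
theorem kleinCurveUV_Ttilde {ζ : F} (hζ : ζ ^ 4 + ζ ^ 3 + ζ ^ 2 + ζ + 1 = 0) (u v : F) :
    kleinCurveUV ((ζ ^ 3 * u) ^ 5) ((ζ ^ 2 * v) ^ 5) = kleinCurveUV (u ^ 5) (v ^ 5) := by
  rw [KleinInv.zeta3_mul_pow5 hζ, KleinInv.zeta2_mul_pow5 hζ]

/-- The Klein curve at `Z w` IS the Klein curve at `w`. -/
theorem kleinCurveUV_Z {ζ : F} (hζ : ζ ^ 4 + ζ ^ 3 + ζ ^ 2 + ζ + 1 = 0) (u v : F) :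
    kleinCurveUV ((ζ * u) ^ 5) ((ζ * v) ^ 5) = kleinCurveUV (u ^ 5) (v ^ 5) := by
  rw [KleinInv.zeta_mul_pow5 hζ, KleinInv.zeta_mul_pow5 hζ]

theorem kf_ne_zero_of_Δ {u v : F} (hΔ : (kleinCurveUV (u ^ 5) (v ^ 5)).Δ ≠ 0) :
    KleinInv.kf u v ≠ 0 := by
  intro h
  apply hΔ
  rw [kleinCurveUV_Δ, klein_kf5_eq, KleinInv.kf5_eq_kf_pow, h]
  ring

variable [DecidableEq F] [CharZero F]

/-- `Q = (x0(S w), y') ∉ ⟨P0⟩`. -/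
theorem Q_not_mem_zmultiples_P0UV {ζ : F} (hζ : ζ ^ 4 + ζ ^ 3 + ζ ^ 2 + ζ + 1 = 0) {t : F}
    (ht : t ^ 2 * 5 = 1) {u v : F} (hΔ : (kleinCurveUV (u ^ 5) (v ^ 5)).Δ ≠ 0) {y' : F}
    (h' : (kleinCurveUV (u ^ 5) (v ^ 5)).toAffine.Nonsingular
      (kx0 (ks ζ) ((t * KleinInv.Su ζ u v) ^ 5) ((t * KleinInv.Sv ζ u v) ^ 5)) y') :
    Affine.Point.some _ _ h' ∉ AddSubgroup.zmultiples (P0UV hζ hΔ) := by
  have hf := kf_ne_zero_of_Δ hΔ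
  refine BasisAbs.not_mem_zmultiples_of_x_ne (nonsingular_P0UV hζ hΔ)
    (nonsingular_P0UV (phi5_sq hζ) hΔ) h' (five_nsmul_P0UV hζ hΔ) (two_nsmul_P0UV hζ hΔ) ?_ ?_
  · exact XDiff.kx0_S_ne hζ ht hf
  · rw [ks_sq_arg hζ]
    exact XDiff.kx0_S_ne' hζ ht hf

/-- **INDEPENDENCE** `a • P0 + b • Q = 0 ⟹ 5 ∣ a ∧ 5 ∣ b`. -/
theorem indep_P0UV {ζ : F} (hζ : ζ ^ 4 + ζ ^ 3 + ζ ^ 2 + ζ + 1 = 0) {t : F}
    (ht : t ^ 2 * 5 = 1) {u v : F} (hΔ : (kleinCurveUV (u ^ 5) (v ^ 5)).Δ ≠ 0) {y' : F}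
    (h' : (kleinCurveUV (u ^ 5) (v ^ 5)).toAffine.Nonsingular
      (kx0 (ks ζ) ((t * KleinInv.Su ζ u v) ^ 5) ((t * KleinInv.Sv ζ u v) ^ 5)) y')
    (h5 : (5 : ℕ) • Affine.Point.some _ _ h' = 0) {a b : ℤ}
    (hab : a • P0UV hζ hΔ + b • Affine.Point.some _ _ h' = 0) : (5 : ℤ) ∣ a ∧ (5 : ℤ) ∣ b :=
  BasisAbs.five_dvd_of_zsmul_add_zsmul_eq_zero (five_nsmul_P0UV hζ hΔ) h5 (P0UV_ne_zero hζ hΔ)
    (Q_not_mem_zmultiples_P0UV hζ ht hΔ h') hab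

/-- **SPANNING** over an algebraically closed field. -/
theorem span_P0UV [IsAlgClosed F] {ζ : F} (hζ : ζ ^ 4 + ζ ^ 3 + ζ ^ 2 + ζ + 1 = 0) {t : F}
    (ht : t ^ 2 * 5 = 1) {u v : F} (hΔ : (kleinCurveUV (u ^ 5) (v ^ 5)).Δ ≠ 0) {y' : F}
    (h' : (kleinCurveUV (u ^ 5) (v ^ 5)).toAffine.Nonsingular
      (kx0 (ks ζ) ((t * KleinInv.Su ζ u v) ^ 5) ((t * KleinInv.Sv ζ u v) ^ 5)) y')
    (h5 : (5 : ℕ) • Affine.Point.some _ _ h' = 0)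
    {R : (kleinCurveUV (u ^ 5) (v ^ 5)).toAffine.Point} (hR : (5 : ℕ) • R = 0) :
    ∃ a b : ℤ, R = a • P0UV hζ hΔ + b • Affine.Point.some _ _ h' :=
  BasisAbs.exists_zsmul_add_zsmul_of_card
    ((Fermat.Agent.GE.Tors.card_torsion hΔ 5 (by norm_num)).trans (by norm_num))
    (five_nsmul_P0UV hζ hΔ) h5 (P0UV_ne_zero hζ hΔ)
    (Q_not_mem_zmultiples_P0UV hζ ht hΔ h') hR

end Fermat.Agent.G35.Indep
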