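/-
GATE-Q / S52 node Q2(b)(d), POINT LEVEL, TOTAL-MAP WRAPPER (helper3): the labelling points `P w`,
`Q w = P (S w)` as TOTAL maps `(Fin 2 → L) → (Ecurve c t).Point` on the FIXED curve
`Ecurve c t : y² = x³ − 27 c x + 54 t` of a Klein fibre
`Cocycle.fibreVec c t = {w | c4 w = c ∧ T6 w = t}`, and their behaviour under the three generators
`Smat ζ`, `Tmat ζ`, `Zmat ζ` of `KleinTrans` (helper23's dictionary D4, board 4123):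

* `Ppt hζ c t w` (`= (x0, y0)(w)` if `w ∈ fibreVec c t ∧ Δ ≠ 0`, else `0`), `Qpt hζ c t w := Ppt (S w)`;
* (b1) `Ppt_S : Ppt (S w) = Qpt w` (rfl), `Qpt_S : Qpt (S w) = -Ppt w`;
* (b2) `Ppt_T : Ppt (T~ w) = Ppt w`, `Qpt_T : Qpt (T~ w) = Qpt w - Ppt w` (helper21's `Q0_Ttilde`);
* (b3) `Ppt_Z`, `Qpt_Z` : `Z` acts trivially;
* `five_nsmul_Ppt`, `five_nsmul_Qpt` : both are killed by `5`;
* (d) `indep_Ppt_Qpt` : on the fibre, `a • Ppt w + b • Qpt w = 0 → 5 ∣ a ∧ 5 ∣ b`;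
  `span_Ppt_Qpt` : over an algebraically closed field every `5`-torsion point is `a • Ppt w + b • Qpt w`.
All identities (b1)–(b3) hold for ALL `w` (junk value `0` off the fibre is respected by the generators).
-/
import Fermat.Agent.G35.Sym.Indep
import Fermat.Agent.G35.KleinTrans
import Fermat.Agent.G35.Klein.Q0T

set_option linter.unusedSectionVars false

namespace Fermat.Agent.G35.PointsTot

open Fermat.Agent.G35 Fermat.Agent.G35.Klein Fermat.Agent.G35.Klein.Section WeierstrassCurve Matrix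

universe u

variable {L : Type u} [Field L]

/-- the fixed curve of the fibre `(c, t)`: `y² = x³ − 27 c x + 54 t`. -/
def Ecurve (c t : L) : WeierstrassCurve L := ⟨0, 0, 0, -27 * c, 54 * t⟩

theorem Ecurve_a₁ (c t : L) : (Ecurve c t).a₁ = 0 := rfl
theorem Ecurve_a₂ (c t : L) : (Ecurve c t).a₂ = 0 := rfl
theorem Ecurve_a₃ (c t : L) : (Ecurve c t).a₃ = 0 := rfl
theorem Ecurve_a₄ (c t : L) : (Ecurve c t).a₄ = -27 * c := rfl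
theorem Ecurve_a₆ (c t : L) : (Ecurve c t).a₆ = 54 * t := rfl

theorem kleinCurveUV_eq_of_mem {c t : L} {w : Fin 2 → L} (hw : w ∈ Cocycle.fibreVec c t) :
    kleinCurveUV ((w 0) ^ 5) ((w 1) ^ 5) = Ecurve c t := by
  obtain ⟨h1, h2⟩ := hw
  unfold kleinCurveUV Ecurve
  rw [Indep.klein_kc4_eq, Indep.klein_kT_eq, ← KleinTrans.c4_eq_kc4, ← KleinTrans.T6_eq_kT, h1, h2]

/-- membership in a fibre only depends on the fifth powers of the coordinates. -/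
theorem mem_fibreVec_congr {c t : L} {w w' : Fin 2 → L} (h0 : (w 0) ^ 5 = (w' 0) ^ 5)
    (h1 : (w 1) ^ 5 = (w' 1) ^ 5) : w ∈ Cocycle.fibreVec c t ↔ w' ∈ Cocycle.fibreVec c t := by
  show (Free.c4 (w 0) (w 1) = c ∧ Free.T6 (w 0) (w 1) = t)
    ↔ (Free.c4 (w' 0) (w' 1) = c ∧ Free.T6 (w' 0) (w' 1) = t)
  rw [KleinTrans.c4_eq_kc4, KleinTrans.T6_eq_kT, KleinTrans.c4_eq_kc4, KleinTrans.T6_eq_kT, h0, h1]

/-- the `x`-coordinate of `P w`. -/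
noncomputable def px [CharZero L] (ζ : L) (w : Fin 2 → L) : L := kx0 (ks ζ) ((w 0) ^ 5) ((w 1) ^ 5)

/-- the `y`-coordinate of `P w`. -/
noncomputable def py (ζ : L) (w : Fin 2 → L) : L := ky0 ζ ((w 0) ^ 5) ((w 1) ^ 5)

variable [CharZero L]

section generic

variable {ζ : L} (hζ : ζ ^ 4 + ζ ^ 3 + ζ ^ 2 + ζ + 1 = 0)
include hζ

theorem nonsingular_of_eq {E : WeierstrassCurve L} {U V : L} (hE : kleinCurveUV U V = E)
    (hΔ : E.Δ ≠ 0) : E.toAffine.Nonsingular (kx0 (ks ζ) U V) (ky0 ζ U V) := by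
  subst hE
  exact nonsingular_P0UV hζ hΔ

theorem nonsingular_of_mem {c t : L} {w : Fin 2 → L} (hw : w ∈ Cocycle.fibreVec c t)
    (hΔ : (Ecurve c t).Δ ≠ 0) : (Ecurve c t).toAffine.Nonsingular (px ζ w) (py ζ w) :=
  nonsingular_of_eq hζ (kleinCurveUV_eq_of_mem hw) hΔ

variable [DecidableEq L]

theorem five_nsmul_some_of_eq {E : WeierstrassCurve L} {U V : L} (hE : kleinCurveUV U V = E)
    (hΔ : E.Δ ≠ 0) (hns : E.toAffine.Nonsingular (kx0 (ks ζ) U V) (ky0 ζ U V)) :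
    (5 : ℕ) • (Affine.Point.some _ _ hns) = 0 := by
  subst hE
  exact five_nsmul_P0UV hζ hΔ

theorem indep_of_eq {E : WeierstrassCurve L} {u v : L} (hE : kleinCurveUV (u ^ 5) (v ^ 5) = E)
    (hΔ : E.Δ ≠ 0) {t : L} (ht : t ^ 2 * 5 = 1)
    (hP : E.toAffine.Nonsingular (kx0 (ks ζ) (u ^ 5) (v ^ 5)) (ky0 ζ (u ^ 5) (v ^ 5))) {y' : L}
    (hQ : E.toAffine.Nonsingular
      (kx0 (ks ζ) ((t * KleinInv.Su ζ u v) ^ 5) ((t * KleinInv.Sv ζ u v) ^ 5)) y')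
    (h5 : (5 : ℕ) • Affine.Point.some _ _ hQ = 0) {a b : ℤ}
    (hab : a • Affine.Point.some _ _ hP + b • Affine.Point.some _ _ hQ = 0) :
    (5 : ℤ) ∣ a ∧ (5 : ℤ) ∣ b := by
  subst hE
  exact Indep.indep_P0UV hζ ht hΔ hQ h5 hab

theorem span_of_eq [IsAlgClosed L] {E : WeierstrassCurve L} {u v : L}
    (hE : kleinCurveUV (u ^ 5) (v ^ 5) = E)
    (hΔ : E.Δ ≠ 0) {t : L} (ht : t ^ 2 * 5 = 1)
    (hP : E.toAffine.Nonsingular (kx0 (ks ζ) (u ^ 5) (v ^ 5)) (ky0 ζ (u ^ 5) (v ^ 5))) {y' : L}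
    (hQ : E.toAffine.Nonsingular
      (kx0 (ks ζ) ((t * KleinInv.Su ζ u v) ^ 5) ((t * KleinInv.Sv ζ u v) ^ 5)) y')
    (h5 : (5 : ℕ) • Affine.Point.some _ _ hQ = 0) {R : E.toAffine.Point}
    (hR : (5 : ℕ) • R = 0) :
    ∃ a b : ℤ, R = a • Affine.Point.some _ _ hP + b • Affine.Point.some _ _ hQ := by
  subst hE
  exact Indep.span_P0UV hζ ht hΔ hQ h5 hR

end generic

/-! ### the matrices on coordinates -/

theorem Smat_mulVec_zero (ζ : L) (w : Fin 2 → L) :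
    (KleinTrans.Smat ζ *ᵥ w) 0 = (KleinInv.sq5 ζ)⁻¹ * KleinInv.Su ζ (w 0) (w 1) := by
  rw [KleinTrans.Smat_mulVec]; rfl

theorem Smat_mulVec_one (ζ : L) (w : Fin 2 → L) :
    (KleinTrans.Smat ζ *ᵥ w) 1 = (KleinInv.sq5 ζ)⁻¹ * KleinInv.Sv ζ (w 0) (w 1) := by
  rw [KleinTrans.Smat_mulVec]; rfl

theorem Tmat_mulVec_zero (ζ : L) (w : Fin 2 → L) : (KleinTrans.Tmat ζ *ᵥ w) 0 = ζ ^ 3 * w 0 := by
  rw [KleinTrans.Tmat_mulVec]; rfl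

theorem Tmat_mulVec_one (ζ : L) (w : Fin 2 → L) : (KleinTrans.Tmat ζ *ᵥ w) 1 = ζ ^ 2 * w 1 := by
  rw [KleinTrans.Tmat_mulVec]; rfl

theorem Zmat_mulVec_zero (ζ : L) (w : Fin 2 → L) : (KleinTrans.Zmat ζ *ᵥ w) 0 = ζ * w 0 := by
  rw [KleinTrans.Zmat_mulVec]; rfl

theorem Zmat_mulVec_one (ζ : L) (w : Fin 2 → L) : (KleinTrans.Zmat ζ *ᵥ w) 1 = ζ * w 1 := by
  rw [KleinTrans.Zmat_mulVec]; rfl

section cyclo

variable {ζ : L} (hζ : ζ ^ 4 + ζ ^ 3 + ζ ^ 2 + ζ + 1 = 0)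
include hζ

theorem sq5_inv_sq : ((KleinInv.sq5 ζ)⁻¹) ^ 2 * 5 = 1 :=
  KleinInv.sq5_inv_sq hζ (by norm_num)

/-- `S (S w) = -w`. -/
theorem Smat_Smat_mulVec (w : Fin 2 → L) :
    KleinTrans.Smat ζ *ᵥ (KleinTrans.Smat ζ *ᵥ w) = -w := by
  funext i
  fin_cases i
  · show (KleinTrans.Smat ζ *ᵥ (KleinTrans.Smat ζ *ᵥ w)) 0 = -(w 0)
    rw [Smat_mulVec_zero, Smat_mulVec_zero, Smat_mulVec_one]
    exact KleinInv.S_S_scaled_u hζ (sq5_inv_sq hζ) (w 0) (w 1)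
  · show (KleinTrans.Smat ζ *ᵥ (KleinTrans.Smat ζ *ᵥ w)) 1 = -(w 1)
    rw [Smat_mulVec_one, Smat_mulVec_zero, Smat_mulVec_one]
    exact KleinInv.S_S_scaled_v hζ (sq5_inv_sq hζ) (w 0) (w 1)

/-- `S (Z w) = Z (S w)` on coordinates. -/
theorem Smat_Zmat_mulVec (w : Fin 2 → L) :
    KleinTrans.Smat ζ *ᵥ (KleinTrans.Zmat ζ *ᵥ w) = KleinTrans.Zmat ζ *ᵥ (KleinTrans.Smat ζ *ᵥ w) := by
  funext i
  fin_cases i
  · show (KleinTrans.Smat ζ *ᵥ (KleinTrans.Zmat ζ *ᵥ w)) 0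
      = (KleinTrans.Zmat ζ *ᵥ (KleinTrans.Smat ζ *ᵥ w)) 0
    rw [Smat_mulVec_zero, Zmat_mulVec_zero, Zmat_mulVec_one, Zmat_mulVec_zero, Smat_mulVec_zero]
    unfold KleinInv.Su; ring
  · show (KleinTrans.Smat ζ *ᵥ (KleinTrans.Zmat ζ *ᵥ w)) 1
      = (KleinTrans.Zmat ζ *ᵥ (KleinTrans.Smat ζ *ᵥ w)) 1
    rw [Smat_mulVec_one, Zmat_mulVec_zero, Zmat_mulVec_one, Zmat_mulVec_one, Smat_mulVec_one]
    unfold KleinInv.Sv; ring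

theorem S_mem_fibreVec_iff (c t : L) (w : Fin 2 → L) :
    KleinTrans.Smat ζ *ᵥ w ∈ Cocycle.fibreVec c t ↔ w ∈ Cocycle.fibreVec c t :=
  KleinTrans.smul_mem_fibreVec_iff (KleinTrans.gS_mem_formStab hζ) c t w

theorem T_mem_fibreVec_iff (c t : L) (w : Fin 2 → L) :
    KleinTrans.Tmat ζ *ᵥ w ∈ Cocycle.fibreVec c t ↔ w ∈ Cocycle.fibreVec c t :=
  KleinTrans.smul_mem_fibreVec_iff (KleinTrans.gT_mem_formStab hζ) c t w

theorem Z_mem_fibreVec_iff (c t : L) (w : Fin 2 → L) :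
    KleinTrans.Zmat ζ *ᵥ w ∈ Cocycle.fibreVec c t ↔ w ∈ Cocycle.fibreVec c t :=
  KleinTrans.smul_mem_fibreVec_iff (KleinTrans.gZ_mem_formStab hζ) c t w

theorem neg_mem_fibreVec_iff (c t : L) (w : Fin 2 → L) :
    -w ∈ Cocycle.fibreVec c t ↔ w ∈ Cocycle.fibreVec c t := by
  rw [← Smat_Smat_mulVec hζ, S_mem_fibreVec_iff hζ, S_mem_fibreVec_iff hζ]

/-! ### the total point maps -/

open scoped Classical in
/-- `P w` on the fixed curve of the fibre `(c,t)`; `0` off the fibre (or if `Δ = 0`). -/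
noncomputable def Ppt (c t : L) (w : Fin 2 → L) : (Ecurve c t).toAffine.Point :=
  if h : w ∈ Cocycle.fibreVec c t ∧ (Ecurve c t).Δ ≠ 0 then
    Affine.Point.some _ _ (nonsingular_of_mem hζ h.1 h.2)
  else 0

/-- `Q w = P (S w)`. -/
noncomputable def Qpt (c t : L) (w : Fin 2 → L) : (Ecurve c t).toAffine.Point :=
  Ppt hζ c t (KleinTrans.Smat ζ *ᵥ w)

theorem Ppt_of_mem {c t : L} {w : Fin 2 → L} (hw : w ∈ Cocycle.fibreVec c t)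
    (hΔ : (Ecurve c t).Δ ≠ 0) :
    Ppt hζ c t w = Affine.Point.some _ _ (nonsingular_of_mem hζ hw hΔ) := by
  unfold Ppt
  rw [dif_pos ⟨hw, hΔ⟩]

theorem Ppt_of_not {c t : L} {w : Fin 2 → L}
    (h : ¬ (w ∈ Cocycle.fibreVec c t ∧ (Ecurve c t).Δ ≠ 0)) : Ppt hζ c t w = 0 := by
  unfold Ppt
  rw [dif_neg h]

theorem Qpt_of_mem {c t : L} {w : Fin 2 → L} (hw : w ∈ Cocycle.fibreVec c t)
    (hΔ : (Ecurve c t).Δ ≠ 0) :
    Qpt hζ c t w = Affine.Point.some _ _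
      (nonsingular_of_mem hζ ((S_mem_fibreVec_iff hζ c t w).mpr hw) hΔ) :=
  Ppt_of_mem hζ ((S_mem_fibreVec_iff hζ c t w).mpr hw) hΔ

theorem Qpt_of_not {c t : L} {w : Fin 2 → L}
    (h : ¬ (w ∈ Cocycle.fibreVec c t ∧ (Ecurve c t).Δ ≠ 0)) : Qpt hζ c t w = 0 := by
  apply Ppt_of_not
  rw [S_mem_fibreVec_iff hζ]; exact h

/-- `P` only depends on the fifth powers of the coordinates. -/
theorem Ppt_congr (c t : L) {w w' : Fin 2 → L} (h0 : (w 0) ^ 5 = (w' 0) ^ 5)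
    (h1 : (w 1) ^ 5 = (w' 1) ^ 5) : Ppt hζ c t w = Ppt hζ c t w' := by
  by_cases h : w ∈ Cocycle.fibreVec c t ∧ (Ecurve c t).Δ ≠ 0
  · have h' : w' ∈ Cocycle.fibreVec c t := (mem_fibreVec_congr h0 h1).mp h.1
    rw [Ppt_of_mem hζ h.1 h.2, Ppt_of_mem hζ h' h.2]
    exact some_congr' (by unfold px; rw [h0, h1]) (by unfold py; rw [h0, h1]) _ _
  · have h' : ¬ (w' ∈ Cocycle.fibreVec c t ∧ (Ecurve c t).Δ ≠ 0) := by
      rw [← mem_fibreVec_congr h0 h1]; exact h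
    rw [Ppt_of_not hζ h, Ppt_of_not hζ h']

/-- (b1) `P (S w) = Q w`. -/
theorem Ppt_S (c t : L) (w : Fin 2 → L) :
    Ppt hζ c t (KleinTrans.Smat ζ *ᵥ w) = Qpt hζ c t w := rfl

/-- parity: `P (-w) = -P w`. -/
theorem Ppt_neg (c t : L) (w : Fin 2 → L) : Ppt hζ c t (-w) = -Ppt hζ c t w := by
  by_cases h : w ∈ Cocycle.fibreVec c t ∧ (Ecurve c t).Δ ≠ 0
  · have h' : -w ∈ Cocycle.fibreVec c t := (neg_mem_fibreVec_iff hζ c t w).mpr h.1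
    rw [Ppt_of_mem hζ h.1 h.2, Ppt_of_mem hζ h' h.2, Affine.Point.neg_some]
    refine some_congr' ?_ ?_ _ _
    · unfold px
      have e0 : ((-w) 0) ^ 5 = -((w 0) ^ 5) := by
        show (-(w 0)) ^ 5 = _
        ring
      have e1 : ((-w) 1) ^ 5 = -((w 1) ^ 5) := by
        show (-(w 1)) ^ 5 = _
        ring
      rw [e0, e1, kx0_neg_neg]
    · unfold py
      have e0 : ((-w) 0) ^ 5 = -((w 0) ^ 5) := by
        show (-(w 0)) ^ 5 = _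
        ring
      have e1 : ((-w) 1) ^ 5 = -((w 1) ^ 5) := by
        show (-(w 1)) ^ 5 = _
        ring
      rw [e0, e1, ky0_neg_neg]
      simp [Affine.negY, Ecurve]
  · have h' : ¬ (-w ∈ Cocycle.fibreVec c t ∧ (Ecurve c t).Δ ≠ 0) := by
      rw [neg_mem_fibreVec_iff hζ]; exact h
    rw [Ppt_of_not hζ h, Ppt_of_not hζ h', Affine.Point.neg_zero]

/-- (b1) `Q (S w) = -P w`. -/
theorem Qpt_S (c t : L) (w : Fin 2 → L) :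
    Qpt hζ c t (KleinTrans.Smat ζ *ᵥ w) = -Ppt hζ c t w := by
  unfold Qpt
  rw [Smat_Smat_mulVec hζ, Ppt_neg]

/-- (b2a) `P (T~ w) = P w`. -/
theorem Ppt_T (c t : L) (w : Fin 2 → L) :
    Ppt hζ c t (KleinTrans.Tmat ζ *ᵥ w) = Ppt hζ c t w := by
  apply Ppt_congr
  · rw [Tmat_mulVec_zero, KleinInv.zeta3_mul_pow5 hζ]
  · rw [Tmat_mulVec_one, KleinInv.zeta2_mul_pow5 hζ]

/-- (b3) `P (Z w) = P w`. -/
theorem Ppt_Z (c t : L) (w : Fin 2 → L) :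
    Ppt hζ c t (KleinTrans.Zmat ζ *ᵥ w) = Ppt hζ c t w := by
  apply Ppt_congr
  · rw [Zmat_mulVec_zero, KleinInv.zeta_mul_pow5 hζ]
  · rw [Zmat_mulVec_one, KleinInv.zeta_mul_pow5 hζ]

/-- (b3) `Q (Z w) = Q w`. -/
theorem Qpt_Z (c t : L) (w : Fin 2 → L) :
    Qpt hζ c t (KleinTrans.Zmat ζ *ᵥ w) = Qpt hζ c t w := by
  unfold Qpt
  rw [Smat_Zmat_mulVec hζ, Ppt_Z]

variable [DecidableEq L]

theorem five_nsmul_Ppt (c t : L) (w : Fin 2 → L) : (5 : ℕ) • Ppt hζ c t w = 0 := by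
  by_cases h : w ∈ Cocycle.fibreVec c t ∧ (Ecurve c t).Δ ≠ 0
  · rw [Ppt_of_mem hζ h.1 h.2]
    exact five_nsmul_some_of_eq hζ (kleinCurveUV_eq_of_mem h.1) h.2 _
  · rw [Ppt_of_not hζ h, smul_zero]

theorem five_nsmul_Qpt (c t : L) (w : Fin 2 → L) : (5 : ℕ) • Qpt hζ c t w = 0 :=
  five_nsmul_Ppt hζ c t _

theorem px_S (w : Fin 2 → L) :
    px ζ (KleinTrans.Smat ζ *ᵥ w)
      = kx0 (ks ζ) (((KleinInv.sq5 ζ)⁻¹ * KleinInv.Su ζ (w 0) (w 1)) ^ 5)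
          (((KleinInv.sq5 ζ)⁻¹ * KleinInv.Sv ζ (w 0) (w 1)) ^ 5) := by
  unfold px
  rw [Smat_mulVec_zero, Smat_mulVec_one]

/-- (d) INDEPENDENCE on the fibre: `a • P w + b • Q w = 0 → 5 ∣ a ∧ 5 ∣ b`. -/
theorem indep_Ppt_Qpt {c t : L} {w : Fin 2 → L} (hw : w ∈ Cocycle.fibreVec c t)
    (hΔ : (Ecurve c t).Δ ≠ 0) {a b : ℤ}
    (hab : a • Ppt hζ c t w + b • Qpt hζ c t w = 0) : (5 : ℤ) ∣ a ∧ (5 : ℤ) ∣ b := by
  have hSw := (S_mem_fibreVec_iff hζ c t w).mpr hw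
  have h5 := five_nsmul_Qpt hζ c t w
  rw [Qpt_of_mem hζ hw hΔ] at h5
  rw [Ppt_of_mem hζ hw hΔ, Qpt_of_mem hζ hw hΔ] at hab
  have hQ' : (Ecurve c t).toAffine.Nonsingular
      (kx0 (ks ζ) (((KleinInv.sq5 ζ)⁻¹ * KleinInv.Su ζ (w 0) (w 1)) ^ 5)
          (((KleinInv.sq5 ζ)⁻¹ * KleinInv.Sv ζ (w 0) (w 1)) ^ 5))
      (py ζ (KleinTrans.Smat ζ *ᵥ w)) := by
    rw [← px_S hζ]; exact nonsingular_of_mem hζ hSw hΔ
  have hsome : Affine.Point.some _ _ (nonsingular_of_mem hζ hSw hΔ)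
      = Affine.Point.some _ _ hQ' := some_congr' (px_S hζ w) rfl _ _
  rw [hsome] at hab h5
  exact indep_of_eq hζ (u := w 0) (v := w 1) (kleinCurveUV_eq_of_mem hw) hΔ (sq5_inv_sq hζ)
    (nonsingular_of_mem hζ hw hΔ) hQ' h5 hab

/-- SPANNING on the fibre, over an algebraically closed field. -/
theorem span_Ppt_Qpt [IsAlgClosed L] {c t : L} {w : Fin 2 → L} (hw : w ∈ Cocycle.fibreVec c t)
    (hΔ : (Ecurve c t).Δ ≠ 0) {R : (Ecurve c t).toAffine.Point} (hR : (5 : ℕ) • R = 0) :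
    ∃ a b : ℤ, R = a • Ppt hζ c t w + b • Qpt hζ c t w := by
  have hSw := (S_mem_fibreVec_iff hζ c t w).mpr hw
  have h5 := five_nsmul_Qpt hζ c t w
  rw [Qpt_of_mem hζ hw hΔ] at h5
  rw [Ppt_of_mem hζ hw hΔ, Qpt_of_mem hζ hw hΔ]
  have hQ' : (Ecurve c t).toAffine.Nonsingular
      (kx0 (ks ζ) (((KleinInv.sq5 ζ)⁻¹ * KleinInv.Su ζ (w 0) (w 1)) ^ 5)
          (((KleinInv.sq5 ζ)⁻¹ * KleinInv.Sv ζ (w 0) (w 1)) ^ 5))
      (py ζ (KleinTrans.Smat ζ *ᵥ w)) := by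
    rw [← px_S hζ]; exact nonsingular_of_mem hζ hSw hΔ
  have hsome : Affine.Point.some _ _ (nonsingular_of_mem hζ hSw hΔ)
      = Affine.Point.some _ _ hQ' := some_congr' (px_S hζ w) rfl _ _
  rw [hsome] at h5 ⊢
  exact span_of_eq hζ (u := w 0) (v := w 1) (kleinCurveUV_eq_of_mem hw) hΔ (sq5_inv_sq hζ)
    (nonsingular_of_mem hζ hw hΔ) hQ' h5 hR

/-! ### (b2b) `Q (T~ w) = Q w - P w`, from helper21's `Q0_Ttilde` -/

theorem px_S_eq_kxQ (w : Fin 2 → L) :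
    px ζ (KleinTrans.Smat ζ *ᵥ w) = kxQ ζ (w 0) (w 1) := by
  unfold px kxQ kS1 kS2
  rw [Smat_mulVec_zero, Smat_mulVec_one]
  rfl

theorem py_S_eq_kyQ (w : Fin 2 → L) :
    py ζ (KleinTrans.Smat ζ *ᵥ w) = kyQ ζ (w 0) (w 1) := by
  unfold py kyQ kS1 kS2
  rw [Smat_mulVec_zero, Smat_mulVec_one]
  rfl

theorem Q0T_of_eq {E : WeierstrassCurve L} {u v : L} (hE : kleinCurve u v = E) (hΔ : E.Δ ≠ 0)
    (hP : E.toAffine.Nonsingular (kx0 (ks ζ) (u ^ 5) (v ^ 5)) (ky0 ζ (u ^ 5) (v ^ 5)))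
    (hQ : E.toAffine.Nonsingular (kxQ ζ u v) (kyQ ζ u v))
    (hQT : E.toAffine.Nonsingular (kxQ ζ (ζ ^ 3 * u) (ζ ^ 2 * v))
      (kyQ ζ (ζ ^ 3 * u) (ζ ^ 2 * v))) :
    Affine.Point.some _ _ hQT = Affine.Point.some _ _ hQ - Affine.Point.some _ _ hP := by
  subst hE
  have hf : KleinInv.kf u v ≠ 0 := Indep.kf_ne_zero_of_Δ (u := u) (v := v) hΔ
  have hx : kxQ ζ u v ≠ kx0 (ks ζ) (u ^ 5) (v ^ 5) := XDiff.kx0_S_ne hζ (sq5_inv_sq hζ) hf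
  exact Q0_Ttilde hζ hΔ hx

/-- (b2b) `Q (T~ w) = Q w - P w`. -/
theorem Qpt_T (c t : L) (w : Fin 2 → L) :
    Qpt hζ c t (KleinTrans.Tmat ζ *ᵥ w) = Qpt hζ c t w - Ppt hζ c t w := by
  by_cases h : w ∈ Cocycle.fibreVec c t ∧ (Ecurve c t).Δ ≠ 0
  · have hT := (T_mem_fibreVec_iff hζ c t w).mpr h.1
    have hSw := (S_mem_fibreVec_iff hζ c t w).mpr h.1
    have hST := (S_mem_fibreVec_iff hζ c t _).mpr hT
    rw [Qpt_of_mem hζ hT h.2, Qpt_of_mem hζ h.1 h.2, Ppt_of_mem hζ h.1 h.2]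
    have exT : px ζ (KleinTrans.Smat ζ *ᵥ (KleinTrans.Tmat ζ *ᵥ w))
        = kxQ ζ (ζ ^ 3 * w 0) (ζ ^ 2 * w 1) := by
      rw [px_S_eq_kxQ hζ, Tmat_mulVec_zero, Tmat_mulVec_one]
    have eyT : py ζ (KleinTrans.Smat ζ *ᵥ (KleinTrans.Tmat ζ *ᵥ w))
        = kyQ ζ (ζ ^ 3 * w 0) (ζ ^ 2 * w 1) := by
      rw [py_S_eq_kyQ hζ, Tmat_mulVec_zero, Tmat_mulVec_one]
    have hQT : (Ecurve c t).toAffine.Nonsingular (kxQ ζ (ζ ^ 3 * w 0) (ζ ^ 2 * w 1))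
        (kyQ ζ (ζ ^ 3 * w 0) (ζ ^ 2 * w 1)) := by
      rw [← exT, ← eyT]; exact nonsingular_of_mem hζ hST h.2
    have hQ : (Ecurve c t).toAffine.Nonsingular (kxQ ζ (w 0) (w 1)) (kyQ ζ (w 0) (w 1)) := by
      rw [← px_S_eq_kxQ hζ, ← py_S_eq_kyQ hζ]; exact nonsingular_of_mem hζ hSw h.2
    rw [some_congr' exT eyT (nonsingular_of_mem hζ hST h.2) hQT,
      some_congr' (px_S_eq_kxQ hζ w) (py_S_eq_kyQ hζ w) (nonsingular_of_mem hζ hSw h.2) hQ]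
    exact Q0T_of_eq hζ (u := w 0) (v := w 1) (kleinCurveUV_eq_of_mem h.1) h.2
      (nonsingular_of_mem hζ h.1 h.2) hQ hQT
  · have hT : ¬ (KleinTrans.Tmat ζ *ᵥ w ∈ Cocycle.fibreVec c t ∧ (Ecurve c t).Δ ≠ 0) := by
      rw [T_mem_fibreVec_iff hζ]; exact h
    rw [Qpt_of_not hζ hT, Qpt_of_not hζ h, Ppt_of_not hζ h, sub_zero]

omit hζ [DecidableEq L] in
/-- `Δ (Ecurve c t) = 2^6 3^9 (c^3 - t^2)`. -/
theorem Ecurve_Δ (c t : L) : (Ecurve c t).Δ = 1259712 * (c ^ 3 - t ^ 2) := by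
  simp only [WeierstrassCurve.Δ, WeierstrassCurve.b₂, WeierstrassCurve.b₄, WeierstrassCurve.b₆,
    WeierstrassCurve.b₈, Ecurve]
  ring

omit hζ [DecidableEq L] in
theorem Ecurve_Δ_ne_zero {c t : L} (hct : c ^ 3 ≠ t ^ 2) : (Ecurve c t).Δ ≠ 0 := by
  rw [Ecurve_Δ]
  exact mul_ne_zero (by norm_num) (sub_ne_zero.mpr hct)

end cyclo

end Fermat.Agent.G35.PointsTot
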