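/-
GATE-Q / S52 (3–5 switch), node Q2(c) = D4(c) for helper3's TOTAL maps (helper16).

`Ppt hζ c t w`, `Qpt hζ c t w : (Ecurve c t).toAffine.Point` (`Sym/PointsTot.lean`) over `L = ℚ̄`, at the
RATIONAL fibre `(c, t) = (c₄(W), -c₆(W))` of an integral model `W`: then `Ecurve c t = shortQb W`
(`ecurve_eq_shortQb`), helper63's `conjPoint` / `curveIso` apply, and for `σ ∈ G_ℚ`, `σ ζ = ζ ^ k`, ALL `w`:

* `conjPoint_Ppt`   : `conjPoint σ (Ppt w) = k • Ppt (σ ∘ w)`;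
* `conjPoint_Qpt`   : `conjPoint σ (Qpt w) = Qpt (σ ∘ w)`      (`Q` is a rational section, helper21);
* `smul_curveIso_Ppt`, `smul_curveIso_Qpt` : the same in `W(ℚ̄) = (EQb W).Point` with the prelude action:
    `σ • curveIso (Ppt w) = k • curveIso (Ppt (σ ∘ w))`,  `σ • curveIso (Qpt w) = curveIso (Qpt (σ ∘ w))`.
* `mem_fibreVec_conj` : the rational fibre is `σ`-stable;  `Ppt_pow` : `Ppt[ζ^k] = k • Ppt[ζ]`.

Imports `G35/ShortIso` + `G35/Sym/PointsTot` only.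
-/
import Fermat.Agent.G35.ShortIso
import Fermat.Agent.G35.Sym.PointsTot

set_option autoImplicit false

open scoped WeierstrassCurve.Affine

namespace Fermat.Agent.G35.Sym.GalPointsTot

open WeierstrassCurve Fermat.Agent.G35 Fermat.Agent.G35.Klein Fermat.Agent.G35.Klein.Section
  Fermat.Agent.G35.ShortIso Fermat.Agent.G35.Integral Fermat.Agent.G35.PointsTot Matrix

local notation "Qb" => AlgebraicClosure ℚ
local notation "GQ" => (AlgebraicClosure ℚ ≃ₐ[ℚ] AlgebraicClosure ℚ)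

/-! ### ring homomorphisms and the coordinates -/

section Map

variable {K L : Type*} [Field K] [Field L] [CharZero K] [CharZero L] (φ : K →+* L)

theorem map_ks (ζ : K) : φ (ks ζ) = ks (φ ζ) := by
  simp only [ks, map_add, map_mul, map_pow, map_ofNat, map_one]

theorem map_kw (ζ : K) : φ (kw ζ) = kw (φ ζ) := by
  simp only [kw, map_sub, map_pow]

theorem map_kx0 (s U V : K) : φ (kx0 s U V) = kx0 (φ s) (φ U) (φ V) := by
  simp only [kx0, map_neg, map_add, map_sub, map_mul, map_pow, map_ofNat, map_div₀]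

theorem map_kC (s U V : K) : φ (kC s U V) = kC (φ s) (φ U) (φ V) := by
  simp only [kC, map_add, map_sub, map_mul, map_pow, map_ofNat, map_div₀]

theorem map_ky0 (ζ U V : K) : φ (ky0 ζ U V) = ky0 (φ ζ) (φ U) (φ V) := by
  simp only [ky0, map_mul, map_kw, map_kC, map_ks]

theorem map_px (ζ : K) (w : Fin 2 → K) : φ (px ζ w) = px (φ ζ) (fun i => φ (w i)) := by
  unfold px
  rw [map_kx0, map_ks, map_pow, map_pow]

theorem map_py (ζ : K) (w : Fin 2 → K) : φ (py ζ w) = py (φ ζ) (fun i => φ (w i)) := by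
  unfold py
  rw [map_ky0, map_pow, map_pow]

theorem map_kxQr (u v : K) : φ (kxQr u v) = kxQr (φ u) (φ v) := by
  simp only [kxQr, map_add, map_mul, map_pow, map_ofNat, map_neg]

theorem map_kyQr (u v : K) : φ (kyQr u v) = kyQr (φ u) (φ v) := by
  simp only [kyQr, map_add, map_mul, map_pow, map_ofNat, map_neg]

theorem map_phi5 {ζ : K} (hζ : ζ ^ 4 + ζ ^ 3 + ζ ^ 2 + ζ + 1 = 0) :
    (φ ζ) ^ 4 + (φ ζ) ^ 3 + (φ ζ) ^ 2 + φ ζ + 1 = 0 := by
  have := congrArg φ hζ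
  simpa only [map_add, map_pow, map_one, map_zero] using this

theorem map_c4 (u v : K) : φ (Free.c4 u v) = Free.c4 (φ u) (φ v) := by
  simp only [Free.c4, map_add, map_sub, map_mul, map_pow, map_ofNat]

theorem map_T6 (u v : K) : φ (Free.T6 u v) = Free.T6 (φ u) (φ v) := by
  simp only [Free.T6, map_add, map_sub, map_mul, map_pow, map_ofNat]

end Map

/-! ### `Ppt[ζ^k] = k • Ppt[ζ]` on any field -/

section Pow

universe u

variable {L : Type u} [Field L] [CharZero L] [DecidableEq L]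
  {ζ : L} (hζ : ζ ^ 4 + ζ ^ 3 + ζ ^ 2 + ζ + 1 = 0)

include hζ in
theorem pow_some_of_eq {E : WeierstrassCurve L} {U V : L} (hE : kleinCurveUV U V = E)
    (hΔ : E.Δ ≠ 0) (k : ℕ) (hζk : (ζ ^ k) ^ 4 + (ζ ^ k) ^ 3 + (ζ ^ k) ^ 2 + ζ ^ k + 1 = 0)
    (hns : E.toAffine.Nonsingular (kx0 (ks (ζ ^ k)) U V) (ky0 (ζ ^ k) U V))
    (hns' : E.toAffine.Nonsingular (kx0 (ks ζ) U V) (ky0 ζ U V)) :
    Affine.Point.some _ _ hns = k • Affine.Point.some _ _ hns' := by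
  subst hE
  exact P0UV_pow hζ hΔ k hζk

/-- `P_{ζ^k} = k • P_ζ` for the total maps. -/
theorem Ppt_pow (k : ℕ) (hζk : (ζ ^ k) ^ 4 + (ζ ^ k) ^ 3 + (ζ ^ k) ^ 2 + ζ ^ k + 1 = 0)
    (c t : L) (w : Fin 2 → L) : Ppt hζk c t w = k • Ppt hζ c t w := by
  by_cases h : w ∈ Cocycle.fibreVec c t ∧ (Ecurve c t).Δ ≠ 0
  · rw [Ppt_of_mem hζk h.1 h.2, Ppt_of_mem hζ h.1 h.2]
    exact pow_some_of_eq hζ (kleinCurveUV_eq_of_mem h.1) h.2 k hζk _ _
  · rw [Ppt_of_not hζk h, Ppt_of_not hζ h, smul_zero]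

end Pow

/-! ### the rational fibre of an integral model -/

section Rat

variable (W : WeierstrassCurve ℤ)

/-- the fibre coordinates of `W` -/
noncomputable abbrev cW : Qb := ((W.c₄ : ℤ) : Qb)

/-- the fibre coordinates of `W` -/
noncomputable abbrev tW : Qb := -((W.c₆ : ℤ) : Qb)

theorem ecurve_eq_shortQb : Ecurve (cW W) (tW W) = shortQb W := by
  unfold Ecurve shortQb shortModel cW tW
  ext <;> simp

theorem mem_fibreVec_conj (σ : GQ) {w : Fin 2 → Qb} (hw : w ∈ Cocycle.fibreVec (cW W) (tW W)) :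
    (fun i => σ (w i)) ∈ Cocycle.fibreVec (cW W) (tW W) := by
  obtain ⟨h1, h2⟩ := hw
  refine ⟨?_, ?_⟩
  · have := congrArg (σ : Qb →+* Qb) h1
    rw [map_c4] at this
    simpa [cW] using this
  · have := congrArg (σ : Qb →+* Qb) h2
    rw [map_T6] at this
    simpa [tW] using this

theorem mem_fibreVec_conj_iff (σ : GQ) (w : Fin 2 → Qb) :
    (fun i => σ (w i)) ∈ Cocycle.fibreVec (cW W) (tW W) ↔ w ∈ Cocycle.fibreVec (cW W) (tW W) := by
  refine ⟨fun h => ?_, mem_fibreVec_conj W σ⟩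
  have := mem_fibreVec_conj W σ⁻¹ h
  have e : (fun i => σ⁻¹ ((fun i => σ (w i)) i)) = w := by
    funext i
    show σ⁻¹ (σ (w i)) = w i
    rw [← AlgEquiv.mul_apply, inv_mul_cancel, AlgEquiv.one_apply]
  rwa [e] at this

variable {W} {ζ : Qb} (hζ : ζ ^ 4 + ζ ^ 3 + ζ ^ 2 + ζ + 1 = 0)

/-- **D4(c) for the total `P`, coordinatewise**: `σ(P_ζ w) = k • P_ζ(σ w)` when `σ ζ = ζ ^ k`. -/
theorem conjPoint_Ppt (σ : GQ) (k : ℕ) (hσ : σ ζ = ζ ^ k) (w : Fin 2 → Qb) :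
    conjPoint (ecurve_eq_shortQb W) σ (Ppt hζ (cW W) (tW W) w)
      = k • Ppt hζ (cW W) (tW W) (fun i => σ (w i)) := by
  have hζk : (ζ ^ k) ^ 4 + (ζ ^ k) ^ 3 + (ζ ^ k) ^ 2 + ζ ^ k + 1 = 0 := by
    have := map_phi5 (σ : Qb →+* Qb) hζ
    rw [← hσ]; exact this
  rw [← Ppt_pow hζ k hζk]
  by_cases h : w ∈ Cocycle.fibreVec (cW W) (tW W) ∧ (Ecurve (cW W) (tW W)).Δ ≠ 0
  · have h' := mem_fibreVec_conj W σ h.1
    rw [Ppt_of_mem hζ h.1 h.2, Ppt_of_mem hζk h' h.2, conjPoint_some]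
    refine some_congr' ?_ ?_ _ _
    · have := map_px (σ : Qb →+* Qb) ζ w
      rw [← hσ]; exact this
    · have := map_py (σ : Qb →+* Qb) ζ w
      rw [← hσ]; exact this
  · have h' : ¬ ((fun i => σ (w i)) ∈ Cocycle.fibreVec (cW W) (tW W)
        ∧ (Ecurve (cW W) (tW W)).Δ ≠ 0) := by
      rw [mem_fibreVec_conj_iff]; exact h
    rw [Ppt_of_not hζ h, Ppt_of_not hζk h', conjPoint_zero]

/-- **D4(c) for the total `Q`, coordinatewise**: `σ(Q w) = Q(σ w)` for EVERY `σ`. -/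
theorem conjPoint_Qpt (σ : GQ) (w : Fin 2 → Qb) :
    conjPoint (ecurve_eq_shortQb W) σ (Qpt hζ (cW W) (tW W) w)
      = Qpt hζ (cW W) (tW W) (fun i => σ (w i)) := by
  by_cases h : w ∈ Cocycle.fibreVec (cW W) (tW W) ∧ (Ecurve (cW W) (tW W)).Δ ≠ 0
  · have h' := mem_fibreVec_conj W σ h.1
    rw [Qpt_of_mem hζ h.1 h.2, Qpt_of_mem hζ h' h.2, conjPoint_some]
    refine some_congr' ?_ ?_ _ _
    · rw [px_S_eq_kxQ hζ, px_S_eq_kxQ hζ, kxQ_eq hζ, kxQ_eq hζ]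
      exact map_kxQr (σ : Qb →+* Qb) (w 0) (w 1)
    · rw [py_S_eq_kyQ hζ, py_S_eq_kyQ hζ, kyQ_eq hζ, kyQ_eq hζ]
      exact map_kyQr (σ : Qb →+* Qb) (w 0) (w 1)
  · have h' : ¬ ((fun i => σ (w i)) ∈ Cocycle.fibreVec (cW W) (tW W)
        ∧ (Ecurve (cW W) (tW W)).Δ ≠ 0) := by
      rw [mem_fibreVec_conj_iff]; exact h
    rw [Qpt_of_not hζ h, Qpt_of_not hζ h', conjPoint_zero]

/-- **D4(c) for the total `P` in `W(ℚ̄)`** (prelude `G_ℚ`-action on `(EQb W).Point`). -/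
theorem smul_curveIso_Ppt (σ : GQ) (k : ℕ) (hσ : σ ζ = ζ ^ k) (w : Fin 2 → Qb) :
    σ • curveIso (ecurve_eq_shortQb W) (Ppt hζ (cW W) (tW W) w)
      = k • curveIso (ecurve_eq_shortQb W) (Ppt hζ (cW W) (tW W) (fun i => σ (w i))) := by
  rw [← curveIso_conjPoint, conjPoint_Ppt hζ σ k hσ w, map_nsmul]

/-- **D4(c) for the total `Q` in `W(ℚ̄)`**. -/
theorem smul_curveIso_Qpt (σ : GQ) (w : Fin 2 → Qb) :
    σ • curveIso (ecurve_eq_shortQb W) (Qpt hζ (cW W) (tW W) w)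
      = curveIso (ecurve_eq_shortQb W) (Qpt hζ (cW W) (tW W) (fun i => σ (w i))) := by
  rw [← curveIso_conjPoint, conjPoint_Qpt hζ σ w]

end Rat

end Fermat.Agent.G35.Sym.GalPointsTot
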