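/-
GATE-Q / S52 nodes Q2+Q3, FINAL PLUG (helper3): helper60's `LabelPack.htrans_of_points` /
`ker_of_points` applied to the total point maps `PointsTot.Ppt`, `PointsTot.Qpt` — BINDER-FREE:

* `klein_htrans_final` : for `c ≠ 0`, `t ≠ 0`, `c^3 ≠ t^2`, the group `formStab L` is transitive on the
  fibre `fibreVec c t` (any field `L` of characteristic zero containing a primitive 5th root of unity);
* `klein_label_ker_final` : two points of the fibre with the same `(Ppt, Qpt)` differ by a power of `ζ`.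
-/
import Fermat.Agent.G35.LabelPack
import Fermat.Agent.G35.Sym.PointsTot

namespace Fermat.Agent.G35.KleinTransFinal

open Matrix Fermat.Agent.G35.Cocycle Fermat.Agent.G35.KleinTrans Fermat.Agent.G35.PointsTot

variable {L : Type*} [Field L] [CharZero L] [DecidableEq L] {ζ : L}
  (hζ : ζ ^ 4 + ζ ^ 3 + ζ ^ 2 + ζ + 1 = 0) {c t : L}
include hζ

/-- **Transitivity of `formStab` on every Klein fibre off the cone** — no binder. -/
theorem klein_htrans_final (hc : c ≠ 0) (ht : t ≠ 0) (hct : c ^ 3 ≠ t ^ 2) :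
    ∀ w₀ ∈ fibreVec c t, ∀ w ∈ fibreVec c t,
      ∃ M ∈ formStab L, (M : Matrix (Fin 2) (Fin 2) L) *ᵥ w₀ = w :=
  LabelPack.htrans_of_points hζ (Ppt hζ c t) (Qpt hζ c t)
    (fun x _ => ⟨Ppt_S hζ c t x, Qpt_S hζ c t x⟩)
    (fun x _ => ⟨Ppt_T hζ c t x, Qpt_T hζ c t x⟩)
    (fun x _ => ⟨Ppt_Z hζ c t x, Qpt_Z hζ c t x⟩)
    (fun x _ => ⟨five_nsmul_Ppt hζ c t x, five_nsmul_Qpt hζ c t x⟩)
    (fun _ hx _ _ hab => indep_Ppt_Qpt hζ hx (Ecurve_Δ_ne_zero hct) hab)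
    hc ht hct

/-- **Kernel of the label map** — no binder. -/
theorem klein_label_ker_final (hc : c ≠ 0) (ht : t ≠ 0) (hct : c ^ 3 ≠ t ^ 2) :
    ∀ w₀ ∈ fibreVec c t, ∀ w ∈ fibreVec c t,
      Ppt hζ c t w = Ppt hζ c t w₀ → Qpt hζ c t w = Qpt hζ c t w₀ →
      ∃ k < 5, ∀ i, w i = ζ ^ k * w₀ i :=
  LabelPack.ker_of_points hζ (Ppt hζ c t) (Qpt hζ c t)
    (fun x _ => ⟨Ppt_S hζ c t x, Qpt_S hζ c t x⟩)
    (fun x _ => ⟨Ppt_T hζ c t x, Qpt_T hζ c t x⟩)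
    (fun x _ => ⟨Ppt_Z hζ c t x, Qpt_Z hζ c t x⟩)
    (fun x _ => ⟨five_nsmul_Ppt hζ c t x, five_nsmul_Qpt hζ c t x⟩)
    (fun _ hx _ _ hab => indep_Ppt_Qpt hζ hx (Ecurve_Δ_ne_zero hct) hab)
    hc ht hct

end Fermat.Agent.G35.KleinTransFinal
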