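/-
GATE-Q (S52), node Q2 (SYMMETRY), file 3: Klein's matrix `S` (order 4, `S² = -1`) acting on the
cone `(u, v)`: invariance of the Klein forms `c4, T, f`, and `Q0 = P0 ∘ S`.
All identities are polynomial identities modulo the 5th cyclotomic polynomial in `z`, certified by
explicit cofactors (`linear_combination`).  Mathlib only.
-/
import Fermat.Agent.G35.Sym.P0

set_option autoImplicit false
set_option maxHeartbeats 1600000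

namespace Fermat.Agent.G35.Sym

variable {K : Type*} [Field K] [CharZero K]

/-- Entry `α = (ζ⁴ - ζ)/√5` of Klein's `S = [[α, β], [β, -α]]`. -/
def Sa (z : K) : K := (-1 - 2 * z - 3 * z ^ 2 + z ^ 3) / 5

/-- Entry `β = (ζ² - ζ³)/√5` of Klein's `S = [[α, β], [β, -α]]`. -/
def Sb (z : K) : K := (2 + 4 * z + z ^ 2 + 3 * z ^ 3) / 5

/-- First coordinate of `S • (u, v)`. -/
def Su (z u v : K) : K := Sa z * u + Sb z * v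

/-- Second coordinate of `S • (u, v)`. -/
def Sv (z u v : K) : K := Sb z * u - Sa z * v

theorem Sa_mul_sqrt5 {z : K} (hz : z ^ 4 + z ^ 3 + z ^ 2 + z + 1 = 0) : Sa z * sqrt5 z = z ^ 4 - z := by
  unfold Sa sqrt5
  linear_combination ((2 / 5) * z ^ 3 - (8 / 5) * z ^ 2 + (2 / 5) * z - (1 / 5)) * hz

theorem Sb_mul_sqrt5 {z : K} (hz : z ^ 4 + z ^ 3 + z ^ 2 + z + 1 = 0) : Sb z * sqrt5 z = z ^ 2 - z ^ 3 := by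
  unfold Sb sqrt5
  linear_combination ((6 / 5) * z ^ 3 - (4 / 5) * z ^ 2 + (6 / 5) * z + (2 / 5)) * hz

theorem Sa_sq_add_Sb_sq {z : K} (hz : z ^ 4 + z ^ 3 + z ^ 2 + z + 1 = 0) : Sa z ^ 2 + Sb z ^ 2 = -1 := by
  unfold Sa Sb
  linear_combination ((2 / 5) * z ^ 2 - (2 / 5) * z + (6 / 5)) * hz

/-- `S² = -1`, first coordinate. -/
theorem Su_S {z : K} (hz : z ^ 4 + z ^ 3 + z ^ 2 + z + 1 = 0) (u v : K) : Su z (Su z u v) (Sv z u v) = -u := by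
  unfold Su Sv Sa Sb
  linear_combination ((2 / 5) * z ^ 2 * u - (2 / 5) * z * u + (6 / 5) * u) * hz

/-- `S² = -1`, second coordinate. -/
theorem Sv_S {z : K} (hz : z ^ 4 + z ^ 3 + z ^ 2 + z + 1 = 0) (u v : K) : Sv z (Su z u v) (Sv z u v) = -v := by
  unfold Su Sv Sa Sb
  linear_combination ((2 / 5) * z ^ 2 * v - (2 / 5) * z * v + (6 / 5) * v) * hz

/-- The quintic form `(S • (u,v))₁ ^ 5` with coefficients reduced modulo the cyclotomic relation. -/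
def SU5 (z u v : K) : K :=
  -(1 / 25) * z ^ 3 * u ^ 5 - (7 / 25) * z ^ 2 * u ^ 5 - (8 / 25) * z * u ^ 5 - (4 / 25) * u ^
  5 + (2 / 5) * z ^ 3 * u ^ 4 * v + (4 / 5) * z ^ 2 * u ^ 4 * v + (6 / 5) * z * u ^ 4 * v + (3
  / 5) * u ^ 4 * v + (2 / 5) * z ^ 3 * u ^ 3 * v ^ 2 - (6 / 5) * z ^ 2 * u ^ 3 * v ^ 2 - (4 /
  5) * z * u ^ 3 * v ^ 2 - (2 / 5) * u ^ 3 * v ^ 2 + (6 / 5) * z ^ 3 * u ^ 2 * v ^ 3 + (2 / 5)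
  * z ^ 2 * u ^ 2 * v ^ 3 + (8 / 5) * z * u ^ 2 * v ^ 3 + (4 / 5) * u ^ 2 * v ^ 3 + (4 / 5) * z
  ^ 3 * u * v ^ 4 - (2 / 5) * z ^ 2 * u * v ^ 4 + (2 / 5) * z * u * v ^ 4 + (1 / 5) * u * v ^ 4
  + (7 / 25) * z ^ 3 * v ^ 5 - (1 / 25) * z ^ 2 * v ^ 5 + (6 / 25) * z * v ^ 5 + (3 / 25) * v ^
  5

/-- The quintic form `(S • (u,v))₂ ^ 5` with coefficients reduced modulo the cyclotomic relation. -/
def SV5 (z u v : K) : K :=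
  (7 / 25) * z ^ 3 * u ^ 5 - (1 / 25) * z ^ 2 * u ^ 5 + (6 / 25) * z * u ^ 5 + (3 / 25) * u ^ 5
  - (4 / 5) * z ^ 3 * u ^ 4 * v + (2 / 5) * z ^ 2 * u ^ 4 * v - (2 / 5) * z * u ^ 4 * v - (1 /
  5) * u ^ 4 * v + (6 / 5) * z ^ 3 * u ^ 3 * v ^ 2 + (2 / 5) * z ^ 2 * u ^ 3 * v ^ 2 + (8 / 5)
  * z * u ^ 3 * v ^ 2 + (4 / 5) * u ^ 3 * v ^ 2 - (2 / 5) * z ^ 3 * u ^ 2 * v ^ 3 + (6 / 5) * z
  ^ 2 * u ^ 2 * v ^ 3 + (4 / 5) * z * u ^ 2 * v ^ 3 + (2 / 5) * u ^ 2 * v ^ 3 + (2 / 5) * z ^ 3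
  * u * v ^ 4 + (4 / 5) * z ^ 2 * u * v ^ 4 + (6 / 5) * z * u * v ^ 4 + (3 / 5) * u * v ^ 4 +
  (1 / 25) * z ^ 3 * v ^ 5 + (7 / 25) * z ^ 2 * v ^ 5 + (8 / 25) * z * v ^ 5 + (4 / 25) * v ^ 5

theorem Su_pow_five {z : K} (hz : z ^ 4 + z ^ 3 + z ^ 2 + z + 1 = 0) (u v : K) : Su z u v ^ 5 = SU5 z u v := by
  unfold Su Sa Sb SU5
  linear_combination
    ((1 / 3125) * z ^ 11 * u ^ 5 - (16 / 3125) * z ^ 10 * u ^ 5 + (19 / 625) * z ^ 9 * u ^ 5 -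
      (47 / 625) * z ^ 8 * u ^ 5 + (24 / 625) * z ^ 7 * u ^ 5 + (283 / 3125) * z ^ 6 * u ^ 5 +
      (117 / 3125) * z ^ 5 * u ^ 5 - (84 / 625) * z ^ 4 * u ^ 5 - (178 / 625) * z ^ 3 * u ^ 5 -
      (34 / 625) * z ^ 2 * u ^ 5 + (491 / 3125) * z * u ^ 5 + (499 / 3125) * u ^ 5 + (3 / 625)
      * z ^ 11 * u ^ 4 * v - (38 / 625) * z ^ 10 * u ^ 4 * v + (33 / 125) * z ^ 9 * u ^ 4 * v -
      (2 / 5) * z ^ 8 * u ^ 4 * v + (3 / 125) * z ^ 7 * u ^ 4 * v - (71 / 625) * z ^ 6 * u ^ 4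
      * v + (211 / 625) * z ^ 5 * u ^ 4 * v + (147 / 125) * z ^ 4 * u ^ 4 * v + (4 / 5) * z ^ 3
      * u ^ 4 * v + (67 / 125) * z ^ 2 * u ^ 4 * v - (357 / 625) * z * u ^ 4 * v - (373 / 625)
      * u ^ 4 * v + (18 / 625) * z ^ 11 * u ^ 3 * v ^ 2 - (168 / 625) * z ^ 10 * u ^ 3 * v ^ 2
      + (94 / 125) * z ^ 9 * u ^ 3 * v ^ 2 - (74 / 125) * z ^ 8 * u ^ 3 * v ^ 2 + (84 / 125) *
      z ^ 7 * u ^ 3 * v ^ 2 - (746 / 625) * z ^ 6 * u ^ 3 * v ^ 2 - (1524 / 625) * z ^ 5 * u ^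
      3 * v ^ 2 - (264 / 125) * z ^ 4 * u ^ 3 * v ^ 2 - (376 / 125) * z ^ 3 * u ^ 3 * v ^ 2 -
      (14 / 125) * z ^ 2 * u ^ 3 * v ^ 2 + (178 / 625) * z * u ^ 3 * v ^ 2 + (242 / 625) * u ^
      3 * v ^ 2 + (54 / 625) * z ^ 11 * u ^ 2 * v ^ 3 - (324 / 625) * z ^ 10 * u ^ 2 * v ^ 3 +
      (18 / 25) * z ^ 9 * u ^ 2 * v ^ 3 - (104 / 125) * z ^ 8 * u ^ 2 * v ^ 3 + (58 / 25) * z ^
      7 * u ^ 2 * v ^ 3 + (1402 / 625) * z ^ 6 * u ^ 2 * v ^ 3 + (2208 / 625) * z ^ 5 * u ^ 2 *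
      v ^ 3 + (26 / 5) * z ^ 4 * u ^ 2 * v ^ 3 + (204 / 125) * z ^ 3 * u ^ 2 * v ^ 3 + (54 /
      25) * z ^ 2 * u ^ 2 * v ^ 3 - (356 / 625) * z * u ^ 2 * v ^ 3 - (484 / 625) * u ^ 2 * v ^
      3 + (81 / 625) * z ^ 11 * u * v ^ 4 - (216 / 625) * z ^ 10 * u * v ^ 4 + (27 / 125) * z ^
      9 * u * v ^ 4 - (219 / 125) * z ^ 8 * u * v ^ 4 - (148 / 125) * z ^ 7 * u * v ^ 4 - (2037
      / 625) * z ^ 6 * u * v ^ 4 - (2293 / 625) * z ^ 5 * u * v ^ 4 - (292 / 125) * z ^ 4 * u *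
      v ^ 4 - (406 / 125) * z ^ 3 * u * v ^ 4 - (12 / 125) * z ^ 2 * u * v ^ 4 - (269 / 625) *
      z * u * v ^ 4 - (141 / 625) * u * v ^ 4 + (243 / 3125) * z ^ 11 * v ^ 5 + (162 / 3125) *
      z ^ 10 * v ^ 5 + (297 / 625) * z ^ 9 * v ^ 5 + (234 / 625) * z ^ 8 * v ^ 5 + (687 / 625)
      * z ^ 7 * v ^ 5 + (3169 / 3125) * z ^ 6 * v ^ 5 + (3481 / 3125) * z ^ 5 * v ^ 5 + (783 /
      625) * z ^ 4 * v ^ 5 + (216 / 625) * z ^ 3 * v ^ 5 + (383 / 625) * z ^ 2 * v ^ 5 - (87 /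
      3125) * z * v ^ 5 - (343 / 3125) * v ^ 5) * hz

theorem Sv_pow_five {z : K} (hz : z ^ 4 + z ^ 3 + z ^ 2 + z + 1 = 0) (u v : K) : Sv z u v ^ 5 = SV5 z u v := by
  unfold Sv Sa Sb SV5
  linear_combination
    ((243 / 3125) * z ^ 11 * u ^ 5 + (162 / 3125) * z ^ 10 * u ^ 5 + (297 / 625) * z ^ 9 * u ^
      5 + (234 / 625) * z ^ 8 * u ^ 5 + (687 / 625) * z ^ 7 * u ^ 5 + (3169 / 3125) * z ^ 6 * u
      ^ 5 + (3481 / 3125) * z ^ 5 * u ^ 5 + (783 / 625) * z ^ 4 * u ^ 5 + (216 / 625) * z ^ 3 *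
      u ^ 5 + (383 / 625) * z ^ 2 * u ^ 5 - (87 / 3125) * z * u ^ 5 - (343 / 3125) * u ^ 5 -
      (81 / 625) * z ^ 11 * u ^ 4 * v + (216 / 625) * z ^ 10 * u ^ 4 * v - (27 / 125) * z ^ 9 *
      u ^ 4 * v + (219 / 125) * z ^ 8 * u ^ 4 * v + (148 / 125) * z ^ 7 * u ^ 4 * v + (2037 /
      625) * z ^ 6 * u ^ 4 * v + (2293 / 625) * z ^ 5 * u ^ 4 * v + (292 / 125) * z ^ 4 * u ^ 4
      * v + (406 / 125) * z ^ 3 * u ^ 4 * v + (12 / 125) * z ^ 2 * u ^ 4 * v + (269 / 625) * z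
      * u ^ 4 * v + (141 / 625) * u ^ 4 * v + (54 / 625) * z ^ 11 * u ^ 3 * v ^ 2 - (324 / 625)
      * z ^ 10 * u ^ 3 * v ^ 2 + (18 / 25) * z ^ 9 * u ^ 3 * v ^ 2 - (104 / 125) * z ^ 8 * u ^
      3 * v ^ 2 + (58 / 25) * z ^ 7 * u ^ 3 * v ^ 2 + (1402 / 625) * z ^ 6 * u ^ 3 * v ^ 2 +
      (2208 / 625) * z ^ 5 * u ^ 3 * v ^ 2 + (26 / 5) * z ^ 4 * u ^ 3 * v ^ 2 + (204 / 125) * z
      ^ 3 * u ^ 3 * v ^ 2 + (54 / 25) * z ^ 2 * u ^ 3 * v ^ 2 - (356 / 625) * z * u ^ 3 * v ^ 2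
      - (484 / 625) * u ^ 3 * v ^ 2 - (18 / 625) * z ^ 11 * u ^ 2 * v ^ 3 + (168 / 625) * z ^
      10 * u ^ 2 * v ^ 3 - (94 / 125) * z ^ 9 * u ^ 2 * v ^ 3 + (74 / 125) * z ^ 8 * u ^ 2 * v
      ^ 3 - (84 / 125) * z ^ 7 * u ^ 2 * v ^ 3 + (746 / 625) * z ^ 6 * u ^ 2 * v ^ 3 + (1524 /
      625) * z ^ 5 * u ^ 2 * v ^ 3 + (264 / 125) * z ^ 4 * u ^ 2 * v ^ 3 + (376 / 125) * z ^ 3
      * u ^ 2 * v ^ 3 + (14 / 125) * z ^ 2 * u ^ 2 * v ^ 3 - (178 / 625) * z * u ^ 2 * v ^ 3 -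
      (242 / 625) * u ^ 2 * v ^ 3 + (3 / 625) * z ^ 11 * u * v ^ 4 - (38 / 625) * z ^ 10 * u *
      v ^ 4 + (33 / 125) * z ^ 9 * u * v ^ 4 - (2 / 5) * z ^ 8 * u * v ^ 4 + (3 / 125) * z ^ 7
      * u * v ^ 4 - (71 / 625) * z ^ 6 * u * v ^ 4 + (211 / 625) * z ^ 5 * u * v ^ 4 + (147 /
      125) * z ^ 4 * u * v ^ 4 + (4 / 5) * z ^ 3 * u * v ^ 4 + (67 / 125) * z ^ 2 * u * v ^ 4 -
      (357 / 625) * z * u * v ^ 4 - (373 / 625) * u * v ^ 4 - (1 / 3125) * z ^ 11 * v ^ 5 + (16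
      / 3125) * z ^ 10 * v ^ 5 - (19 / 625) * z ^ 9 * v ^ 5 + (47 / 625) * z ^ 8 * v ^ 5 - (24
      / 625) * z ^ 7 * v ^ 5 - (283 / 3125) * z ^ 6 * v ^ 5 - (117 / 3125) * z ^ 5 * v ^ 5 +
      (84 / 625) * z ^ 4 * v ^ 5 + (178 / 625) * z ^ 3 * v ^ 5 + (34 / 625) * z ^ 2 * v ^ 5 -
      (491 / 3125) * z * v ^ 5 - (499 / 3125) * v ^ 5) * hz

end Fermat.Agent.G35.Sym
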