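/-
GATE-Q / S52 (3–5 switch), node Q2 = D4, TRANSPORTED TO `W(ℚ̄)` (helper16).

For an integral model `W` and a primitive 5th root of unity `ζ ∈ ℚ̄`, the TOTAL labelling maps

  `PW hζ W w, QW hζ W w : (W_ℚ⁄ℚ̄).Point`   (`= (EQb W).Point`, the prelude shape WITH its `G_ℚ`-action)

`:= curveIso (Ppt w)`, `curveIso (Qpt w)` (helper3's `PointsTot` at the rational fibre
`(cW W, tW W) = (c₄(W), -c₆(W))`, helper63's `ShortIso.curveIso`), with the whole dictionary D4: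

* (b1) `PW_S : PW (S w) = QW w`, `QW_S : QW (S w) = -PW w`;
* (b2) `PW_T : PW (T̃ w) = PW w`, `QW_T : QW (T̃ w) = QW w - PW w`;
* (b3) `PW_Z`, `QW_Z` : `Z` acts trivially;                      (all for ALL `w`)
* `five_nsmul_PW`, `five_nsmul_QW`;
* (d) `indep_PW_QW`, `span_PW_QW` on the fibre (`W.Δ ≠ 0`);
* (c) `smul_PW : σ • PW w = k • PW (σ ∘ w)` (`σ ζ = ζ ^ k`), `smul_QW : σ • QW w = QW (σ ∘ w)`;
* `PW_ne_zero`, `fibreW` API.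

Imports `G35/Sym/GalPointsTot` + `G35/Sym/GalPoints` only.
-/
import Fermat.Agent.G35.Sym.GalPointsTot
import Fermat.Agent.G35.Sym.GalPoints

set_option autoImplicit false

open scoped WeierstrassCurve.Affine

namespace Fermat.Agent.G35.Sym.TotalW

open WeierstrassCurve Fermat.Agent.G35 Fermat.Agent.G35.ShortIso Fermat.Agent.G35.PointsTot
  Fermat.Agent.G35.Sym.GalPointsTot Matrix

local notation "Qb" => AlgebraicClosure ℚ
local notation "GQ" => (AlgebraicClosure ℚ ≃ₐ[ℚ] AlgebraicClosure ℚ)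

variable {ζ : Qb} (hζ : ζ ^ 4 + ζ ^ 3 + ζ ^ 2 + ζ + 1 = 0) (W : WeierstrassCurve ℤ)

/-- the Klein fibre of `W` : `{w | c4 w = c₄(W) ∧ T6 w = -c₆(W)}`. -/
def fibreW : Set (Fin 2 → Qb) := Cocycle.fibreVec (cW W) (tW W)

theorem mem_fibreW_iff (w : Fin 2 → Qb) :
    w ∈ fibreW W ↔ Free.c4 (w 0) (w 1) = ((W.c₄ : ℤ) : Qb) ∧
      Free.T6 (w 0) (w 1) = -((W.c₆ : ℤ) : Qb) := Iff.rfl

theorem ecurve_Δ_ne_zero (hΔ : W.Δ ≠ 0) : (Ecurve (cW W) (tW W)).Δ ≠ 0 := by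
  rw [ecurve_eq_shortQb]
  exact GalPoints.shortQb_Δ_ne_zero W hΔ

/-- the total map `P` with values in `W(ℚ̄)`. -/
noncomputable def PW (w : Fin 2 → Qb) : ((WQ W)⁄Qb).Point :=
  curveIso (ecurve_eq_shortQb W) (Ppt hζ (cW W) (tW W) w)

/-- the total map `Q` with values in `W(ℚ̄)`. -/
noncomputable def QW (w : Fin 2 → Qb) : ((WQ W)⁄Qb).Point :=
  curveIso (ecurve_eq_shortQb W) (Qpt hζ (cW W) (tW W) w)

theorem PW_def (w : Fin 2 → Qb) :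
    PW hζ W w = curveIso (ecurve_eq_shortQb W) (Ppt hζ (cW W) (tW W) w) := rfl

theorem QW_def (w : Fin 2 → Qb) :
    QW hζ W w = curveIso (ecurve_eq_shortQb W) (Qpt hζ (cW W) (tW W) w) := rfl

/-! ### the generators -/

/-- (b1) `P (S w) = Q w`. -/
theorem PW_S (w : Fin 2 → Qb) : PW hζ W (KleinTrans.Smat ζ *ᵥ w) = QW hζ W w := rfl

/-- (b1) `Q (S w) = -P w`. -/
theorem QW_S (w : Fin 2 → Qb) : QW hζ W (KleinTrans.Smat ζ *ᵥ w) = -PW hζ W w := by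
  rw [QW_def, Qpt_S, map_neg, PW_def]

/-- (b2) `P (T̃ w) = P w`. -/
theorem PW_T (w : Fin 2 → Qb) : PW hζ W (KleinTrans.Tmat ζ *ᵥ w) = PW hζ W w := by
  rw [PW_def, Ppt_T, PW_def]

/-- (b2) `Q (T̃ w) = Q w - P w`. -/
theorem QW_T (w : Fin 2 → Qb) :
    QW hζ W (KleinTrans.Tmat ζ *ᵥ w) = QW hζ W w - PW hζ W w := by
  rw [QW_def, Qpt_T, map_sub, PW_def, QW_def]

/-- (b3) `P (Z w) = P w`. -/
theorem PW_Z (w : Fin 2 → Qb) : PW hζ W (KleinTrans.Zmat ζ *ᵥ w) = PW hζ W w := by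
  rw [PW_def, Ppt_Z, PW_def]

/-- (b3) `Q (Z w) = Q w`. -/
theorem QW_Z (w : Fin 2 → Qb) : QW hζ W (KleinTrans.Zmat ζ *ᵥ w) = QW hζ W w := by
  rw [QW_def, Qpt_Z, QW_def]

/-! ### torsion, independence, spanning -/

theorem five_nsmul_PW (w : Fin 2 → Qb) : (5 : ℕ) • PW hζ W w = 0 := by
  rw [PW_def, ← map_nsmul, five_nsmul_Ppt, map_zero]

theorem five_nsmul_QW (w : Fin 2 → Qb) : (5 : ℕ) • QW hζ W w = 0 := by
  rw [QW_def, ← map_nsmul, five_nsmul_Qpt, map_zero]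

/-- (d) INDEPENDENCE on the fibre. -/
theorem indep_PW_QW (hΔ : W.Δ ≠ 0) {w : Fin 2 → Qb} (hw : w ∈ fibreW W) {a b : ℤ}
    (hab : a • PW hζ W w + b • QW hζ W w = 0) : (5 : ℤ) ∣ a ∧ (5 : ℤ) ∣ b := by
  rw [PW_def, QW_def, ← map_zsmul, ← map_zsmul, ← map_add,
    AddEquivClass.map_eq_zero_iff] at hab
  exact indep_Ppt_Qpt hζ hw (ecurve_Δ_ne_zero W hΔ) hab

/-- SPANNING on the fibre: every point of `W(ℚ̄)` killed by `5` is `a • P w + b • Q w`. -/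
theorem span_PW_QW (hΔ : W.Δ ≠ 0) {w : Fin 2 → Qb} (hw : w ∈ fibreW W)
    {R : ((WQ W)⁄Qb).Point} (hR : (5 : ℕ) • R = 0) :
    ∃ a b : ℤ, R = a • PW hζ W w + b • QW hζ W w := by
  have hR' : (5 : ℕ) • (curveIso (ecurve_eq_shortQb W)).symm R = 0 := by
    rw [← map_nsmul, hR, map_zero]
  obtain ⟨a, b, hab⟩ := span_Ppt_Qpt hζ hw (ecurve_Δ_ne_zero W hΔ) hR'
  refine ⟨a, b, ?_⟩
  have := congrArg (curveIso (ecurve_eq_shortQb W)) hab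
  rw [AddEquiv.apply_symm_apply, map_add, map_zsmul, map_zsmul] at this
  exact this

theorem PW_ne_zero (hΔ : W.Δ ≠ 0) {w : Fin 2 → Qb} (hw : w ∈ fibreW W) : PW hζ W w ≠ 0 := by
  intro h0
  have h := indep_PW_QW hζ W hΔ hw (a := 1) (b := 0) (by rw [h0]; simp)
  have : (5 : ℤ) ∣ 1 := h.1
  norm_num at this

theorem QW_ne_zero (hΔ : W.Δ ≠ 0) {w : Fin 2 → Qb} (hw : w ∈ fibreW W) : QW hζ W w ≠ 0 := by
  intro h0
  have h := indep_PW_QW hζ W hΔ hw (a := 0) (b := 1) (by rw [h0]; simp)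
  have : (5 : ℤ) ∣ 1 := h.2
  norm_num at this

/-! ### the fibre and the generators -/

include hζ in
theorem S_mem_fibreW_iff (w : Fin 2 → Qb) :
    KleinTrans.Smat ζ *ᵥ w ∈ fibreW W ↔ w ∈ fibreW W := S_mem_fibreVec_iff hζ _ _ w

include hζ in
theorem T_mem_fibreW_iff (w : Fin 2 → Qb) :
    KleinTrans.Tmat ζ *ᵥ w ∈ fibreW W ↔ w ∈ fibreW W := T_mem_fibreVec_iff hζ _ _ w

include hζ in
theorem Z_mem_fibreW_iff (w : Fin 2 → Qb) :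
    KleinTrans.Zmat ζ *ᵥ w ∈ fibreW W ↔ w ∈ fibreW W := Z_mem_fibreVec_iff hζ _ _ w

theorem conj_mem_fibreW_iff (σ : GQ) (w : Fin 2 → Qb) :
    (fun i => σ (w i)) ∈ fibreW W ↔ w ∈ fibreW W := mem_fibreVec_conj_iff W σ w

/-! ### (c) Galois -/

/-- **D4(c)**: `σ • P w = k • P (σ w)` when `σ ζ = ζ ^ k`. -/
theorem smul_PW (σ : GQ) (k : ℕ) (hσ : σ ζ = ζ ^ k) (w : Fin 2 → Qb) :
    σ • PW hζ W w = k • PW hζ W (fun i => σ (w i)) :=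
  smul_curveIso_Ppt hζ σ k hσ w

/-- **D4(c)**: `σ • Q w = Q (σ w)` for every `σ`. -/
theorem smul_QW (σ : GQ) (w : Fin 2 → Qb) :
    σ • QW hζ W w = QW hζ W (fun i => σ (w i)) :=
  smul_curveIso_Qpt hζ σ w

end Fermat.Agent.G35.Sym.TotalW
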